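import Fermat.Agent.DR.Conc.Formulas
import Fermat.Agent.GAL.Hecke.PlacesAbove
import Fermat.Agent.GAL.Igusa.PoleSpaceIff

/-!
# DR/Conc, block X: the `W`-invariant coordinate `x = j * j_q` of `FN (M q)`

Poles of `x` = poles of `j` = poles of `j_q` = cusps; zeros of `x` = zeros of `j` and of `j_q`.
Both charts `regOff x` (affine part) and `regOff x⁻¹` (neighbourhood of the cusps) are stable under
`W` and receive `α`, `β` of the corresponding charts of level `M`.
`deg (x)_∞ = 2 (q + 1) ψ(M) = deg (x̄₁)_∞ + deg (x̄₂)_∞`, `x̄₁ = x̄₂ = j̄^(q+1)`.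
-/

set_option autoImplicit false
set_option linter.unusedSectionVars false

noncomputable section

namespace Fermat.Agent.DR.Conc

open ModularCurve AlgebraicCurve Fermat.Agent.S24 Fermat.Agent.GAL Fermat.Agent.GAL.Gauss
  Fermat.Agent.GAL.RED Fermat.Agent.DR.Gal

variable (M q : ℕ) [NeZero M] [NeZero q] (hq : q.Prime) (hqM : ¬ q ∣ M)

/-- The `W`-invariant coordinate. -/
def xN : FN (M * q) := jN M q * jqN M q

theorem W_xN : W M q hq hqM (xN M q) = xN M q := by
  rw [xN, map_mul, W_jN, W_jqN]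
  exact mul_comm _ _

include hq in
theorem Coord_Phi : ∃ Φ : Polynomial (Polynomial ℤ), Φ.Monic ∧
    (Φ.map (S28.evY (jN M q))).eval (jqN M q) = 0 := by
  obtain ⟨Φ, U, G, m, c, hBp⟩ := S28.statementB S28.statementA q hq
  refine ⟨Φ, hBp.2.1, ?_⟩
  have hpK : ((q : ℕ) : AlgebraicClosure Kbar) ≠ 0 := Nat.cast_ne_zero.mpr hq.ne_zero
  have h := S28.Phi_jd Kbar hBp hpK 1 one_ne_zero
  rw [S28.jd_one, mul_one, S28.jd_eq] at h
  apply Subtype.val_injective
  have h2 := S28.map_eval_evY (algebraMap (FN (M * q)) (LaurentSeries Kbar)) (jN M q) (jqN M q) Φ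
  have e1 : algebraMap (FN (M * q)) (LaurentSeries Kbar) (jN M q) = jqModC Kbar := coe_jN M q
  have e2 : algebraMap (FN (M * q)) (LaurentSeries Kbar) (jqN M q) = qExpand Kbar q (jqModC Kbar) :=
    coe_jqN M q
  rw [e1, e2, h] at h2
  exact h2

include hq in
/-- (X1) `j_q` is integral over `Kbar[j]`.
PROOF. `S28.statementB S28.statementA` at `p = q`, `K = Kbar`, `ζ` a primitive `q`-th root of unity: a monic
`Φ : ℤ[X][X]` with `Φ.map (evBase q Kbar) = (X - C (rootInf q Kbar)) * ∏ ...`; evaluate at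
`rootInf = (j(t^q))(t^q)`; `evBase q Kbar = (qExpand Kbar q) ∘ evJ Kbar` and `qExpand` is injective, so
`(Φ.map (evJ Kbar)).eval (j(t^q)) = 0`.  Transport to `FN (M q)` (`coe_jN`, `coe_jqN`). -/
theorem isIntegral_jqN : IsIntegral (Algebra.adjoin Kbar {jN M q}) (jqN M q) := by
  obtain ⟨Φ, hΦ, h⟩ := Coord_Phi M q hq
  refine S28.isIntegral_of_evY Φ hΦ (jN M q) (jqN M q) ?_ h
  exact isIntegral_algebraMap (R := Algebra.adjoin Kbar {jN M q}) (A := FN (M * q))
    (x := ⟨jN M q, Algebra.subset_adjoin (Set.mem_singleton _)⟩)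

include hq hqM in
/-- apply `W` to (X1). -/
theorem isIntegral_jN : IsIntegral (Algebra.adjoin Kbar {jqN M q}) (jN M q) := by
  obtain ⟨Φ, hΦ, h⟩ := Coord_Phi M q hq
  have h2 := S28.map_eval_evY ((W M q hq hqM : FN (M * q) ≃ₐ[Kbar] FN (M * q)) :
    FN (M * q) →+* FN (M * q)) (jN M q) (jqN M q) Φ
  rw [h, map_zero] at h2
  have e1 : ((W M q hq hqM : FN (M * q) ≃ₐ[Kbar] FN (M * q)) :
    FN (M * q) →+* FN (M * q)) (jN M q) = jqN M q := W_jN M q hq hqM
  have e2 : ((W M q hq hqM : FN (M * q) ≃ₐ[Kbar] FN (M * q)) :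
    FN (M * q) →+* FN (M * q)) (jqN M q) = jN M q := W_jqN M q hq hqM
  rw [e1, e2] at h2
  refine S28.isIntegral_of_evY Φ hΦ (jqN M q) (jN M q) ?_ h2.symm
  exact isIntegral_algebraMap (R := Algebra.adjoin Kbar {jqN M q}) (A := FN (M * q))
    (x := ⟨jqN M q, Algebra.subset_adjoin (Set.mem_singleton _)⟩)

include hq hqM in
/-- (X2) (`Igusa.mem_place_of_isIntegral`) -/
theorem jqN_mem_place_iff (P : Place Kbar (FN (M * q))) :
    jqN M q ∈ P.toValuationSubring ↔ jN M q ∈ P.toValuationSubring :=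
  ⟨fun h => Igusa.mem_place_of_isIntegral P h (isIntegral_jN M q hq hqM),
    fun h => Igusa.mem_place_of_isIntegral P h (isIntegral_jqN M q hq)⟩

theorem Coord_transcendental_jN : Transcendental Kbar (jN M q) := transcendental_jF (M * q)

theorem Coord_jN_ne_zero : jN M q ≠ 0 := by
  intro h
  have := Coord_transcendental_jN M q
  rw [h] at this
  exact this (isAlgebraic_zero)

theorem Coord_jqN_ne_zero : jqN M q ≠ 0 := by
  rw [jqN, Ne, map_eq_zero]
  intro h
  have := transcendental_jF M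
  rw [h] at this
  exact this (isAlgebraic_zero)

include hq hqM in
theorem xN_mem_place_iff (P : Place Kbar (FN (M * q))) :
    xN M q ∈ P.toValuationSubring ↔ jN M q ∈ P.toValuationSubring := by
  constructor
  · intro hx
    by_contra hj
    have hjq : jqN M q ∉ P.toValuationSubring := fun h => hj ((jqN_mem_place_iff M q hq hqM P).1 h)
    have hinv : (jqN M q)⁻¹ ∈ P.toValuationSubring :=
      (P.toValuationSubring.mem_or_inv_mem (jqN M q)).resolve_left hjq
    apply hj
    have : jN M q = xN M q * (jqN M q)⁻¹ := by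
      rw [xN, mul_assoc, mul_inv_cancel₀ (Coord_jqN_ne_zero M q), mul_one]
    rw [this]
    exact mul_mem hx hinv
  · intro hj
    exact mul_mem hj ((jqN_mem_place_iff M q hq hqM P).2 hj)

include hq hqM in
theorem xN_inv_mem_place_iff (P : Place Kbar (FN (M * q))) :
    (xN M q)⁻¹ ∈ P.toValuationSubring ↔
      (jN M q)⁻¹ ∈ P.toValuationSubring ∧ (jqN M q)⁻¹ ∈ P.toValuationSubring := by
  constructor
  · intro hx
    by_cases hj : jN M q ∈ P.toValuationSubring
    · have hjq := (jqN_mem_place_iff M q hq hqM P).2 hj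
      constructor
      · have : (jN M q)⁻¹ = (xN M q)⁻¹ * jqN M q := by
          rw [xN, mul_inv, mul_assoc, inv_mul_cancel₀ (Coord_jqN_ne_zero M q), mul_one]
        rw [this]
        exact mul_mem hx hjq
      · have : (jqN M q)⁻¹ = (xN M q)⁻¹ * jN M q := by
          rw [xN, mul_inv, mul_comm (jN M q)⁻¹, mul_assoc, inv_mul_cancel₀ (Coord_jN_ne_zero M q),
            mul_one]
        rw [this]
        exact mul_mem hx hj
    · have hjq : jqN M q ∉ P.toValuationSubring := fun h => hj ((jqN_mem_place_iff M q hq hqM P).1 h)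
      exact ⟨(P.toValuationSubring.mem_or_inv_mem _).resolve_left hj,
        (P.toValuationSubring.mem_or_inv_mem _).resolve_left hjq⟩
  · rintro ⟨h1, h2⟩
    rw [xN, mul_inv]
    exact mul_mem h1 h2

include hq hqM in
theorem regOff_xN : regOff Kbar (xN M q) = regOff Kbar (jN M q) := by
  ext y
  simp only [mem_regOff, xN_mem_place_iff M q hq hqM]

/-- an automorphism preserves `regOff x` if it fixes `x`. -/
theorem Coord_algEquiv_mem_regOff {K F : Type*} [Field K] [Field F] [Algebra K F]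
    (w : F ≃ₐ[K] F) {x y : F} (hx : w x = x) (hy : y ∈ regOff K x) : w y ∈ regOff K x := by
  intro P hP
  have key : ∀ z : F, z ∈ ((SemilinearAut.ofAlgAut w)⁻¹ • P).toValuationSubring ↔
      w z ∈ P.toValuationSubring := by
    intro z
    rw [SemilinearAut.smul_toValuationSubring,
      ValuationSubring.mem_pointwise_smul_iff_inv_smul_mem, inv_inv]
    rfl
  rw [← key]
  apply hy
  rw [key, hx]
  exact hP

/-- (X3) `W` permutes the places, so it preserves the two charts. -/
theorem W_mem_regOff_xN {y : FN (M * q)} (hy : y ∈ regOff Kbar (xN M q)) :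
    W M q hq hqM y ∈ regOff Kbar (xN M q) := by
  exact Coord_algEquiv_mem_regOff _ (W_xN M q hq hqM) hy

theorem W_mem_regOff_xN_inv {y : FN (M * q)} (hy : y ∈ regOff Kbar (xN M q)⁻¹) :
    W M q hq hqM y ∈ regOff Kbar (xN M q)⁻¹ := by
  exact Coord_algEquiv_mem_regOff _ (by rw [map_inv₀, W_xN]) hy

/-- pull-back of `regOff` along an integral homomorphism. -/
theorem Coord_map_mem_regOff {K F F' : Type*} [Field K] [Field F] [Field F'] [Algebra K F]
    [Algebra K F'] (φ : F →ₐ[K] F') (hφ : φ.toRingHom.IsIntegral) {x u : F}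
    (hu : u ∈ regOff K x) : φ u ∈ regOff K (φ x) := by
  let _ := algebraAlong φ
  have := isScalarTower_along φ
  have := isIntegral_along φ hφ
  intro P hP
  exact hu (P.restrict F) hP

include hq hqM in
/-- (X4) old functions.  (Restrict a place `P` of `FN (M q)` along `α`: `Place.restrict` for
`algebraAlong (heckeAlphaBar Kbar M q)`, `Hecke.integral_alpha`; `jN = α (jF M)`.) -/
theorem alpha_mem_regOff {u : FN M} (hu : u ∈ regOff Kbar (jF M)) :
    heckeAlphaBar Kbar M q u ∈ regOff Kbar (xN M q) := by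
  intro P hP
  rw [xN_mem_place_iff M q hq hqM, jN_eq_alpha] at hP
  exact Coord_map_mem_regOff _ (Hecke.integral_alpha M q) hu P hP

include hq hqM in
theorem beta_mem_regOff {u : FN M} (hu : u ∈ regOff Kbar (jF M)) :
    heckeBetaBar Kbar M q u ∈ regOff Kbar (xN M q) := by
  rw [← W_alpha M q hq hqM]
  exact W_mem_regOff_xN M q hq hqM (alpha_mem_regOff M q hq hqM hu)

include hq hqM in
theorem alpha_mem_regOff_inv {u : FN M} (hu : u ∈ regOff Kbar (jF M)⁻¹) :
    heckeAlphaBar Kbar M q u ∈ regOff Kbar (xN M q)⁻¹ := by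
  intro P hP
  have hP' := ((xN_inv_mem_place_iff M q hq hqM P).1 hP).1
  rw [jN_eq_alpha, ← map_inv₀] at hP'
  exact Coord_map_mem_regOff _ (Hecke.integral_alpha M q) hu P hP'

include hq hqM in
theorem beta_mem_regOff_inv {u : FN M} (hu : u ∈ regOff Kbar (jF M)⁻¹) :
    heckeBetaBar Kbar M q u ∈ regOff Kbar (xN M q)⁻¹ := by
  rw [← W_alpha M q hq hqM]
  exact W_mem_regOff_xN_inv M q hq hqM (alpha_mem_regOff_inv M q hq hqM hu)

theorem Coord_poleDiv_eq {K F : Type*} [Field K] [Field F] [Algebra K F]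
    [HasPrincipalDivisors K F] (y : F) : RED.poleDiv (K := K) y = Igusa.poleDiv (K := K) y := by
  ext P
  rw [RED.poleDiv_apply, Igusa.poleDiv_apply, max_comm]

theorem Coord_poleDiv_algEquiv {K F : Type*} [Field K] [Field F] [Algebra K F]
    [HasPrincipalDivisors K F] (w : F ≃ₐ[K] F) (y : F) :
    RED.poleDiv (K := K) (w y) = SemilinearAut.ofAlgAut w • RED.poleDiv (K := K) y := by
  ext P
  rw [SemilinearAut.divisor_smul_apply, RED.poleDiv_apply, RED.poleDiv_apply]
  have h := SemilinearAut.ord_smul (SemilinearAut.ofAlgAut w) ((SemilinearAut.ofAlgAut w)⁻¹ • P) y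
  rw [smul_inv_smul] at h
  rw [← h]
  rfl

theorem Coord_poleDiv_pow {K F : Type*} [Field K] [Field F] [Algebra K F]
    [HasPrincipalDivisors K F] (y : F) (n : ℕ) :
    RED.poleDiv (K := K) (y ^ n) = n • RED.poleDiv (K := K) y := by
  ext P
  rw [Finsupp.smul_apply, RED.poleDiv_apply, RED.poleDiv_apply, RED.ord_pow, nsmul_eq_mul]
  rcases le_total (P.ord y) 0 with h | h
  · rw [max_eq_left (by nlinarith [Nat.cast_nonneg (α := ℤ) n] : (0:ℤ) ≤ -(n * P.ord y)),
      max_eq_left (by omega : (0:ℤ) ≤ -(P.ord y))]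
    ring
  · rw [max_eq_right (by nlinarith [Nat.cast_nonneg (α := ℤ) n] : -(n * P.ord y) ≤ (0:ℤ)),
      max_eq_right (by omega : -(P.ord y) ≤ (0:ℤ)), mul_zero]

include hq hqM in
theorem Coord_poleDiv_xN [Lib.RR.IsFF Kbar (FN (M * q))] :
    RED.poleDiv (K := Kbar) (xN M q) =
      RED.poleDiv (K := Kbar) (jN M q) + RED.poleDiv (K := Kbar) (jqN M q) := by
  ext P
  rw [Finsupp.add_apply, RED.poleDiv_apply, RED.poleDiv_apply, RED.poleDiv_apply, xN,
    P.ord_mul (Coord_jN_ne_zero M q) (Coord_jqN_ne_zero M q)]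
  have h := jqN_mem_place_iff M q hq hqM P
  rw [mem_iff_ord_nonneg P (Coord_jN_ne_zero M q), mem_iff_ord_nonneg P (Coord_jqN_ne_zero M q)] at h
  rcases le_or_gt 0 (P.ord (jN M q)) with h1 | h1
  · have h2 := h.2 h1
    rw [max_eq_right (by omega), max_eq_right (by omega), max_eq_right (by omega)]
    rfl
  · have h2 : P.ord (jqN M q) < 0 := by
      by_contra hcon
      have := h.1 (by omega)
      omega
    rw [max_eq_left (by omega), max_eq_left (by omega), max_eq_left (by omega)]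
    ring

theorem Coord_degree_poleDiv_jN [Lib.RR.IsFF Kbar (FN (M * q))] :
    Divisor.degree (RED.poleDiv (K := Kbar) (jN M q)) = (dedekindPsi (M * q) : ℕ) := by
  have := finiteDimensional_jF (M * q)
  have : CharZero ↥(IntermediateField.adjoin Kbar {jF (M * q)}) :=
    charZero_of_injective_algebraMap
      (algebraMap Kbar ↥(IntermediateField.adjoin Kbar {jF (M * q)})).injective
  have : Algebra.IsIntegral ↥(IntermediateField.adjoin Kbar {jF (M * q)}) (FN (M * q)) :=
    Algebra.IsIntegral.of_finite _ _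
  have : Algebra.IsSeparable ↥(IntermediateField.adjoin Kbar {jF (M * q)}) (FN (M * q)) :=
    Algebra.IsSeparable.of_integral _ _
  rw [Coord_poleDiv_eq, jN, Igusa.degree_poleDiv (jF (M * q)) (transcendental_jF (M * q)),
    Hecke.finrank_jF]

include hq hqM in
theorem Coord_dedekindPsi : dedekindPsi (M * q) = (q + 1) * dedekindPsi M := by
  have hcop : M.Coprime q := ((Nat.Prime.coprime_iff_not_dvd hq).2 hqM).symm
  have h1 := Lib.Gamma0Cosets.dedekindPsi_prime_pow hq 0
  rw [zero_add, pow_one, pow_zero] at h1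
  rw [Lib.Gamma0Cosets.dedekindPsi_mul hcop, h1, mul_comm]

include hq hqM in
/-- (X5) `deg (x)_∞ = 2 ψ(M q)`.
PROOF. `(x)_∞ = (j)_∞ + (j_q)_∞` by (X2) (at a pole of `j` also `j_q` has a pole);
`deg (j)_∞ = [F : Kbar(j)] = ψ(M q)` (`Igusa.degree_poleDiv`, `Hecke.finrank_jF`; `RED.poleDiv` and
`Igusa.poleDiv` agree); `deg (j_q)_∞ = deg (j)_∞` because `W` permutes the places
(`SemilinearAut.ofAlgAut`, `SemilinearAut.degree_smul`) or because `[F : Kbar(j_q)] = [F : Kbar(j)]`. -/
theorem degree_poleDiv_xN [Lib.RR.IsFF Kbar (FN (M * q))] :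
    Divisor.degree (RED.poleDiv (K := Kbar) (xN M q)) = 2 * ((q + 1) * dedekindPsi M : ℕ) := by
  rw [Coord_poleDiv_xN M q hq hqM, map_add, ← W_jN M q hq hqM, Coord_poleDiv_algEquiv,
    SemilinearAut.degree_smul, Coord_degree_poleDiv_jN, Coord_dedekindPsi M q hq hqM]
  ring

/-- (X6) `deg (j̄^(q+1))_∞ = (q + 1) ψ(M)`. -/
theorem degree_poleDiv_xb (k : Type) [Field k] [IsAlgClosed k] (hM : ((M : ℕ) : k) ≠ 0)
    [Lib.RR.IsFF k (Igusa.E k M)] :
    Divisor.degree (RED.poleDiv (K := k) (Igusa.jb k M ^ (q + 1))) =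
      ((q + 1) * dedekindPsi M : ℕ) := by
  have := Igusa.finiteDimensional_jb k M hM
  have := Igusa.isSeparable_jb k M hM
  rw [Coord_poleDiv_pow, map_nsmul, Coord_poleDiv_eq,
    Igusa.degree_poleDiv (Igusa.jb k M) (Igusa.transcendental_jb k M), Igusa.finrank_jb k M hM]
  simp

variable (A : ValuationSubring Kbar) (hA : A.LiesOverPrime q)

theorem R1_red_xN :
    (R1 A M q hq hqM hA).red (xN M q) = Igusa.jb (IsLocalRing.ResidueField ↥A) M ^ (q + 1) := by
  have hjb : Igusa.jb (IsLocalRing.ResidueField ↥A) M ≠ 0 := by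
    intro h
    have := Igusa.transcendental_jb (IsLocalRing.ResidueField ↥A) M
    rw [h] at this
    exact this isAlgebraic_zero
  have h1 := R1_red_jN A M q hq hqM hA
  have h2 := R1_red_jqN A M q hq hqM hA
  have m1 : jN M q ∈ (R1 A M q hq hqM hA).O :=
    (R1 A M q hq hqM hA).mem_of_red_ne_zero (by rw [h1]; exact hjb)
  have m2 : jqN M q ∈ (R1 A M q hq hqM hA).O :=
    (R1 A M q hq hqM hA).mem_of_red_ne_zero (by rw [h2]; exact pow_ne_zero _ hjb)
  rw [xN, (R1 A M q hq hqM hA).red_mul m1 m2, h1, h2, pow_succ']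

theorem R2_red_xN :
    (R2 A M q hq hqM hA).red (xN M q) = Igusa.jb (IsLocalRing.ResidueField ↥A) M ^ (q + 1) := by
  rw [R2_red, W_xN, R1_red_xN]

end Fermat.Agent.DR.Conc
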