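import Fermat.Agent.DR.Conc.RedData
import Fermat.Agent.DR.Gal.Defs
import Fermat.Agent.GAL.RED.Main
import Fermat.Agent.GAL.Igusa.Main
import Fermat.Agent.GAL.Tors.Desc.IsFF

/-!
# DR/Conc, block L: the level `M` (prime to the residue characteristic): the Gauss reduction datum
`RM` on `FN M`, and lifting of functions regular outside the cusps (good reduction).
-/

set_option autoImplicit false
set_option linter.unusedSectionVars false

noncomputable section

namespace Fermat.Agent.DR.Conc

open ModularCurve AlgebraicCurve Fermat.Agent.S24 Fermat.Agent.GAL Fermat.Agent.GAL.Gauss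
  Fermat.Agent.GAL.RED Fermat.Agent.DR.Gal Fermat.Agent.Lib.RR

variable (A : ValuationSubring Kbar) (M : ℕ) [NeZero M]
  (hM : ((M : ℕ) : IsLocalRing.ResidueField ↥A) ≠ 0)

/-- The Gauss reduction datum on an intermediate field equal to `modularFunctionFieldFullC Kbar M`. -/
def gaussRedData' (E' : IntermediateField Kbar (LaurentSeries Kbar))
    (hE : E' = modularFunctionFieldFullC Kbar M) :
    RedData Kbar ↥E' (IsLocalRing.ResidueField ↥A) (Igusa.E (IsLocalRing.ResidueField ↥A) M) := by
  subst hE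
  exact gaussRedData A M hM

theorem mem_gaussRedData'_O_iff (E' : IntermediateField Kbar (LaurentSeries Kbar))
    (hE : E' = modularFunctionFieldFullC Kbar M) (x : ↥E') :
    x ∈ (gaussRedData' A M hM E' hE).O ↔ (x : LaurentSeries Kbar) ∈ gRing A := by
  subst hE
  rfl

theorem coe_gaussRedData'_red (E' : IntermediateField Kbar (LaurentSeries Kbar))
    (hE : E' = modularFunctionFieldFullC Kbar M) (x : ↥E')
    (hx : (x : LaurentSeries Kbar) ∈ gRing A) :
    (((gaussRedData' A M hM E' hE).red x : Igusa.E (IsLocalRing.ResidueField ↥A) M) :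
      LaurentSeries (IsLocalRing.ResidueField ↥A)) = gRes A ⟨_, hx⟩ := by
  subst hE
  have hx' : x ∈ (gaussRedData A M hM).O := hx
  show (((gaussRedData A M hM).red x : Igusa.E (IsLocalRing.ResidueField ↥A) M) :
      LaurentSeries (IsLocalRing.ResidueField ↥A)) = _
  rw [(gaussRedData A M hM).red_of_mem hx']
  rfl

theorem gaussRedData'_isCartesian (E' : IntermediateField Kbar (LaurentSeries Kbar))
    (hE : E' = modularFunctionFieldFullC Kbar M) : (gaussRedData' A M hM E' hE).IsCartesian := by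
  subst hE
  exact gaussRedData_isCartesian hM

theorem gaussRedData'_A (E' : IntermediateField Kbar (LaurentSeries Kbar))
    (hE : E' = modularFunctionFieldFullC Kbar M) : (gaussRedData' A M hM E' hE).A = A := by
  subst hE
  rfl

/-- **The Gauss reduction datum of level `M`** on `FN M`. -/
def RM : RedData Kbar (FN M) (IsLocalRing.ResidueField ↥A)
    (Igusa.E (IsLocalRing.ResidueField ↥A) M) :=
  gaussRedData' A M hM (modularFunctionFieldBar M) (Igusa.modularFunctionFieldBar_eq M)

theorem mem_RM_O_iff (x : FN M) :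
    x ∈ (RM A M hM).O ↔ (x : LaurentSeries Kbar) ∈ gRing A :=
  mem_gaussRedData'_O_iff A M hM _ _ x

theorem coe_RM_red (x : FN M) (hx : (x : LaurentSeries Kbar) ∈ gRing A) :
    (((RM A M hM).red x : Igusa.E (IsLocalRing.ResidueField ↥A) M) :
      LaurentSeries (IsLocalRing.ResidueField ↥A)) = gRes A ⟨_, hx⟩ :=
  coe_gaussRedData'_red A M hM _ _ x hx

theorem RM_isCartesian : (RM A M hM).IsCartesian := gaussRedData'_isCartesian A M hM _ _

/-- `genusFF` of `FN M` and of `E Kbar M` agree (equal intermediate fields). -/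
theorem genusFF_FN_eq : genusFF Kbar (FN M) = genusFF Kbar (Igusa.E Kbar M) := by
  have h : ∀ E' : IntermediateField Kbar (LaurentSeries Kbar),
      E' = modularFunctionFieldFullC Kbar M → genusFF Kbar ↥E' = genusFF Kbar (Igusa.E Kbar M) := by
    intro E' hE
    subst hE
    rfl
  exact h _ (Igusa.modularFunctionFieldBar_eq M)

/-- Good reduction of the level `M`: equality of genera (true for neat `M`: `Igusa.genusFF_eq`). -/
def GoodRed : Prop :=
  genusFF Kbar (FN M) = genusFF (IsLocalRing.ResidueField ↥A) (Igusa.E (IsLocalRing.ResidueField ↥A) M)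

include hM in
theorem goodRed_of_neat (hU : Igusa.CuspUpper) (hL : Igusa.CuspLower) (hneat : 4 ∣ M ∨ 9 ∣ M) :
    GoodRed A M := by
  rw [GoodRed, genusFF_FN_eq]
  exact (Igusa.genusFF_eq hU hL A M hM hneat).symm

theorem RM_red_jF : (RM A M hM).red (jF M) = Igusa.jb (IsLocalRing.ResidueField ↥A) M := by
  apply Subtype.ext
  have hz : ((jF M : FN M) : LaurentSeries Kbar) = iA A (jqModC ↥A) := by
    rw [iA_jqModC]
    exact Igusa.LevelDeg_coeffEmb_jq
  have hx : ((jF M : FN M) : LaurentSeries Kbar) ∈ gRing A := by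
    rw [hz]
    exact iA_mem_gRing A _
  rw [coe_RM_red A M hM _ hx, gRes_of_eq_iA A _ _ hz, pA_jqModC]
  rfl

/-! ### abstract lemmas -/

section Abs

variable {K F k Fb : Type*} [Field K] [Field F] [Algebra K F] [Field k] [Field Fb] [Algebra k Fb]

theorem Level_poleDiv_eq [HasPrincipalDivisors K F] (y : F) :
    RED.poleDiv (K := K) y = Igusa.poleDiv (K := K) y := by
  ext P
  rw [RED.poleDiv_apply, Igusa.poleDiv_apply, max_comm]

theorem Level_isSeparable [CharZero K] (x : F) [FiniteDimensional (IntermediateField.adjoin K {x}) F] :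
    Algebra.IsSeparable (IntermediateField.adjoin K {x}) F := by
  have : CharZero (IntermediateField.adjoin K {x}) :=
    charZero_of_injective_algebraMap (algebraMap K (IntermediateField.adjoin K {x})).injective
  exact Algebra.IsAlgebraic.isSeparable_of_perfectField

theorem Level_degree_poleDiv [IsAlgClosed K] [HasPrincipalDivisors K F] (x : F)
    (hx : Transcendental K x) [FiniteDimensional (IntermediateField.adjoin K {x}) F]
    [Algebra.IsSeparable (IntermediateField.adjoin K {x}) F] :
    Divisor.degree (RED.poleDiv (K := K) x) =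
      Module.finrank (IntermediateField.adjoin K {x}) F := by
  rw [Level_poleDiv_eq, Igusa.degree_poleDiv x hx]

theorem Level_divOf_eq [HasPrincipalDivisors K F] (y : F) :
    divOf (K := K) y = RED.poleDiv (K := K) y⁻¹ - RED.poleDiv (K := K) y := by
  ext P
  rw [Finsupp.sub_apply, RED.poleDiv_apply, RED.poleDiv_apply, divOf_apply, P.ord_inv, neg_neg]
  rcases le_total 0 (P.ord y) with h | h
  · rw [max_eq_left h, max_eq_right (by omega)]
    ring
  · rw [max_eq_right h, max_eq_left (by omega)]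
    ring

theorem Level_poleDiv_nonneg [HasPrincipalDivisors K F] (y : F) :
    0 ≤ RED.poleDiv (K := K) y := by
  intro P
  rw [RED.poleDiv_apply]
  exact le_max_right _ _

theorem Level_degree_poleDiv_inv [HasPrincipalDivisors K F] (y : F) :
    Divisor.degree (RED.poleDiv (K := K) y⁻¹) = Divisor.degree (RED.poleDiv (K := K) y) := by
  have h := degree_divOf (K := K) y
  rw [Level_divOf_eq, map_sub] at h
  omega

variable [Lib.RR.IsFF K F] [IsAlgClosed K] [Lib.RR.IsFF k Fb] [IsAlgClosed k]

theorem Level_map_poleDiv {R : RedData K F k Fb} {r : Place K F → Place k Fb}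
    (hr : IsRedMap R r) {y : F} (hy : R.red y ≠ 0)
    (hdeg : Divisor.degree (RED.poleDiv (K := K) y) =
      Divisor.degree (RED.poleDiv (K := k) (R.red y))) :
    Finsupp.mapDomain r (RED.poleDiv (K := K) y) = RED.poleDiv (K := k) (R.red y) ∧
      Finsupp.mapDomain r (RED.poleDiv (K := K) y⁻¹) = RED.poleDiv (K := k) (R.red y)⁻¹ := by
  have h1 := hr.map_divOf y hy
  rw [Level_divOf_eq, Level_divOf_eq, mapDomain_sub'] at h1
  have hZ := mapDomain_nonneg r (Level_poleDiv_nonneg (K := K) y⁻¹)
  have hP := mapDomain_nonneg r (Level_poleDiv_nonneg (K := K) y)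
  have hle : 0 ≤ Finsupp.mapDomain r (RED.poleDiv (K := K) y) - RED.poleDiv (K := k) (R.red y) := by
    intro Q
    have e := DFunLike.congr_fun h1 Q
    have hZQ := hZ Q
    have hPQ := hP Q
    simp only [Finsupp.sub_apply, Finsupp.coe_zero, Pi.zero_apply, RED.poleDiv_apply,
      Place.ord_inv, neg_neg] at e hZQ hPQ ⊢
    rcases le_total 0 (Q.ord (R.red y)) with h | h
    · rw [max_eq_right (by omega : -Q.ord (R.red y) ≤ 0)]
      omega
    · rw [max_eq_right h, max_eq_left (by omega : 0 ≤ -Q.ord (R.red y))] at e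
      rw [max_eq_left (by omega : 0 ≤ -Q.ord (R.red y))]
      omega
  have h0 := eq_zero_of_nonneg_of_degree hle (by rw [map_sub, degree_mapDomain, hdeg, sub_self])
  have h2 := sub_eq_zero.mp h0
  refine ⟨h2, ?_⟩
  rw [h2] at h1
  exact sub_left_injective h1

theorem Level_exists_bound [HasPrincipalDivisors k Fb] (v : Fb) :
    ∃ a : ℕ, ∀ Q : Place k Fb, -(a : ℤ) ≤ Q.ord v := by
  classical
  refine ⟨∑ Q ∈ (divOf (K := k) v).support, (Q.ord v).natAbs, fun Q => ?_⟩
  by_cases hQ : Q ∈ (divOf (K := k) v).support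
  · have h1 := Finset.single_le_sum (f := fun Q : Place k Fb => (Q.ord v).natAbs)
      (fun _ _ => Nat.zero_le _) hQ
    have h2 : ((Q.ord v).natAbs : ℤ) ≤
        ((∑ Q ∈ (divOf (K := k) v).support, (Q.ord v).natAbs : ℕ) : ℤ) := by exact_mod_cast h1
    omega
  · rw [Finsupp.notMem_support_iff, divOf_apply] at hQ
    rw [hQ]
    omega

theorem Level_exists_lift {R : RedData K F k Fb} {r : Place K F → Place k Fb}
    (hr : IsRedMap R r) {y : F} {yb : Fb}
    (hmap : Finsupp.mapDomain r (RED.poleDiv (K := K) y) = RED.poleDiv (K := k) yb)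
    (hpos : 0 < Divisor.degree (RED.poleDiv (K := K) y)) (v : Fb) (hv : v ∈ regOff k yb) :
    ∃ u : F, u ∈ regOff K y ∧ u ∈ R.O ∧ R.red u = v := by
  obtain ⟨a₀, ha₀⟩ := Level_exists_bound (k := k) v
  set a : ℕ := a₀ + 3 * genusFF K F with ha
  have hdeg : 3 * (genusFF K F : ℤ) ≤ Divisor.degree ((a : ℤ) • RED.poleDiv (K := K) y) := by
    rw [map_zsmul, smul_eq_mul]
    have h1 : (a : ℤ) * 1 ≤ (a : ℤ) * Divisor.degree (RED.poleDiv (K := K) y) :=
      mul_le_mul_of_nonneg_left (by omega) (by positivity)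
    have h2 : (a : ℤ) = a₀ + 3 * genusFF K F := by rw [ha]; push_cast; ring
    omega
  have hL := hr.redSub_L _ hdeg
  rw [mapDomain_zsmul', hmap] at hL
  have hvL : v ∈ riemannRochSpace ((a : ℤ) • RED.poleDiv (K := k) yb) := by
    rw [mem_riemannRochSpace_iff]
    intro Q
    right
    rw [Finsupp.smul_apply, RED.poleDiv_apply, smul_eq_mul]
    by_cases hQ : yb ∈ Q.toValuationSubring
    · have h1 := Basic_ord_nonneg_of_mem Q (hv Q hQ)
      have h2 : (0 : ℤ) ≤ (a : ℤ) * max (-Q.ord yb) 0 :=
        mul_nonneg (by positivity) (le_max_right _ _)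
      omega
    · have h1 : Q.ord yb < 0 := by
        by_contra hcon
        apply hQ
        by_cases h0 : yb = 0
        · rw [h0]; exact zero_mem _
        · exact Fermat.Agent.S24.mem_of_ord_nonneg Q h0 (by omega)
      have h2 : (a : ℤ) * 1 ≤ (a : ℤ) * max (-Q.ord yb) 0 :=
        mul_le_mul_of_nonneg_left (le_trans (by omega) (le_max_left _ _)) (by positivity)
      have h3 := ha₀ Q
      have h4 : (a : ℤ) = a₀ + 3 * genusFF K F := by rw [ha]; push_cast; ring
      have h5 : (0 : ℤ) ≤ genusFF K F := by positivity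
      omega
  rw [← hL, R.mem_redSub] at hvL
  obtain ⟨u, huL, huO, hu⟩ := hvL
  refine ⟨u, fun P hP => ?_, huO, hu⟩
  rw [mem_riemannRochSpace_iff] at huL
  rcases huL P with h0 | h0
  · rw [h0]; exact zero_mem _
  · by_cases hu0 : u = 0
    · rw [hu0]; exact zero_mem _
    · refine Fermat.Agent.S24.mem_of_ord_nonneg P hu0 ?_
      have h1 := Basic_ord_nonneg_of_mem P hP
      rw [Finsupp.smul_apply, RED.poleDiv_apply, max_eq_right (by omega), smul_zero, neg_zero] at h0
      exact h0

end Abs

theorem Level_degree_poleDiv_jF [Lib.RR.IsFF Kbar (FN M)] :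
    Divisor.degree (RED.poleDiv (K := Kbar) (jF M)) = dedekindPsi M := by
  have h1 := finiteDimensional_jF M
  have h2 := Level_isSeparable (K := Kbar) (jF M)
  rw [Level_degree_poleDiv (K := Kbar) (jF M) (transcendental_jF M), Hecke.finrank_jF]

include hM in
theorem Level_degree_poleDiv_jb [IsAlgClosed (IsLocalRing.ResidueField ↥A)]
    [Lib.RR.IsFF (IsLocalRing.ResidueField ↥A) (Igusa.E (IsLocalRing.ResidueField ↥A) M)] :
    Divisor.degree (RED.poleDiv (K := IsLocalRing.ResidueField ↥A)
      (Igusa.jb (IsLocalRing.ResidueField ↥A) M)) = dedekindPsi M := by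
  have h1 := Igusa.finiteDimensional_jb (IsLocalRing.ResidueField ↥A) M hM
  have h2 := Igusa.isSeparable_jb (IsLocalRing.ResidueField ↥A) M hM
  rw [Level_degree_poleDiv (K := IsLocalRing.ResidueField ↥A)
    (Igusa.jb (IsLocalRing.ResidueField ↥A) M)
    (Igusa.transcendental_jb (IsLocalRing.ResidueField ↥A) M),
    Igusa.finrank_jb (IsLocalRing.ResidueField ↥A) M hM]

/-- (L1) the reduction map on places sends `(j)_∞` to `(j̄)_∞` and `(j)_0` to `(j̄)_0`.
PROOF. `hr.map_divOf (jF M)`: `r_* div j = div j̄`, `div j = (j)_0 - (j)_∞`; all four divisors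
`r_*(j)_0, r_*(j)_∞, (j̄)_0, (j̄)_∞` are effective, `(j̄)_0, (j̄)_∞` have disjoint supports, so
`r_*(j)_∞ ≥ (j̄)_∞`; the degrees agree (`Igusa.degree_poleDiv`, `Hecke.finrank_jF`,
`Igusa.finrank_jb`; `mapDomain` preserves the degree since all places have degree one
(`RED.deg_eq_one`, `RED.degree_eq_sum`)). -/
theorem map_poleDiv_jF [Lib.RR.IsFF Kbar (FN M)] [IsAlgClosed (IsLocalRing.ResidueField ↥A)]
    [Lib.RR.IsFF (IsLocalRing.ResidueField ↥A) (Igusa.E (IsLocalRing.ResidueField ↥A) M)]
    (r : Place Kbar (FN M) →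
      Place (IsLocalRing.ResidueField ↥A) (Igusa.E (IsLocalRing.ResidueField ↥A) M))
    (hr : IsRedMap (RM A M hM) r) :
    Finsupp.mapDomain r (RED.poleDiv (K := Kbar) (jF M)) =
        RED.poleDiv (K := IsLocalRing.ResidueField ↥A)
          (Igusa.jb (IsLocalRing.ResidueField ↥A) M) ∧
      Finsupp.mapDomain r (RED.poleDiv (K := Kbar) (jF M)⁻¹) =
        RED.poleDiv (K := IsLocalRing.ResidueField ↥A)
          (Igusa.jb (IsLocalRing.ResidueField ↥A) M)⁻¹ := by
  have hred := RM_red_jF A M hM
  have hne : (RM A M hM).red (jF M) ≠ 0 := by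
    rw [hred]
    intro h0
    exact Igusa.transcendental_jb (IsLocalRing.ResidueField ↥A) M (h0 ▸ isAlgebraic_zero)
  have h := Level_map_poleDiv hr hne (by
    rw [hred, Level_degree_poleDiv_jF, Level_degree_poleDiv_jb A M hM])
  rwa [hred] at h

/-- (L2) **lifting**, affine chart: a function on the reduction which is regular outside the cusps
is the reduction of an integral function regular outside the cusps.
PROOF. `RED.exists_isRedMap (RM ..) RM_isCartesian hg`; `v ∈ L̄(a (j̄)_∞)` for `a ≫ 0`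
(`v` has finitely many poles, all at poles of `j̄`); `hr.redSub_L (a • poleDiv j)` and (L1). -/
theorem exists_lift_regOff (hg : GoodRed A M)
    (v : Igusa.E (IsLocalRing.ResidueField ↥A) M)
    (hv : v ∈ regOff (IsLocalRing.ResidueField ↥A) (Igusa.jb (IsLocalRing.ResidueField ↥A) M)) :
    ∃ u : FN M, u ∈ regOff Kbar (jF M) ∧ u ∈ (RM A M hM).O ∧ (RM A M hM).red u = v := by
  have : Lib.RR.IsFF Kbar (FN M) := Fermat.Agent.GAL.Desc.isFF_FF_Kbar M
  have := Igusa.isAlgClosed_residueField A
  have := Igusa.isFF_E (IsLocalRing.ResidueField ↥A) M hM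
  obtain ⟨r, hr⟩ := RED.exists_isRedMap (RM A M hM) (RM_isCartesian A M hM) hg
  refine Level_exists_lift hr (map_poleDiv_jF A M hM r hr).1 ?_ v hv
  rw [Level_degree_poleDiv_jF]
  exact_mod_cast DegreeAlpha.dedekindPsi_pos M

/-- (L3) **lifting**, chart at infinity. -/
theorem exists_lift_regOff_inv (hg : GoodRed A M)
    (v : Igusa.E (IsLocalRing.ResidueField ↥A) M)
    (hv : v ∈ regOff (IsLocalRing.ResidueField ↥A) (Igusa.jb (IsLocalRing.ResidueField ↥A) M)⁻¹) :
    ∃ u : FN M, u ∈ regOff Kbar (jF M)⁻¹ ∧ u ∈ (RM A M hM).O ∧ (RM A M hM).red u = v := by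
  have : Lib.RR.IsFF Kbar (FN M) := Fermat.Agent.GAL.Desc.isFF_FF_Kbar M
  have := Igusa.isAlgClosed_residueField A
  have := Igusa.isFF_E (IsLocalRing.ResidueField ↥A) M hM
  obtain ⟨r, hr⟩ := RED.exists_isRedMap (RM A M hM) (RM_isCartesian A M hM) hg
  refine Level_exists_lift hr (map_poleDiv_jF A M hM r hr).2 ?_ v hv
  rw [Level_degree_poleDiv_inv, Level_degree_poleDiv_jF]
  exact_mod_cast DegreeAlpha.dedekindPsi_pos M

end Fermat.Agent.DR.Conc
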