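import Fermat.Agent.DR.Conc.Coord

/-!
# DR/Conc, block Ξ (abstract): the rational function `ξ(t) = (y² + 1) / (y² + y + 1)`, `y = t^n - t`

Design v2 (D) of DR/Abs needs a coordinate `ξ` of level `M` whose zeros and poles (in characteristic `q`)
are stable under Frobenius and disjoint from the fixed points of `Φ²`.  We take `n = q²`:
`y = t^(q²) - t` vanishes at all points where `t` takes a value in `F_{q²}` (in particular at the fixed
points of `Φ²`), has poles at the poles of `t`, and `ξ` is a unit (with value `1`) wherever `y` has a zero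
or a pole.  Everything in this file is elementary: `F / K` a function field, `t ∈ F` transcendental.
-/

set_option autoImplicit false

noncomputable section

namespace Fermat.Agent.DR.Conc

open AlgebraicCurve Fermat.Agent.Lib.RR Fermat.Agent.GAL.RED

section defs

variable {F : Type*} [Field F]

/-- `y = t ^ n - t`. -/
def yOf (n : ℕ) (t : F) : F := t ^ n - t

/-- `y² + 1`. -/
def xiNum (n : ℕ) (t : F) : F := yOf n t ^ 2 + 1

/-- `y² + y + 1`. -/
def xiDen (n : ℕ) (t : F) : F := yOf n t ^ 2 + yOf n t + 1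

/-- `ξ = (y² + 1) / (y² + y + 1)`. -/
def xiOf (n : ℕ) (t : F) : F := xiNum n t / xiDen n t

theorem map_yOf {F' : Type*} [Field F'] (f : F →+* F') (n : ℕ) (t : F) :
    f (yOf n t) = yOf n (f t) := by
  simp [yOf]

theorem map_xiNum {F' : Type*} [Field F'] (f : F →+* F') (n : ℕ) (t : F) :
    f (xiNum n t) = xiNum n (f t) := by
  simp [xiNum, map_yOf]

theorem map_xiDen {F' : Type*} [Field F'] (f : F →+* F') (n : ℕ) (t : F) :
    f (xiDen n t) = xiDen n (f t) := by
  simp [xiDen, map_yOf]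

theorem map_xiOf {F' : Type*} [Field F'] (f : F →+* F') (n : ℕ) (t : F) :
    f (xiOf n t) = xiOf n (f t) := by
  simp [xiOf, map_xiNum, map_xiDen]

/-- in characteristic `p`: `ξ(t) ^ p = ξ(t ^ p)` (apply `map_xiOf` to `frobenius F p`). -/
theorem xiOf_pow_char (p : ℕ) [Fact p.Prime] [CharP F p] (n : ℕ) (t : F) :
    xiOf n t ^ p = xiOf n (t ^ p) :=
  map_xiOf (frobenius F p) n t

end defs

variable {K F : Type*} [Field K] [Field F] [Algebra K F]

/-- `yOf`, `xiNum`, `xiDen` are values at `t` of monic polynomials of degrees `n`, `2n`, `2n`. -/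
theorem exists_monic_yOf {n : ℕ} (hn : 2 ≤ n) (t : F) :
    (∃ p : Polynomial K, p.Monic ∧ p.natDegree = n ∧ Polynomial.aeval t p = yOf n t) ∧
    (∃ p : Polynomial K, p.Monic ∧ p.natDegree = 2 * n ∧ Polynomial.aeval t p = xiNum n t) ∧
    (∃ p : Polynomial K, p.Monic ∧ p.natDegree = 2 * n ∧ Polynomial.aeval t p = xiDen n t) := by
  set p : Polynomial K := Polynomial.X ^ n - Polynomial.X with hp
  have hlt : (Polynomial.X : Polynomial K).degree < n := by
    rw [Polynomial.degree_X]
    exact_mod_cast (by omega : 1 < n)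
  have hmon : p.Monic := Polynomial.monic_X_pow_sub hlt
  have hdeg : p.natDegree = n := by
    rw [hp, Polynomial.natDegree_sub_eq_left_of_natDegree_lt, Polynomial.natDegree_X_pow]
    rw [Polynomial.natDegree_X_pow, Polynomial.natDegree_X]
    omega
  have hev : Polynomial.aeval t p = yOf n t := by
    simp [hp, yOf]
  have hmon2 : (p ^ 2).Monic := hmon.pow 2
  have hdeg2 : (p ^ 2).natDegree = 2 * n := by
    rw [hmon.natDegree_pow, hdeg]
  have hd2 : (p ^ 2).degree = ((2 * n : ℕ) : WithBot ℕ) := by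
    rw [Polynomial.degree_eq_natDegree hmon2.ne_zero, hdeg2]
  have hd1 : p.degree = ((n : ℕ) : WithBot ℕ) := by
    rw [Polynomial.degree_eq_natDegree hmon.ne_zero, hdeg]
  have h1 : (1 : Polynomial K).degree < (p ^ 2).degree := by
    rw [hd2, Polynomial.degree_one]
    exact_mod_cast (by omega : 0 < 2 * n)
  have h2 : (p + 1 : Polynomial K).degree < (p ^ 2).degree := by
    refine lt_of_le_of_lt (Polynomial.degree_add_le _ _) ?_
    rw [max_lt_iff]
    refine ⟨?_, h1⟩
    rw [hd1, hd2]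
    exact_mod_cast (by omega : n < 2 * n)
  refine ⟨⟨p, hmon, hdeg, hev⟩, ⟨p ^ 2 + 1, hmon2.add_of_left h1, ?_, ?_⟩,
    ⟨p ^ 2 + (p + 1), hmon2.add_of_left h2, ?_, ?_⟩⟩
  · rw [Polynomial.natDegree_add_eq_left_of_degree_lt h1, hdeg2]
  · simp [hev, xiNum]
  · rw [Polynomial.natDegree_add_eq_left_of_degree_lt h2, hdeg2]
  · simp [hev, xiDen, add_assoc]

theorem yOf_ne_zero {n : ℕ} (hn : 2 ≤ n) {t : F} (ht : Transcendental K t) : yOf n t ≠ 0 := by
  obtain ⟨⟨p, hp, -, h⟩, -⟩ := exists_monic_yOf (K := K) hn t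
  rw [← h]
  exact fun h0 => hp.ne_zero ((transcendental_iff.1 ht) p h0)

theorem xiNum_ne_zero {n : ℕ} (hn : 2 ≤ n) {t : F} (ht : Transcendental K t) : xiNum n t ≠ 0 := by
  obtain ⟨-, ⟨p, hp, -, h⟩, -⟩ := exists_monic_yOf (K := K) hn t
  rw [← h]
  exact fun h0 => hp.ne_zero ((transcendental_iff.1 ht) p h0)

theorem xiDen_ne_zero {n : ℕ} (hn : 2 ≤ n) {t : F} (ht : Transcendental K t) : xiDen n t ≠ 0 := by
  obtain ⟨-, -, ⟨p, hp, -, h⟩⟩ := exists_monic_yOf (K := K) hn t
  rw [← h]
  exact fun h0 => hp.ne_zero ((transcendental_iff.1 ht) p h0)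

theorem xiOf_ne_zero {n : ℕ} (hn : 2 ≤ n) {t : F} (ht : Transcendental K t) : xiOf n t ≠ 0 :=
  div_ne_zero (xiNum_ne_zero hn ht) (xiDen_ne_zero hn ht)

/-- (aux.) a polynomial in a regular function is regular. -/
theorem XiAbs_ord_aeval_nonneg (P : Place K F) {t : F} (ht : 0 ≤ P.ord t) (p : Polynomial K) :
    0 ≤ P.ord (Polynomial.aeval t p) := by
  induction p using Polynomial.induction_on' with
  | add p q hp hq =>
    rw [map_add]
    by_cases h0 : Polynomial.aeval t p + Polynomial.aeval t q = 0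
    · rw [h0, P.ord_zero]
    · exact le_trans (le_min hp hq) (min_le_ord_add P h0)
  | monomial m a =>
    rw [Polynomial.aeval_monomial]
    by_cases h0 : algebraMap K F a * t ^ m = 0
    · rw [h0, P.ord_zero]
    · rw [P.ord_mul (left_ne_zero_of_mul h0) (right_ne_zero_of_mul h0), ord_algebraMap, ord_pow]
      positivity

/-- (aux.) `ord (1 + z) = 0` if `z = 0` or `ord z > 0`. -/
theorem XiAbs_ord_one_add (P : Place K F) {z : F} (hz : z = 0 ∨ 0 < P.ord z) :
    P.ord (1 + z) = 0 := by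
  rcases eq_or_ne z 0 with rfl | h0
  · rw [add_zero, P.ord_one]
  · have h1 := hz.resolve_left h0
    rw [ord_add_eq_of_lt P one_ne_zero h0 (by rwa [P.ord_one]), P.ord_one]

/-- (aux.) at a pole of `t` the leading term dominates. -/
theorem XiAbs_ord_aeval_monic (P : Place K F) {t : F} (ht : P.ord t < 0) (p : Polynomial K)
    (hp : p.Monic) : P.ord (Polynomial.aeval t p) = p.natDegree * P.ord t := by
  have ht0 : t ≠ 0 := by
    rintro rfl
    rw [P.ord_zero] at ht
    exact lt_irrefl _ ht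
  let _ : Invertible t := invertibleOfNonzero ht0
  have h1 := Polynomial.eval₂_reverse_mul_pow (algebraMap K F) t p
  rw [invOf_eq_inv] at h1
  have h2 : p.reverse = 1 + Polynomial.X * p.reverse.divX := by
    conv_lhs => rw [← Polynomial.divX_mul_X_add p.reverse]
    rw [Polynomial.coeff_zero_reverse, hp.leadingCoeff, Polynomial.C_1]
    ring
  have hs : 0 < P.ord t⁻¹ := by rw [P.ord_inv]; omega
  have h3 : P.ord (Polynomial.eval₂ (algebraMap K F) t⁻¹ p.reverse) = 0 := by
    rw [h2, Polynomial.eval₂_add, Polynomial.eval₂_one, Polynomial.eval₂_mul, Polynomial.eval₂_X]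
    apply XiAbs_ord_one_add
    by_cases h0 : Polynomial.eval₂ (algebraMap K F) t⁻¹ p.reverse.divX = 0
    · left; rw [h0, mul_zero]
    · right
      rw [P.ord_mul (inv_ne_zero ht0) h0]
      have := XiAbs_ord_aeval_nonneg P hs.le p.reverse.divX
      rw [Polynomial.aeval_def] at this
      omega
  have h4 : Polynomial.eval₂ (algebraMap K F) t⁻¹ p.reverse ≠ 0 := by
    intro h0
    rw [h2, Polynomial.eval₂_add, Polynomial.eval₂_one, Polynomial.eval₂_mul,
      Polynomial.eval₂_X] at h0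
    have h5 : t⁻¹ * Polynomial.eval₂ (algebraMap K F) t⁻¹ p.reverse.divX = -1 := by
      linear_combination h0
    have h6 : Polynomial.eval₂ (algebraMap K F) t⁻¹ p.reverse.divX ≠ 0 := by
      intro h7
      rw [h7, mul_zero] at h5
      exact one_ne_zero (neg_eq_zero.1 h5.symm)
    have h7 := congrArg P.ord h5
    rw [P.ord_mul (inv_ne_zero ht0) h6, ord_neg, P.ord_one] at h7
    have := XiAbs_ord_aeval_nonneg P hs.le p.reverse.divX
    rw [Polynomial.aeval_def] at this
    omega
  rw [Polynomial.aeval_def, ← h1, P.ord_mul h4 (pow_ne_zero _ ht0), h3, ord_pow, zero_add]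

variable [IsFF K F] [IsAlgClosed K]

/-- (Ξ0) the polar divisor of the value at `t` of a monic polynomial of degree `d`:
at a pole of `t` the leading term dominates (`ord_P p(t) = d ord_P t`), elsewhere `p(t)` is regular. -/
theorem poleDiv_aeval_monic (t : F) (p : Polynomial K) (hp : p.Monic) :
    poleDiv (K := K) (Polynomial.aeval t p) = p.natDegree • poleDiv (K := K) t := by
  ext P
  rw [Finsupp.smul_apply, poleDiv_apply, poleDiv_apply, nsmul_eq_mul]
  rcases lt_or_ge (P.ord t) 0 with h | h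
  · rw [XiAbs_ord_aeval_monic P h p hp, max_eq_left (by omega : (0 : ℤ) ≤ -(P.ord t)),
      max_eq_left]
    · ring
    · have : (0 : ℤ) ≤ (p.natDegree : ℤ) * (-(P.ord t)) :=
        mul_nonneg (Int.natCast_nonneg _) (by omega)
      linarith
  · have h1 := XiAbs_ord_aeval_nonneg P h p
    rw [max_eq_right (by omega), max_eq_right (by omega), mul_zero]

/-- (Ξ0') `deg (u⁻¹)_∞ = deg (u)_∞` (`div u = (u⁻¹)_∞ - (u)_∞` has degree `0`). -/
theorem degree_poleDiv_inv (u : F) :
    Divisor.degree (poleDiv (K := K) u⁻¹) = Divisor.degree (poleDiv (K := K) u) := by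
  have h1 : poleDiv (K := K) u⁻¹ - poleDiv (K := K) u = divOf (K := K) u := by
    ext P
    rw [Finsupp.sub_apply, poleDiv_apply, poleDiv_apply, P.ord_inv, neg_neg, divOf_apply]
    omega
  have h := congrArg Divisor.degree h1
  rw [map_sub, degree_divOf] at h
  exact sub_eq_zero.mp h

omit [IsFF K F] [IsAlgClosed K] in
/-- (aux.) orders of numerator and denominator where `y` has a zero or a pole. -/
theorem XiAbs_ord_of_ne {n : ℕ} {t : F} (P : Place K F)
    (h : P.ord (yOf n t) ≠ 0) :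
    P.ord (xiNum n t) = P.ord (xiDen n t) ∧ P.ord (xiNum n t) ≤ 0 := by
  set y := yOf n t with hy
  have hy0 : y ≠ 0 := by
    intro h0
    rw [h0, P.ord_zero] at h
    exact h rfl
  have hy2 : P.ord (y ^ 2) = 2 * P.ord y := by rw [ord_pow]; norm_num
  have hy20 : y ^ 2 ≠ 0 := pow_ne_zero 2 hy0
  rcases lt_or_gt_of_ne h with hlt | hgt
  · -- pole
    have h1 : P.ord (xiNum n t) = 2 * P.ord y := by
      rw [xiNum, ← hy, ord_add_eq_of_lt P hy20 one_ne_zero (by rw [P.ord_one]; omega), hy2]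
    have h2 : P.ord (y + 1) = P.ord y :=
      ord_add_eq_of_lt P hy0 one_ne_zero (by rw [P.ord_one]; omega)
    have h3 : y + 1 ≠ 0 := by
      intro h0
      rw [h0, P.ord_zero] at h2
      omega
    have h4 : P.ord (xiDen n t) = 2 * P.ord y := by
      rw [xiDen, ← hy, add_assoc, ord_add_eq_of_lt P hy20 h3 (by omega), hy2]
    exact ⟨by omega, by omega⟩
  · -- zero
    have h1 : P.ord (xiNum n t) = 0 := by
      rw [xiNum, ← hy, add_comm]
      exact XiAbs_ord_one_add P (Or.inr (by omega))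
    have h4 : P.ord (xiDen n t) = 0 := by
      rw [xiDen, ← hy, add_comm]
      apply XiAbs_ord_one_add P
      by_cases h0 : y ^ 2 + y = 0
      · exact Or.inl h0
      · right
        have := min_le_ord_add P h0
        omega
    exact ⟨by omega, by omega⟩

omit [IsFF K F] [IsAlgClosed K] in
/-- (aux.) orders of numerator and denominator where `y` is a unit. -/
theorem XiAbs_ord_of_eq {n : ℕ} {t : F} (P : Place K F) (hnum : xiNum n t ≠ 0)
    (hden : xiDen n t ≠ 0) (hy0 : yOf n t ≠ 0)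
    (h : P.ord (yOf n t) = 0) :
    0 ≤ P.ord (xiNum n t) ∧ 0 ≤ P.ord (xiDen n t) ∧
      (P.ord (xiNum n t) = 0 ∨ P.ord (xiDen n t) = 0) := by
  set y := yOf n t with hy
  have hy2 : P.ord (y ^ 2) = 0 := by rw [ord_pow, h, mul_zero]
  have h1 : 0 ≤ P.ord (xiNum n t) := by
    have := min_le_ord_add P (f := y ^ 2) (g := 1) hnum
    rw [hy2, P.ord_one, min_self] at this
    exact this
  have h2 : 0 ≤ P.ord (xiDen n t) := by
    have h3 : xiDen n t = xiNum n t + y := by rw [xiDen, xiNum]; ring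
    have := min_le_ord_add P (f := xiNum n t) (g := y) (h3 ▸ hden)
    rw [← h3, h] at this
    omega
  refine ⟨h1, h2, ?_⟩
  by_contra hcon
  push Not at hcon
  have h3 : y = xiDen n t + -xiNum n t := by rw [xiDen, xiNum]; ring
  have := min_le_ord_add P (f := xiDen n t) (g := -xiNum n t) (h3 ▸ hy0)
  rw [← h3, h, ord_neg] at this
  omega

/-- (Ξ1) `ξ` is a unit wherever `y` has a zero or a pole.
PROOF. `ord y > 0`: `ord (y² + 1) = ord (y² + y + 1) = 0` (`ord (1 + z) = 0` if `ord z > 0`).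
`ord y < 0`: `ord (y² + 1) = ord (y² + y + 1) = 2 ord y`. -/
theorem ord_xiOf_eq_zero {n : ℕ} (hn : 2 ≤ n) {t : F} (ht : Transcendental K t) (P : Place K F)
    (h : P.ord (yOf n t) ≠ 0) : P.ord (xiOf n t) = 0 := by
  rw [xiOf, ord_div P (xiNum_ne_zero hn ht) (xiDen_ne_zero hn ht), (XiAbs_ord_of_ne P h).1, sub_self]

/-- (Ξ2) numerator and denominator have no common zero (`den - num = y`, `num = y² + 1`), and the same
poles with the same multiplicities: `(ξ)_∞ = (den)_0`, `(ξ)_0 = (num)_0`. -/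
theorem poleDiv_xiOf {n : ℕ} (hn : 2 ≤ n) {t : F} (ht : Transcendental K t) :
    poleDiv (K := K) (xiOf n t) = poleDiv (K := K) (xiDen n t)⁻¹ ∧
      poleDiv (K := K) (xiOf n t)⁻¹ = poleDiv (K := K) (xiNum n t)⁻¹ := by
  have key : ∀ P : Place K F, (P.ord (xiNum n t) = P.ord (xiDen n t) ∧ P.ord (xiNum n t) ≤ 0) ∨
      (0 ≤ P.ord (xiNum n t) ∧ 0 ≤ P.ord (xiDen n t) ∧
      (P.ord (xiNum n t) = 0 ∨ P.ord (xiDen n t) = 0)) := by
    intro P
    by_cases h : P.ord (yOf n t) = 0
    · exact Or.inr (XiAbs_ord_of_eq P (xiNum_ne_zero hn ht) (xiDen_ne_zero hn ht)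
        (yOf_ne_zero hn ht) h)
    · exact Or.inl (XiAbs_ord_of_ne P h)
  constructor
  · ext P
    rw [poleDiv_apply, poleDiv_apply, P.ord_inv, xiOf,
      ord_div P (xiNum_ne_zero hn ht) (xiDen_ne_zero hn ht)]
    have := key P
    omega
  · ext P
    rw [poleDiv_apply, poleDiv_apply, P.ord_inv, P.ord_inv, xiOf,
      ord_div P (xiNum_ne_zero hn ht) (xiDen_ne_zero hn ht)]
    have := key P
    omega

/-- (Ξ3) `deg (ξ)_∞ = deg (ξ)_0 = 2 n deg (t)_∞`. -/
theorem degree_poleDiv_xiOf {n : ℕ} (hn : 2 ≤ n) {t : F} (ht : Transcendental K t) :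
    Divisor.degree (poleDiv (K := K) (xiOf n t)) = 2 * n * Divisor.degree (poleDiv (K := K) t) := by
  obtain ⟨-, -, ⟨p, hp, hd, h⟩⟩ := exists_monic_yOf (K := K) hn t
  rw [(poleDiv_xiOf hn ht).1, degree_poleDiv_inv, ← h, poleDiv_aeval_monic t p hp, hd, map_nsmul]
  simp

theorem degree_poleDiv_xiOf_inv {n : ℕ} (hn : 2 ≤ n) {t : F} (ht : Transcendental K t) :
    Divisor.degree (poleDiv (K := K) (xiOf n t)⁻¹) =
      2 * n * Divisor.degree (poleDiv (K := K) t) := by
  rw [degree_poleDiv_inv, degree_poleDiv_xiOf hn ht]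

theorem XiAbs_poleDiv_mul_le {u v : F} (hu : u ≠ 0) (hv : v ≠ 0) :
    poleDiv (K := K) (u * v) ≤ poleDiv (K := K) u + poleDiv (K := K) v := by
  intro P
  rw [Finsupp.add_apply, poleDiv_apply, poleDiv_apply, poleDiv_apply, P.ord_mul hu hv]
  omega

theorem XiAbs_mem_iff_ord_nonneg (P : Place K F) (f : F) :
    f ∈ P.toValuationSubring ↔ 0 ≤ P.ord f := by
  rcases eq_or_ne f 0 with rfl | hf
  · simp [P.ord_zero, zero_mem]
  · exact Fermat.Agent.S24.mem_iff_ord_nonneg P hf

theorem XiAbs_mem_regOff_iff {x y : F} :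
    y ∈ Fermat.Agent.DR.Gal.regOff K x ↔ ∀ P : Place K F, 0 ≤ P.ord x → 0 ≤ P.ord y := by
  rw [Fermat.Agent.DR.Gal.mem_regOff]
  exact forall_congr' fun P => by
    rw [XiAbs_mem_iff_ord_nonneg, XiAbs_mem_iff_ord_nonneg]

/-- (Ξ4) `(u v)_∞ ≤ (u)_∞ + (v)_∞`; if the degrees agree the divisors agree. -/
theorem poleDiv_mul_eq_of_degree_le {u v : F} (hu : u ≠ 0) (hv : v ≠ 0)
    (h : Divisor.degree (poleDiv (K := K) u) + Divisor.degree (poleDiv (K := K) v) ≤
      Divisor.degree (poleDiv (K := K) (u * v))) :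
    poleDiv (K := K) (u * v) = poleDiv (K := K) u + poleDiv (K := K) v := by
  have hle := XiAbs_poleDiv_mul_le (K := K) hu hv
  have h0 : (0 : Divisor K F) ≤ poleDiv (K := K) u + poleDiv (K := K) v - poleDiv (K := K) (u * v) :=
    sub_nonneg.mpr hle
  have hd : Divisor.degree
      (poleDiv (K := K) u + poleDiv (K := K) v - poleDiv (K := K) (u * v)) = 0 := by
    have h1 := degree_nonneg h0
    rw [map_sub, map_add] at h1 ⊢
    omega
  exact (sub_eq_zero.mp (eq_zero_of_nonneg_of_degree h0 hd)).symm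

theorem degree_poleDiv_mul_le {u v : F} (hu : u ≠ 0) (hv : v ≠ 0) :
    Divisor.degree (poleDiv (K := K) (u * v)) ≤
      Divisor.degree (poleDiv (K := K) u) + Divisor.degree (poleDiv (K := K) v) := by
  have h := degree_mono (XiAbs_poleDiv_mul_le (K := K) hu hv)
  rwa [map_add] at h

/-- (Ξ5) a function which is regular wherever `x` is regular lies in `L(a (x)_∞)` for some `a`
(it has finitely many poles: the support of `poleDiv y`). -/
theorem exists_mem_rr_of_mem_regOff {x y : F} (hy : y ∈ Fermat.Agent.DR.Gal.regOff K x) :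
    ∃ a : ℕ, y ∈ riemannRochSpace (a • poleDiv (K := K) x) := by
  classical
  rw [XiAbs_mem_regOff_iff] at hy
  refine ⟨∑ P ∈ (divOf (K := K) x).support, (P.ord y).natAbs, ?_⟩
  rw [mem_riemannRochSpace_iff]
  intro P
  right
  set a := ∑ P ∈ (divOf (K := K) x).support, (P.ord y).natAbs with ha
  rw [Finsupp.smul_apply, poleDiv_apply, nsmul_eq_mul]
  by_cases hP : P.ord x < 0
  · have hmem : P ∈ (divOf (K := K) x).support := by
      rw [Finsupp.mem_support_iff, divOf_apply]
      exact ne_of_lt hP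
    have h1 : (P.ord y).natAbs ≤ a :=
      Finset.single_le_sum (f := fun Q : Place K F => (Q.ord y).natAbs)
        (fun _ _ => Nat.zero_le _) hmem
    have h3 : (1 : ℤ) ≤ max (-(P.ord x)) 0 := le_max_of_le_left (by omega)
    have h4 : (a : ℤ) * 1 ≤ (a : ℤ) * max (-(P.ord x)) 0 :=
      mul_le_mul_of_nonneg_left h3 (Nat.cast_nonneg _)
    have h5 : -(P.ord y) ≤ ((P.ord y).natAbs : ℤ) := by
      rw [Int.natCast_natAbs]
      exact neg_le_abs _
    have h6 : ((P.ord y).natAbs : ℤ) ≤ (a : ℤ) := by exact_mod_cast h1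
    omega
  · have h1 : 0 ≤ P.ord y := hy P (not_lt.mp hP)
    have h2 : (0 : ℤ) ≤ (a : ℤ) * max (-(P.ord x)) 0 :=
      mul_nonneg (Nat.cast_nonneg _) (le_max_right _ _)
    omega

/-- (Ξ5') conversely. -/
theorem mem_regOff_of_mem_rr {x y : F} {a : ℕ} (hy : y ∈ riemannRochSpace (a • poleDiv (K := K) x)) :
    y ∈ Fermat.Agent.DR.Gal.regOff K x := by
  rw [XiAbs_mem_regOff_iff]
  intro P hP
  rw [mem_riemannRochSpace_iff] at hy
  rcases hy P with rfl | h
  · rw [P.ord_zero]
  · rwa [Finsupp.smul_apply, poleDiv_apply, max_eq_right (by omega), smul_zero, neg_zero] at h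

/-- (Ξ6) if `(u v)_∞ = (u)_∞ + (v)_∞` then a function regular off the poles of `u` is regular off the
poles of `u v`. -/
theorem regOff_le_of_poleDiv_mul {u v : F}
    (h : poleDiv (K := K) (u * v) = poleDiv (K := K) u + poleDiv (K := K) v) :
    Fermat.Agent.DR.Gal.regOff K u ≤ Fermat.Agent.DR.Gal.regOff K (u * v) := by
  intro y hy
  rw [XiAbs_mem_regOff_iff] at hy ⊢
  intro P hP
  apply hy P
  have h1 := DFunLike.congr_fun h P
  rw [Finsupp.add_apply, poleDiv_apply, poleDiv_apply, poleDiv_apply] at h1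
  omega

end Fermat.Agent.DR.Conc
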