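import Fermat.Agent.GAL.Hecke.NormFormulaCore
import Fermat.Prelude.Def_ModularCurve_ArithmeticGalois

/-!
# DR/Conc, block W: the Atkin-Lehner involution `W` of `FN (M * q)` (`q ∤ M` prime) as an
algebra equivalence, the general norm formula for `α : FN M → FN (M * q)`, Galois equivariance.
-/

set_option autoImplicit false
set_option linter.unusedSectionVars false

noncomputable section

namespace Fermat.Agent.DR.Conc

open ModularCurve AlgebraicCurve Fermat.Agent.S24 Fermat.Agent.GAL

variable (M q : ℕ) [NeZero M] [NeZero q] (hq : q.Prime) (hqM : ¬ q ∣ M)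

/-- The Atkin-Lehner homomorphism (a choice; it is unique, see `Whom_unique`). -/
def Whom : FN (M * q) →ₐ[Kbar] FN (M * q) := (AtkinLehner.exists_atkinLehner M q hq hqM).choose

theorem Whom_comp_alpha :
    (Whom M q hq hqM).comp (heckeAlphaBar Kbar M q) = heckeBetaBar Kbar M q :=
  (AtkinLehner.exists_atkinLehner M q hq hqM).choose_spec.1

theorem Whom_comp_beta :
    (Whom M q hq hqM).comp (heckeBetaBar Kbar M q) = heckeAlphaBar Kbar M q :=
  (AtkinLehner.exists_atkinLehner M q hq hqM).choose_spec.2.1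

theorem Whom_comp_Whom : (Whom M q hq hqM).comp (Whom M q hq hqM) = AlgHom.id Kbar _ :=
  (AtkinLehner.exists_atkinLehner M q hq hqM).choose_spec.2.2

/-- The Atkin-Lehner involution. -/
def W : FN (M * q) ≃ₐ[Kbar] FN (M * q) :=
  AlgEquiv.ofAlgHom (Whom M q hq hqM) (Whom M q hq hqM) (Whom_comp_Whom M q hq hqM)
    (Whom_comp_Whom M q hq hqM)

theorem W_W (y : FN (M * q)) : W M q hq hqM (W M q hq hqM y) = y :=
  congrArg (fun g : FN (M * q) →ₐ[Kbar] FN (M * q) => g y) (Whom_comp_Whom M q hq hqM)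

theorem W_alpha (u : FN M) :
    W M q hq hqM (heckeAlphaBar Kbar M q u) = heckeBetaBar Kbar M q u :=
  congrArg (fun g : FN M →ₐ[Kbar] FN (M * q) => g u) (Whom_comp_alpha M q hq hqM)

theorem W_beta (u : FN M) :
    W M q hq hqM (heckeBetaBar Kbar M q u) = heckeAlphaBar Kbar M q u :=
  congrArg (fun g : FN M →ₐ[Kbar] FN (M * q) => g u) (Whom_comp_beta M q hq hqM)

include hq in
/-- (W1) two ring endomorphisms... uniqueness: a `Kbar`-algebra endomorphism of `FN (M q)` is
determined by its composites with `α` and `β` (`FN (M q)` is generated by the `j(t^d)`, `d ∣ M q`,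
each of which is `α` or `β` of a generator of `FN M`: `AtkinLehner.dvd_cases`, `alpha_jd`, `beta_jd`,
`ringHom_ext` as in `AtkinLehner.w_comp_w`). -/
theorem algHom_ext_alpha_beta {R : Type*} [Field R] (f g : FN (M * q) →+* R)
    (hc : ∀ c : Kbar, f (algebraMap Kbar _ c) = g (algebraMap Kbar _ c))
    (hα : ∀ u : FN M, f (heckeAlphaBar Kbar M q u) = g (heckeAlphaBar Kbar M q u))
    (hβ : ∀ u : FN M, f (heckeBetaBar Kbar M q u) = g (heckeBetaBar Kbar M q u)) : f = g := by
  refine FNAdjoin.ringHom_ext hc (fun d _ hd => ?_)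
  rcases AtkinLehner.dvd_cases hq hd with h | ⟨d', h, rfl⟩
  · have := hα (FNAdjoin.jd M d h)
    rwa [AtkinLehner.alpha_jd] at this
  · have : NeZero d' := ⟨fun h0 => by
      subst h0
      exact NeZero.ne (0 * q) (zero_mul q)⟩
    have := hβ (FNAdjoin.jd M d' h)
    rwa [AtkinLehner.beta_jd] at this

theorem AL_coeffMap_qExpand {R S : Type*} [CommRing R] [CommRing S] (f : R →+* S) (n : ℕ)
    [NeZero n] (x : LaurentSeries R) : coeffMap f (qExpand R n x) = qExpand S n (coeffMap f x) := by
  ext k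
  by_cases hk : (n : ℤ) ∣ k
  · obtain ⟨m, rfl⟩ := hk
    rw [coeffMap_coeff, qExpand_coeff_mul, qExpand_coeff_mul, coeffMap_coeff]
  · rw [coeffMap_coeff, qExpand_coeff_of_not_dvd n _ hk, qExpand_coeff_of_not_dvd n _ hk,
      map_zero]

/-- (W2) `W` commutes with the coefficientwise Galois action. -/
theorem W_galois (σ : Kbar ≃ₐ[ℚ] Kbar) (y : FN (M * q)) :
    W M q hq hqM (arithmeticRingAut (modularFunctionFieldFull (M * q)) σ y) =
      arithmeticRingAut (modularFunctionFieldFull (M * q)) σ (W M q hq hqM y) := by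
  have hασ : ∀ u : FN M, arithmeticRingAut (modularFunctionFieldFull (M * q)) σ
      (heckeAlphaBar Kbar M q u) =
      heckeAlphaBar Kbar M q (arithmeticRingAut (modularFunctionFieldFull M) σ u) := by
    intro u
    apply Subtype.ext
    rw [coe_arithmeticRingAut_apply, coe_heckeAlphaBar, coe_heckeAlphaBar,
      coe_arithmeticRingAut_apply]
  have hβσ : ∀ u : FN M, arithmeticRingAut (modularFunctionFieldFull (M * q)) σ
      (heckeBetaBar Kbar M q u) =
      heckeBetaBar Kbar M q (arithmeticRingAut (modularFunctionFieldFull M) σ u) := by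
    intro u
    apply Subtype.ext
    rw [coe_arithmeticRingAut_apply, coe_heckeBetaBar, coe_heckeBetaBar,
      coe_arithmeticRingAut_apply, AL_coeffMap_qExpand]
  have key := algHom_ext_alpha_beta M q hq
    (((W M q hq hqM : FN (M * q) ≃ₐ[Kbar] FN (M * q)) : FN (M * q) →+* FN (M * q)).comp
      ((arithmeticRingAut (modularFunctionFieldFull (M * q)) σ : FN (M * q) ≃+* FN (M * q)) :
        FN (M * q) →+* FN (M * q)))
    (((arithmeticRingAut (modularFunctionFieldFull (M * q)) σ : FN (M * q) ≃+* FN (M * q)) :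
        FN (M * q) →+* FN (M * q)).comp
      ((W M q hq hqM : FN (M * q) ≃ₐ[Kbar] FN (M * q)) : FN (M * q) →+* FN (M * q)))
    (fun c => ?_) (fun u => ?_) (fun u => ?_)
  · exact RingHom.congr_fun key y
  · show W M q hq hqM (arithmeticRingAut _ σ (algebraMap Kbar _ c)) =
      arithmeticRingAut _ σ (W M q hq hqM (algebraMap Kbar _ c))
    rw [arithmeticRingAut_algebraMap, AlgEquiv.commutes, AlgEquiv.commutes,
      arithmeticRingAut_algebraMap]
  · show W M q hq hqM (arithmeticRingAut _ σ (heckeAlphaBar Kbar M q u)) =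
      arithmeticRingAut _ σ (W M q hq hqM (heckeAlphaBar Kbar M q u))
    rw [hασ, W_alpha, W_alpha, hβσ]
  · show W M q hq hqM (arithmeticRingAut _ σ (heckeBetaBar Kbar M q u)) =
      arithmeticRingAut _ σ (W M q hq hqM (heckeBetaBar Kbar M q u))
    rw [hβσ, W_beta, W_beta, hασ]

/-- (W3) **general norm formula**: `(Norm_α y)(t^q) = y(t^q) ∏_{i<q} (W y)(ζ^i t)`.
PROOF: as `NormFormula.qExpand_heckeNorm` (`norm_eq_prod_of_embeddings`, `emb`, `emb_alpha`,
`emb_injective`, `DegreeAlpha.finrank_alpha`) with `Whom` for `w` and a general `y` instead of `β f`. -/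
theorem qExpand_normAlpha {ζ : Kbar} (hζ : IsPrimitiveRoot ζ q) (y : FN (M * q)) :
    qExpand Kbar q ((normAlong (heckeAlphaBar Kbar M q) y : FN M) : LaurentSeries Kbar) =
      qExpand Kbar q (y : LaurentSeries Kbar) *
        ∏ i : Fin q, Fermat.Agent.S24.twist (ζ ^ (i : ℕ))
          (pow_ne_zero _ (hζ.ne_zero hq.ne_zero))
          ((W M q hq hqM y : FN (M * q)) : LaurentSeries Kbar) := by
  have hζ0 := hζ.ne_zero hq.ne_zero
  have key := @NormFormula.norm_eq_prod_of_embeddings (FN M) (FN (M * q)) (LaurentSeries Kbar)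
    (Option (Fin q)) _ _ _ _ _ (algebraAlong (heckeAlphaBar Kbar M q))
    (DegreeAlpha.finiteDimensional_alpha M q hq hqM)
    ((qExpand Kbar q).comp (NormFormula.valN M)) (NormFormula.emb (M := M) (Whom M q hq hqM) hζ0)
    (fun o x => NormFormula.emb_alpha hq (Whom M q hq hqM) (Whom_comp_alpha M q hq hqM) hζ o x)
    (NormFormula.emb_injective hq (Whom M q hq hqM) (Whom_comp_beta M q hq hqM) hζ)
    (by rw [Fintype.card_option, Fintype.card_fin, DegreeAlpha.finrank_alpha M q hq hqM])
    y
  rw [Fintype.prod_option, NormFormula.emb_none] at key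
  exact key

theorem normAlpha_ne_zero {y : FN (M * q)} (hy : y ≠ 0) :
    normAlong (heckeAlphaBar Kbar M q) y ≠ 0 := by
  let _ := algebraAlong (heckeAlphaBar Kbar M q)
  show Algebra.norm (FN M) y ≠ 0
  by_cases hfin : Module.Finite (FN M) (FN (M * q))
  · have : Module.Free (FN M) (FN (M * q)) := Module.Free.of_divisionRing _ _
    exact Algebra.norm_ne_zero_iff.mpr hy
  · rw [Algebra.norm_eq_one_of_not_module_finite hfin]
    exact one_ne_zero

end Fermat.Agent.DR.Conc
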