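import Mathlib

/-!
# DR/Conc, block P (abstract, Mathlib only): scaling with respect to a PAIR of "valuations"

`F / E` finite, `ι₁ ι₂ : F → L` two embeddings, `O ⊆ L` a subring with a residue map `ρ : O → Lk`.
If a family `b` of `≥ [F : E]` elements is integral for both embeddings and its pair of reductions
is independent over the reduction of `E`, then `b` is an `E`-basis of `F` and every `y ≠ 0` is
`c₀ • ∑ c i • b i` with all `c i` integral and some `c i = 1`.
-/

set_option autoImplicit false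

namespace Fermat.Agent.DR.Conc

/-- Pivot of a nonzero finite family with respect to a "valuation ring" given by a predicate. -/
theorem pairAbs_pivot {E L ι : Type*} [Field E] [Field L] [Fintype ι]
    (O : Subring L) (f : E →+* L)
    (hval : ∀ c : E, f c ∈ O ∨ f c⁻¹ ∈ O)
    (d : ι → E) (hd : ∃ i, d i ≠ 0) :
    ∃ i₀, d i₀ ≠ 0 ∧ ∀ i, f (d i / d i₀) ∈ O := by
  classical
  let V : ValuationSubring E :=
    { O.comap f with
      mem_or_inv_mem' := fun c => hval c }
  have hV : ∀ c : E, c ∈ V ↔ f c ∈ O := fun c => Iff.rfl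
  obtain ⟨j, hj⟩ := hd
  obtain ⟨i₀, -, hi₀⟩ := Finset.exists_max_image (Finset.univ : Finset ι)
    (fun i => V.valuation (d i)) ⟨j, Finset.mem_univ j⟩
  have h0 : d i₀ ≠ 0 := by
    intro h
    have h1 := hi₀ j (Finset.mem_univ j)
    simp only [h, map_zero, le_zero_iff, map_eq_zero] at h1
    exact hj h1
  refine ⟨i₀, h0, fun i => ?_⟩
  rw [← hV, ← ValuationSubring.valuation_le_one_iff, map_div₀]
  have h1 := hi₀ i (Finset.mem_univ i)
  have h2 : V.valuation (d i₀) ≠ 0 := by simpa using h0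
  exact div_le_one_of_le₀ h1 zero_le

/-- **Pair scaling.**
PROOF. `V := {c : E | ι₁ c ∈ O}` is a valuation subring of `E` (`hval`), so every nonzero finite family
`d : ι → E` has a pivot `i₀` (`d i₀ ≠ 0`, `d i / d i₀ ∈ V` for all `i`: induction on the finite
type, or `ValuationSubring.valuation` and `Finset.exists_max_image`).
(1) `b` is linearly independent: a nontrivial relation, divided by its pivot, has integral
coefficients `c` with `c i₀ = 1`; apply `ρ ∘ ι₁` and `ρ ∘ ι₂` and `hind`: `ρ 1 = 0`, absurd.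
(2) so `b` is a basis (`hn`); expand `y` and divide by the pivot. -/
theorem pair_scale {E F L Lk ι : Type*} [Field E] [Field F] [Algebra E F] [FiniteDimensional E F]
    [Field L] [Field Lk] [Fintype ι]
    (O : Subring L) (ρ : O →+* Lk) (ι₁ ι₂ : F →+* L)
    (hval : ∀ c : E, ι₁ (algebraMap E F c) ∈ O ∨ ι₁ (algebraMap E F c⁻¹) ∈ O)
    (h12 : ∀ c : E, ι₁ (algebraMap E F c) ∈ O → ι₂ (algebraMap E F c) ∈ O)
    (hn : Module.finrank E F ≤ Fintype.card ι)
    (b : ι → F) (hb₁ : ∀ i, ι₁ (b i) ∈ O) (hb₂ : ∀ i, ι₂ (b i) ∈ O)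
    (hind : ∀ (c : ι → E) (hc : ∀ i, ι₁ (algebraMap E F (c i)) ∈ O),
      ∑ i, ρ ⟨_, hc i⟩ * ρ ⟨_, hb₁ i⟩ = 0 →
      ∑ i, ρ ⟨_, h12 _ (hc i)⟩ * ρ ⟨_, hb₂ i⟩ = 0 →
      ∀ i, ρ ⟨_, hc i⟩ = 0)
    (y : F) (hy : y ≠ 0) :
    ∃ (c₀ : E) (c : ι → E), c₀ ≠ 0 ∧ (∀ i, ι₁ (algebraMap E F (c i)) ∈ O) ∧
      y = c₀ • ∑ i, c i • b i ∧ ∃ i, c i = 1 := by
  classical
  have hpiv : ∀ (d : ι → E), (∃ i, d i ≠ 0) →
      ∃ i₀, d i₀ ≠ 0 ∧ ∀ i, ι₁ (algebraMap E F (d i / d i₀)) ∈ O :=
    fun d hd => pairAbs_pivot O (ι₁.comp (algebraMap E F)) hval d hd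
  -- generic: an integral relation reduces to zero
  have hred : ∀ (κ : F →+* L) (c : ι → E) (hc : ∀ i, κ (algebraMap E F (c i)) ∈ O)
      (hb : ∀ i, κ (b i) ∈ O), ∑ i, c i • b i = 0 →
      ∑ i, ρ ⟨_, hc i⟩ * ρ ⟨_, hb i⟩ = 0 := by
    intro κ c hc hb h
    have h1 : (∑ i, (⟨_, hc i⟩ : O) * ⟨_, hb i⟩ : O) = 0 := by
      apply Subtype.ext
      rw [Subring.coe_zero, ← map_zero κ, ← h, map_sum]
      simp [Algebra.smul_def]
    rw [← map_zero ρ, ← h1, map_sum]
    exact Finset.sum_congr rfl fun i _ => (map_mul ρ _ _).symm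
  have hli : LinearIndependent E b := by
    rw [Fintype.linearIndependent_iff]
    intro g hg
    by_contra hne
    rw [not_forall] at hne
    obtain ⟨i₀, h0, hi⟩ := hpiv g hne
    have hrel : ∑ i, (g i / g i₀) • b i = 0 := by
      have : ∑ i, (g i / g i₀) • b i = (g i₀)⁻¹ • ∑ i, g i • b i := by
        rw [Finset.smul_sum]
        refine Finset.sum_congr rfl fun i _ => ?_
        rw [smul_smul, div_eq_inv_mul]
      rw [this, hg, smul_zero]
    have h1 := hind (fun i => g i / g i₀) hi (hred ι₁ _ hi hb₁ hrel)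
      (hred ι₂ _ (fun i => h12 _ (hi i)) hb₂ hrel) i₀
    have h2 : (⟨_, hi i₀⟩ : O) = 1 := by
      apply Subtype.ext
      simp [div_self h0]
    rw [h2, map_one] at h1
    exact one_ne_zero h1
  have hcard : Fintype.card ι = Module.finrank E F :=
    le_antisymm hli.fintype_card_le_finrank hn
  have hspan : Submodule.span E (Set.range b) = ⊤ :=
    hli.span_eq_top_of_card_eq_finrank' hcard
  have hy' : y ∈ Submodule.span E (Set.range b) := by rw [hspan]; trivial
  obtain ⟨g, hg⟩ := (Submodule.mem_span_range_iff_exists_fun E).1 hy'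
  have hne : ∃ i, g i ≠ 0 := by
    by_contra h
    simp only [not_exists, not_not] at h
    apply hy
    rw [← hg]
    simp [h]
  obtain ⟨i₀, h0, hi⟩ := hpiv g hne
  refine ⟨g i₀, fun i => g i / g i₀, h0, hi, ?_, i₀, div_self h0⟩
  rw [← hg, Finset.smul_sum]
  refine Finset.sum_congr rfl fun i _ => ?_
  rw [smul_smul, mul_div_cancel₀ _ h0]

end Fermat.Agent.DR.Conc
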