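import Fermat.Agent.DR.Conc.Eps
import Fermat.Agent.DR.Conc.PairAbs
import Fermat.Agent.GAL.Gauss.Main
import Fermat.Agent.GAL.Hecke.Degree

/-!
# DR/Conc, block B: the pair basis of `FN (M q)` over `Kbar(j)` and `pair_normalise`

`ι₁ y = y(t)`, `ι₂ y = (W y)(t)`.  With `z_i` a `GaussBasis` of level `M` (`n₁ = ψ(M)` elements) the
`(q + 1) n₁ = ψ(M q)` elements `eps * α z_i` and `(1 - eps) * β (z_i j^l)` (`l < q`) are integral for
`ι₁` and `ι₂`, with pairs of reductions `(z̄_i, 0)` and `(0, z̄_i j̄^l)`.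
-/

set_option autoImplicit false
set_option linter.unusedSectionVars false

noncomputable section

namespace Fermat.Agent.DR.Conc

open ModularCurve AlgebraicCurve Fermat.Agent.S24 Fermat.Agent.GAL Fermat.Agent.GAL.Gauss

theorem basis_order_qExpand {R : Type*} [CommRing R] (m : ℕ) [NeZero m] (s : LaurentSeries R) :
    (qExpand R m s).order = m * s.order := by
  have hm : (0 : ℤ) < m := by exact_mod_cast Nat.pos_of_ne_zero (NeZero.ne m)
  by_cases hs : s = 0
  · subst hs; simp
  have hs' : qExpand R m s ≠ 0 := fun h =>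
    hs (qExpand_injective (R := R) (N := m) (by rw [h, map_zero]))
  apply le_antisymm
  · apply HahnSeries.order_le_of_coeff_ne_zero
    rw [qExpand_coeff_mul]
    exact HahnSeries.coeff_order_eq_zero.not.mpr hs
  · have h1 := HahnSeries.coeff_order_eq_zero.not.mpr hs'
    by_cases hd : (m : ℤ) ∣ (qExpand R m s).order
    · obtain ⟨k, hk⟩ := hd
      rw [hk, qExpand_coeff_mul] at h1
      rw [hk]
      exact mul_le_mul_of_nonneg_left (HahnSeries.order_le_of_coeff_ne_zero h1) hm.le
    · exact absurd (qExpand_coeff_of_not_dvd m s hd) h1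

/-- A finite family of series whose nonzero members have pairwise distinct orders and whose sum
vanishes is zero. -/
theorem basis_eq_zero_of_distinct_orders {k ι : Type*} [Field k] [Fintype ι]
    (T : ι → LaurentSeries k)
    (hT : ∀ i j, T i ≠ 0 → T j ≠ 0 → (T i).order = (T j).order → i = j)
    (h : ∑ i, T i = 0) : ∀ i, T i = 0 := by
  classical
  by_contra hne
  rw [not_forall] at hne
  obtain ⟨j, hj⟩ := hne
  obtain ⟨i₀, hi₀, hmin⟩ := Finset.exists_min_image (Finset.univ.filter fun i => T i ≠ 0)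
    (fun i => (T i).order) ⟨j, by simp [hj]⟩
  have hi₀' : T i₀ ≠ 0 := by simpa using hi₀
  have h1 : (∑ i, T i).coeff (T i₀).order = (T i₀).coeff (T i₀).order := by
    rw [HahnSeries.coeff_sum]
    refine Finset.sum_eq_single i₀ (fun i _ hi => ?_) (fun h => absurd (Finset.mem_univ _) h)
    by_cases hTi : T i = 0
    · rw [hTi]; rfl
    · apply HahnSeries.coeff_eq_zero_of_lt_order
      have h2 := hmin i (by simp [hTi])
      exact lt_of_le_of_ne h2 fun h3 => hi (hT i i₀ hTi hi₀' h3.symm)
  rw [h] at h1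
  exact HahnSeries.coeff_order_eq_zero.not.mpr hi₀' h1.symm

/-- (B1) `1, s, …, s^(q-1)` are linearly independent over `k((t^q))` if `s` has order `-1`
(the orders of the nonzero terms `d_l(t^q) s^l` are `≡ -l mod q`, hence pairwise distinct, and a sum
of series with pairwise distinct orders is nonzero). -/
theorem indep_pow_over_qExpand (k : Type*) [Field k] (q : ℕ) [NeZero q] (s : LaurentSeries k)
    (hs : s.order = -1) (d : Fin q → LaurentSeries k)
    (h : ∑ l : Fin q, qExpand k q (d l) * s ^ (l : ℕ) = 0) : d = 0 := by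
  have hs0 : s ≠ 0 := by
    rintro rfl
    simp at hs
  have hne : ∀ l : Fin q, qExpand k q (d l) * s ^ (l : ℕ) ≠ 0 → qExpand k q (d l) ≠ 0 :=
    fun l hl h0 => hl (by rw [h0, zero_mul])
  have hord : ∀ l : Fin q, qExpand k q (d l) * s ^ (l : ℕ) ≠ 0 →
      (qExpand k q (d l) * s ^ (l : ℕ)).order = q * (d l).order - l := by
    intro l hl
    rw [HahnSeries.order_mul (hne l hl) (pow_ne_zero _ hs0), basis_order_qExpand,
      HahnSeries.order_pow, hs]
    simp
    ring
  have h0 := basis_eq_zero_of_distinct_orders (fun l : Fin q => qExpand k q (d l) * s ^ (l : ℕ))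
    (by
      intro i j hi hj hij
      rw [hord i hi, hord j hj] at hij
      have h1 : ((i : ℕ) : ℤ) ≡ ((j : ℕ) : ℤ) [ZMOD q] := by
        rw [Int.modEq_iff_dvd]
        exact ⟨(d j).order - (d i).order, by linarith⟩
      have h2 : (i : ℕ) ≡ (j : ℕ) [MOD q] := (Int.natCast_modEq_iff).1 h1
      exact Fin.ext (Nat.ModEq.eq_of_lt_of_lt h2 i.2 j.2)) h
  funext l
  have h1 := h0 l
  show d l = 0
  rcases mul_eq_zero.1 h1 with h2 | h2
  · exact qExpand_injective (R := k) (N := q) (by rw [h2, map_zero])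
  · exact absurd h2 (pow_ne_zero _ hs0)

theorem order_jqModC (k : Type*) [Field k] : (jqModC k).order = -1 := by
  have h := Fermat.Agent.S28.orderTop_jqModC k
  have h0 : jqModC k ≠ 0 := jqModC_ne_zero_of_nontrivial k
  rw [HahnSeries.orderTop_of_ne_zero h0] at h
  rw [HahnSeries.order_of_ne h0]
  exact_mod_cast h

/-- (B2) `t ↦ t^q` maps `k(j)` into itself in characteristic `q`. -/
theorem qExpand_mem_adjoin_j (k : Type*) [Field k] (q : ℕ) [NeZero q] [Fact q.Prime] [CharP k q]
    {c : LaurentSeries k} (hc : c ∈ IntermediateField.adjoin k {jqModC k}) :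
    qExpand k q c ∈ IntermediateField.adjoin k {jqModC k} := by
  have h1 : qExpandAlgHomC k q c ∈ (IntermediateField.adjoin k {jqModC k}).map
      (qExpandAlgHomC k q) := ⟨c, hc, rfl⟩
  rw [IntermediateField.adjoin_map, Set.image_singleton, qExpandAlgHomC_apply,
    qExpandAlgHomC_apply, qExpand_jqModC_char] at h1
  refine (IntermediateField.adjoin_le_iff.2 ?_) h1
  rintro x rfl
  exact pow_mem (IntermediateField.mem_adjoin_simple_self k _) q

variable (A : ValuationSubring Kbar) (M q : ℕ) [NeZero M] [NeZero q] (hq : q.Prime)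
  (hqM : ¬ q ∣ M) (hA : A.LiesOverPrime q)

include hq hqM hA in
/-- `M` is invertible in the residue field. -/
theorem natCast_M_ne_zero : ((M : ℕ) : IsLocalRing.ResidueField ↥A) ≠ 0 := by
  haveI := Hecke.charP_residueField A hq hA
  rw [Ne, CharP.cast_eq_zero_iff (IsLocalRing.ResidueField ↥A) q]
  exact hqM

include hq hA in
/-- (B3) independence of the `z̄_i j̄^l` over `k(j̄^q) = k(j̄)(t^q)`. -/
theorem indep_frob {n : ℕ} {z : Fin n → LaurentSeries ↥A} (hz : GaussBasis A M n z)
    (d : Fin n × Fin q → LaurentSeries (IsLocalRing.ResidueField ↥A))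
    (hd : ∀ p, d p ∈ IntermediateField.adjoin (IsLocalRing.ResidueField ↥A)
      {jqModC (IsLocalRing.ResidueField ↥A)})
    (h : ∑ p : Fin n × Fin q, qExpand _ q (d p) *
      (pA A (z p.1) * jqModC (IsLocalRing.ResidueField ↥A) ^ (p.2 : ℕ)) = 0) : d = 0 := by
  haveI := Hecke.charP_residueField A hq hA
  haveI : Fact q.Prime := ⟨hq⟩
  set kA := IsLocalRing.ResidueField ↥A with hkA
  have h1 : ∑ i : Fin n, (∑ l : Fin q, qExpand kA q (d (i, l)) * jqModC kA ^ (l : ℕ)) *
      pA A (z i) = 0 := by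
    rw [← h, Fintype.sum_prod_type]
    refine Finset.sum_congr rfl fun i _ => ?_
    rw [Finset.sum_mul]
    refine Finset.sum_congr rfl fun l _ => ?_
    ring
  have h2 := hz.indep_res (fun i => ∑ l : Fin q, qExpand kA q (d (i, l)) * jqModC kA ^ (l : ℕ))
    (fun i => sum_mem fun l _ => mul_mem (qExpand_mem_adjoin_j kA q (hd (i, l)))
      (pow_mem (IntermediateField.mem_adjoin_simple_self kA _) _)) h1
  funext ⟨i, l⟩
  have h3 := indep_pow_over_qExpand kA q (jqModC kA) (order_jqModC kA) (fun l => d (i, l))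
    (congrFun h2 i)
  exact congrFun h3 l

end Fermat.Agent.DR.Conc
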