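import Fermat.Agent.GAL.Gauss.Ring

/-!
# DR/Conc, block S, helper file: sections of a Laurent series along `t ↦ t^d`

`seriesSect d r g` has coefficients `n ↦ g.coeff (d n + r)`.  Every series decomposes as
`g = ∑_{r < d} t^r (seriesSect d r g)(t^d)`, and `seriesSect d r (g * x(t^d)) = seriesSect d r g * x`.
Consequence: descent of Gauss integrality along `t ↦ t^d` (`mem_gRing_of_qExpand'`).
-/

set_option autoImplicit false

noncomputable section

namespace Fermat.Agent.DR.Conc

open ModularCurve Fermat.Agent.GAL.Gauss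

section Sect

variable {R : Type*} [CommRing R] (d : ℕ) [NeZero d]

theorem seriesSect_bdd (r : ℤ) (g : LaurentSeries R) :
    BddBelow (Function.support fun n : ℤ => g.coeff ((d : ℤ) * n + r)) := by
  refine ⟨(g.order - r) / (d : ℤ), ?_⟩
  intro m hm'
  by_contra hm
  rw [not_le] at hm
  apply hm'
  apply HahnSeries.coeff_eq_zero_of_lt_order
  have hd : (0 : ℤ) < d := by exact_mod_cast Nat.pos_of_ne_zero (NeZero.ne d)
  have h1 : m + 1 ≤ (g.order - r) / (d : ℤ) := hm
  have h2 : (d : ℤ) * ((g.order - r) / (d : ℤ)) ≤ g.order - r := Int.mul_ediv_self_le hd.ne'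
  have h3 : (d : ℤ) * (m + 1) ≤ (d : ℤ) * ((g.order - r) / (d : ℤ)) :=
    mul_le_mul_of_nonneg_left h1 hd.le
  nlinarith

/-- the series with coefficients `n ↦ g.coeff (d n + r)`. -/
def seriesSect (r : ℤ) (g : LaurentSeries R) : LaurentSeries R :=
  HahnSeries.ofSuppBddBelow (fun n : ℤ => g.coeff ((d : ℤ) * n + r)) (seriesSect_bdd d r g)

theorem seriesSect_coeff (r : ℤ) (g : LaurentSeries R) (n : ℤ) :
    (seriesSect d r g).coeff n = g.coeff ((d : ℤ) * n + r) := rfl

theorem seriesSect_add (r : ℤ) (g h : LaurentSeries R) :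
    seriesSect d r (g + h) = seriesSect d r g + seriesSect d r h := by
  ext n
  simp [seriesSect_coeff]

theorem seriesSect_zero (r : ℤ) : seriesSect d r (0 : LaurentSeries R) = 0 := by
  ext n
  simp [seriesSect_coeff]

/-- `seriesSect` as an additive map. -/
def seriesSectHom (r : ℤ) : LaurentSeries R →+ LaurentSeries R where
  toFun := seriesSect d r
  map_zero' := seriesSect_zero d r
  map_add' := seriesSect_add d r

theorem seriesSect_sum {ι : Type*} (s : Finset ι) (f : ι → LaurentSeries R) (r : ℤ) :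
    seriesSect d r (∑ i ∈ s, f i) = ∑ i ∈ s, seriesSect d r (f i) :=
  map_sum (seriesSectHom d r) f s

theorem seriesSect_single_mul_qExpand {r r' : ℕ} (hr : r < d) (hr' : r' < d)
    (y : LaurentSeries R) :
    seriesSect d r' (HahnSeries.single (r : ℤ) (1 : R) * qExpand R d y) =
      if r = r' then y else 0 := by
  ext n
  rw [seriesSect_coeff, HahnSeries.coeff_single_mul, one_mul]
  split_ifs with h
  · subst h
    rw [add_sub_cancel_right, qExpand_coeff_mul]
  · rw [HahnSeries.coeff_zero]
    apply qExpand_coeff_of_not_dvd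
    intro hdvd
    have h1 : (d : ℤ) ∣ (r' : ℤ) - r := by
      have : (d : ℤ) * n + r' - r = (d : ℤ) * n + ((r' : ℤ) - r) := by ring
      rw [this] at hdvd
      exact (Int.dvd_add_right (Dvd.intro _ rfl)).mp hdvd
    have h2 : (r' : ℤ) - r = 0 := by
      apply Int.eq_zero_of_abs_lt_dvd h1
      rw [abs_lt]
      constructor <;> omega
    omega

theorem seriesSect_decomp (g : LaurentSeries R) :
    g = ∑ r ∈ Finset.range d,
      HahnSeries.single (r : ℤ) (1 : R) * qExpand R d (seriesSect d r g) := by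
  have hd : (0 : ℤ) < d := by exact_mod_cast Nat.pos_of_ne_zero (NeZero.ne d)
  ext m
  rw [HahnSeries.coeff_sum]
  have hm0 : 0 ≤ m % (d : ℤ) := Int.emod_nonneg _ hd.ne'
  have hm1 : m % (d : ℤ) < d := Int.emod_lt_of_pos _ hd
  obtain ⟨r0, hr0⟩ := Int.eq_ofNat_of_zero_le hm0
  have hr0d : r0 < d := by
    have : (r0 : ℤ) < d := by rw [← hr0]; exact hm1
    exact_mod_cast this
  rw [Finset.sum_eq_single r0]
  · rw [HahnSeries.coeff_single_mul, one_mul]
    have : m - (r0 : ℤ) = (d : ℤ) * (m / (d : ℤ)) := by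
      rw [← hr0]
      have := Int.emod_add_mul_ediv m (d : ℤ)
      linarith
    rw [this, qExpand_coeff_mul, seriesSect_coeff, ← this, sub_add_cancel]
  · intro r hr hne
    rw [HahnSeries.coeff_single_mul, one_mul]
    apply qExpand_coeff_of_not_dvd
    intro hdvd
    apply hne
    have hrd : r < d := Finset.mem_range.mp hr
    have h1 : m % (d : ℤ) = (r : ℤ) % (d : ℤ) :=
      (Int.emod_eq_emod_iff_emod_sub_eq_zero).mpr (Int.emod_eq_zero_of_dvd hdvd)
    have h2 : (r : ℤ) % (d : ℤ) = r :=
      Int.emod_eq_of_lt (Int.natCast_nonneg r) (by exact_mod_cast hrd)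
    rw [h2, hr0] at h1
    exact_mod_cast h1.symm
  · intro h
    exact absurd (Finset.mem_range.mpr hr0d) h

theorem seriesSect_mul_qExpand {r : ℕ} (hr : r < d) (g x : LaurentSeries R) :
    seriesSect d r (g * qExpand R d x) = seriesSect d r g * x := by
  conv_lhs => rw [seriesSect_decomp d g, Finset.sum_mul, seriesSect_sum]
  have : ∀ i ∈ Finset.range d,
      seriesSect d r (HahnSeries.single (i : ℤ) (1 : R) * qExpand R d (seriesSect d i g) *
        qExpand R d x) = if i = r then seriesSect d i g * x else 0 := by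
    intro i hi
    rw [mul_assoc, ← map_mul, seriesSect_single_mul_qExpand d (Finset.mem_range.mp hi) hr]
  rw [Finset.sum_congr rfl this, Finset.sum_ite_eq' (Finset.range d) r, if_pos (Finset.mem_range.mpr hr)]

theorem seriesSect_exists_ne_zero {g : LaurentSeries R} (hg : g ≠ 0) :
    ∃ r : ℕ, r < d ∧ seriesSect d r g ≠ 0 := by
  by_contra hcon
  push Not at hcon
  apply hg
  rw [seriesSect_decomp d g]
  apply Finset.sum_eq_zero
  intro r hr
  rw [hcon r (Finset.mem_range.mp hr), map_zero, mul_zero]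

theorem seriesSect_coeffMap {S : Type*} [CommRing S] (f : R →+* S) (r : ℤ) (g : LaurentSeries R) :
    coeffMap f (seriesSect d r g) = seriesSect d r (coeffMap f g) := by
  ext n
  rfl

end Sect

variable {K : Type*} [Field K] (A : ValuationSubring K)

/-- (S2) **descent**: if `x(t^d)` is Gauss integral so is `x(t)`. -/
theorem mem_gRing_of_qExpand' (d : ℕ) [NeZero d] {x : LaurentSeries K}
    (h : qExpand K d x ∈ gRing A) : x ∈ gRing A := by
  obtain ⟨z, g, hg, h⟩ := h
  obtain ⟨r, hr, hne⟩ := seriesSect_exists_ne_zero d hg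
  refine ⟨seriesSect d r z, seriesSect d r g, ?_, ?_⟩
  · rw [pA, seriesSect_coeffMap]
    exact hne
  · rw [iA, seriesSect_coeffMap, seriesSect_coeffMap, ← seriesSect_mul_qExpand d hr]
    exact congrArg _ h

end Fermat.Agent.DR.Conc
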