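import Fermat.Agent.GAL.Gauss.Ring
import Fermat.Agent.DR.Conc.SeriesSect
import Fermat.Agent.S24.ConvLaurent
import Fermat.Prelude.Thm_ModularCurve_coeffMap_qExpand

/-!
# DR/Conc, block S: the Gauss ring `gRing A ⊆ K((t))` under the formal operations
`t ↦ t^d` (`qExpand`), `t ↦ c t` (`twist`), and coefficientwise automorphisms (`coeffMap`).

Purely formal (no modular curves).  `gRing A = {z / g : z, g ∈ A((t)), ḡ ≠ 0}`,
`gRes A : gRing A →+* k((t))`.
-/

set_option autoImplicit false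

noncomputable section

namespace Fermat.Agent.DR.Conc

open ModularCurve Fermat.Agent.GAL.Gauss

variable {K : Type*} [Field K] (A : ValuationSubring K)

/-- (S1) `gRing` is stable under `t ↦ t^d`. -/
theorem qExpand_mem_gRing (d : ℕ) [NeZero d] {x : LaurentSeries K} (hx : x ∈ gRing A) :
    qExpand K d x ∈ gRing A := by
  obtain ⟨z, g, hg, h⟩ := hx
  refine ⟨qExpand ↥A d z, qExpand ↥A d g, ?_, ?_⟩
  · rw [pA_qExpand]
    exact (map_ne_zero_iff _ (qExpand_injective (R := IsLocalRing.ResidueField ↥A) (N := d))).mpr hg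
  · rw [iA_qExpand, iA_qExpand, ← map_mul, h]

/-- (S1') and the residue map commutes with it. -/
theorem gRes_qExpand (d : ℕ) [NeZero d] {x : LaurentSeries K} (hx : x ∈ gRing A) :
    gRes A ⟨qExpand K d x, qExpand_mem_gRing A d hx⟩ =
      qExpand (IsLocalRing.ResidueField ↥A) d (gRes A ⟨x, hx⟩) := by
  obtain ⟨z, g, hg, h⟩ := (mem_gRing_iff A).mp hx
  have hg' : pA A (qExpand ↥A d g) ≠ 0 := by
    rw [pA_qExpand]
    exact (map_ne_zero_iff _ (qExpand_injective (R := IsLocalRing.ResidueField ↥A) (N := d))).mpr hg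
  rw [gRes_eq A _ hg' (z := qExpand ↥A d z) (by
      show iA A (qExpand ↥A d g) * qExpand K d x = _
      rw [iA_qExpand, iA_qExpand, ← map_mul, h]),
    gRes_eq A ⟨x, _⟩ hg h, pA_qExpand, pA_qExpand, map_div₀]

/-- (S2) **descent**: if `x(t^d)` is Gauss integral so is `x(t)`.
PROOF.  `g * x(t^d) = z`, `ḡ ≠ 0`.  For `0 ≤ r < d` let `sect r g` be the series with coefficients
`n ↦ g.coeff (d n + r)` (bounded below support).  Then `g = ∑_r t^r (sect r g)(t^d)`, so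
`∑_r t^r ((sect r g) x)(t^d) = ∑_r t^r (sect r z)(t^d)` and comparing the coefficients of
`t^(d n + r)`: `iA (sect r g) * x = iA (sect r z)` for all `r`.  As `ḡ ≠ 0` some `sect r g` has
nonzero reduction. -/
theorem mem_gRing_of_qExpand (d : ℕ) [NeZero d] {x : LaurentSeries K}
    (h : qExpand K d x ∈ gRing A) : x ∈ gRing A :=
  mem_gRing_of_qExpand' A d h

/-- the unit of `A` attached to `c`, `c⁻¹ ∈ A`. -/
def Series_unit {c : K} (hc0 : c ≠ 0) (hc : c ∈ A) (hc' : c⁻¹ ∈ A) : (↥A)ˣ where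
  val := ⟨c, hc⟩
  inv := ⟨c⁻¹, hc'⟩
  val_inv := Subtype.ext (mul_inv_cancel₀ hc0)
  inv_val := Subtype.ext (inv_mul_cancel₀ hc0)

theorem Series_unit_zpow {c : K} (hc0 : c ≠ 0) (hc : c ∈ A) (hc' : c⁻¹ ∈ A) (n : ℤ) :
    (((Series_unit A hc0 hc hc' ^ n : (↥A)ˣ) : ↥A) : K) = c ^ n := by
  have h1 : (((Series_unit A hc0 hc hc' ^ n : (↥A)ˣ) : ↥A) : K)
      = ((Units.map (A.subtype : ↥A →* K) (Series_unit A hc0 hc hc' ^ n) : Kˣ) : K) := rfl
  rw [h1, map_zpow, Units.val_zpow_eq_zpow_val]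
  rfl

theorem Series_iA_twist {c : K} (hc0 : c ≠ 0) (hc : c ∈ A) (hc' : c⁻¹ ∈ A)
    (z : LaurentSeries ↥A) :
    iA A (Fermat.Agent.S28.twist (Series_unit A hc0 hc hc') z)
      = Fermat.Agent.S24.twist c hc0 (iA A z) := by
  ext n
  rw [iA_coeff, Fermat.Agent.S28.twist_coeff, Fermat.Agent.S24.twist_coeff, iA_coeff,
    ← Series_unit_zpow A hc0 hc hc' n]
  rfl

theorem Series_pA_twist (u : (↥A)ˣ) (z : LaurentSeries ↥A) :
    pA A (Fermat.Agent.S28.twist u z)
      = Fermat.Agent.S28.twist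
          (Units.map (IsLocalRing.residue ↥A : ↥A →* IsLocalRing.ResidueField ↥A) u) (pA A z) := by
  ext n
  rw [pA_coeff, Fermat.Agent.S28.twist_coeff, Fermat.Agent.S28.twist_coeff, pA_coeff, map_mul,
    ← map_zpow]
  rfl

theorem Series_twist_ne_zero {R : Type*} [CommRing R] (u : Rˣ) {x : LaurentSeries R}
    (hx : x ≠ 0) : Fermat.Agent.S28.twist u x ≠ 0 := by
  intro h
  apply hx
  ext n
  have h1 := congrArg (fun s => HahnSeries.coeff s n) h
  simpa using h1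

theorem Series_twist_one {R : Type*} [CommRing R] (x : LaurentSeries R) :
    Fermat.Agent.S28.twist (1 : Rˣ) x = x := by
  ext n
  simp

/-- (S3) `gRing` is stable under `t ↦ c t`, `c` a unit of `A`. -/
theorem twist_mem_gRing {c : K} (hc0 : c ≠ 0) (hc : c ∈ A) (hc' : c⁻¹ ∈ A)
    {x : LaurentSeries K} (hx : x ∈ gRing A) : Fermat.Agent.S24.twist c hc0 x ∈ gRing A := by
  obtain ⟨z, g, hg, h⟩ := hx
  refine ⟨Fermat.Agent.S28.twist (Series_unit A hc0 hc hc') z,
    Fermat.Agent.S28.twist (Series_unit A hc0 hc hc') g, ?_, ?_⟩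
  · rw [Series_pA_twist]
    exact Series_twist_ne_zero _ hg
  · rw [Series_iA_twist, Series_iA_twist, ← map_mul, h]

/-- (S3') if moreover `c ≡ 1` then the residue does not change. -/
theorem gRes_twist {c : K} (hc0 : c ≠ 0) (hc : c ∈ A) (hc' : c⁻¹ ∈ A)
    (h1 : IsLocalRing.residue ↥A ⟨c, hc⟩ = 1) {x : LaurentSeries K} (hx : x ∈ gRing A) :
    gRes A ⟨_, twist_mem_gRing A hc0 hc hc' hx⟩ = gRes A ⟨x, hx⟩ := by
  obtain ⟨z, g, hg, h⟩ := (mem_gRing_iff A).mp hx
  have hu : Units.map (IsLocalRing.residue ↥A : ↥A →* IsLocalRing.ResidueField ↥A)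
      (Series_unit A hc0 hc hc') = 1 := Units.ext h1
  have hp : ∀ y : LaurentSeries ↥A,
      pA A (Fermat.Agent.S28.twist (Series_unit A hc0 hc hc') y) = pA A y := by
    intro y
    rw [Series_pA_twist, hu, Series_twist_one]
  rw [gRes_eq A _ (z := Fermat.Agent.S28.twist (Series_unit A hc0 hc hc') z)
      (g := Fermat.Agent.S28.twist (Series_unit A hc0 hc hc') g) (by rw [hp]; exact hg) (by
      show iA A _ * Fermat.Agent.S24.twist c hc0 x = _
      rw [Series_iA_twist, Series_iA_twist, ← map_mul, h]),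
    gRes_eq A ⟨x, _⟩ hg h, hp, hp]

/-- the restriction of `σ` to `A`. -/
def Series_restr (σ : K →+* K) (hσ : ∀ a, a ∈ A → σ a ∈ A) : ↥A →+* ↥A :=
  (σ.comp A.subtype).codRestrict A.toSubring fun a => hσ a a.2

theorem Series_iA_coeffMap (σ : K →+* K) (hσ : ∀ a, a ∈ A → σ a ∈ A) (z : LaurentSeries ↥A) :
    iA A (coeffMap (Series_restr A σ hσ) z) = coeffMap σ (iA A z) := by
  ext n
  rfl

theorem Series_pA_coeffMap (σ : K →+* K) (hσ : ∀ a, a ∈ A → σ a ∈ A)
    (σb : IsLocalRing.ResidueField ↥A →+* IsLocalRing.ResidueField ↥A)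
    (hσb : ∀ (a : K) (ha : a ∈ A), IsLocalRing.residue ↥A ⟨σ a, hσ a ha⟩ =
      σb (IsLocalRing.residue ↥A ⟨a, ha⟩)) (z : LaurentSeries ↥A) :
    pA A (coeffMap (Series_restr A σ hσ) z) = coeffMap σb (pA A z) := by
  ext n
  exact hσb (z.coeff n) (z.coeff n).2

/-- (S4) `gRing` is stable under a coefficientwise ring endomorphism of `K` preserving `A` and
its maximal ideal. -/
theorem coeffMap_mem_gRing (σ : K →+* K) (hσ : ∀ a, a ∈ A → σ a ∈ A)
    (σb : IsLocalRing.ResidueField ↥A →+* IsLocalRing.ResidueField ↥A)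
    (hσb : ∀ (a : K) (ha : a ∈ A), IsLocalRing.residue ↥A ⟨σ a, hσ a ha⟩ =
      σb (IsLocalRing.residue ↥A ⟨a, ha⟩))
    {x : LaurentSeries K} (hx : x ∈ gRing A) : coeffMap σ x ∈ gRing A := by
  obtain ⟨z, g, hg, h⟩ := hx
  refine ⟨coeffMap (Series_restr A σ hσ) z, coeffMap (Series_restr A σ hσ) g, ?_, ?_⟩
  · rw [Series_pA_coeffMap A σ hσ σb hσb]
    exact (map_ne_zero _).mpr hg
  · rw [Series_iA_coeffMap, Series_iA_coeffMap, ← map_mul, h]

/-- (S4') and the residue map is equivariant. -/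
theorem gRes_coeffMap (σ : K →+* K) (hσ : ∀ a, a ∈ A → σ a ∈ A)
    (σb : IsLocalRing.ResidueField ↥A →+* IsLocalRing.ResidueField ↥A)
    (hσb : ∀ (a : K) (ha : a ∈ A), IsLocalRing.residue ↥A ⟨σ a, hσ a ha⟩ =
      σb (IsLocalRing.residue ↥A ⟨a, ha⟩))
    {x : LaurentSeries K} (hx : x ∈ gRing A) :
    gRes A ⟨_, coeffMap_mem_gRing A σ hσ σb hσb hx⟩ = coeffMap σb (gRes A ⟨x, hx⟩) := by
  obtain ⟨z, g, hg, h⟩ := (mem_gRing_iff A).mp hx
  rw [gRes_eq A _ (z := coeffMap (Series_restr A σ hσ) z) (g := coeffMap (Series_restr A σ hσ) g)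
      (by rw [Series_pA_coeffMap A σ hσ σb hσb]; exact (map_ne_zero _).mpr hg) (by
      show iA A _ * coeffMap σ x = _
      rw [Series_iA_coeffMap, Series_iA_coeffMap, ← map_mul, h]),
    gRes_eq A ⟨x, _⟩ hg h, Series_pA_coeffMap A σ hσ σb hσb, Series_pA_coeffMap A σ hσ σb hσb,
    map_div₀]

end Fermat.Agent.DR.Conc
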