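import Fermat.Agent.DR.Conc.AL
import Fermat.Agent.DR.Conc.Series
import Fermat.Agent.GAL.Hecke.SeriesRed
import Fermat.Agent.GAL.Igusa.LevelDeg

/-!
# DR/Conc, block E: the functions `j`, `j_q = j(t^q)`, `y_∞ = j - j_q^q`, `y_0 = j_q - j^q` and the
"idempotent" `eps = y_∞ / (y_∞ + y_0)` of `FN (M * q)`; `A` a place of `Kbar` over `q`.

`eps ≡ 1` for the Gauss valuation at `∞` and `W eps = 1 - eps` (so `eps ≡ 0` at `0`).
-/

set_option autoImplicit false
set_option linter.unusedSectionVars false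

noncomputable section

namespace Fermat.Agent.DR.Conc

open ModularCurve AlgebraicCurve Fermat.Agent.S24 Fermat.Agent.GAL Fermat.Agent.GAL.Gauss

variable (M q : ℕ) [NeZero M] [NeZero q] (hq : q.Prime) (hqM : ¬ q ∣ M)

/-- `j` at level `M q`. -/
def jN : FN (M * q) := jF (M * q)

/-- `j_q = j(t^q)` at level `M q`. -/
def jqN : FN (M * q) := heckeBetaBar Kbar M q (jF M)

theorem jN_eq_alpha : jN M q = heckeAlphaBar Kbar M q (jF M) := (DegreeAlpha.alpha_jF M q).symm

theorem coe_jN : ((jN M q : FN (M * q)) : LaurentSeries Kbar) = jqModC Kbar :=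
  Igusa.LevelDeg_coeffEmb_jq

theorem coe_jqN : ((jqN M q : FN (M * q)) : LaurentSeries Kbar) = qExpand Kbar q (jqModC Kbar) := by
  rw [jqN, coe_heckeBetaBar]
  exact congrArg _ Igusa.LevelDeg_coeffEmb_jq

theorem W_jN : W M q hq hqM (jN M q) = jqN M q := by
  rw [jN_eq_alpha, W_alpha, jqN]

theorem W_jqN : W M q hq hqM (jqN M q) = jN M q := by
  rw [jqN, W_beta, jN_eq_alpha]

/-- `y_∞ = j - j_q^q`. -/
def yInf : FN (M * q) := jN M q - jqN M q ^ q

/-- `y_0 = j_q - j^q`. -/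
def yZero : FN (M * q) := jqN M q - jN M q ^ q

theorem W_yInf : W M q hq hqM (yInf M q) = yZero M q := by
  rw [yInf, yZero, map_sub, map_pow, W_jN, W_jqN]

theorem W_yZero : W M q hq hqM (yZero M q) = yInf M q := by
  rw [yInf, yZero, map_sub, map_pow, W_jN, W_jqN]

/-- `eps = y_∞ / (y_∞ + y_0)`. -/
def eps : FN (M * q) := yInf M q / (yInf M q + yZero M q)

variable (A : ValuationSubring Kbar) (hA : A.LiesOverPrime q)

/-- (E1) in characteristic `q`: `j̄(t^q) = j̄^q`
(`Hecke.pow_char_eq_qExpand`, `coeffMap_jqModC`). -/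
theorem qExpand_jqModC_char (k : Type*) [Field k] [Fact q.Prime] [CharP k q] :
    qExpand k q (jqModC k) = jqModC k ^ q := by
  rw [Hecke.pow_char_eq_qExpand, coeffMap_jqModC]

include hq in
/-- (E2) `h = j̄ - j̄^(q²) ≠ 0` (`S28.transcendental_jqModC`, or the coefficient of `t^(-q²)`). -/
theorem jb_sub_pow_ne_zero (k : Type*) [Field k] : jqModC k - (jqModC k ^ q) ^ q ≠ 0 := by
  intro h
  have htr := Fermat.Agent.S28.transcendental_jqModC k
  have h1 : Polynomial.aeval (jqModC k) (Polynomial.X - Polynomial.X ^ (q * q) : Polynomial k) = 0 := by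
    rw [map_sub, map_pow, Polynomial.aeval_X, pow_mul]
    exact h
  have h2 := (transcendental_iff.mp htr) _ h1
  have h3 := congrArg (fun P : Polynomial k => P.coeff 1) h2
  have hqq : (1 : ℕ) ≠ q * q := by
    have := hq.two_le
    nlinarith
  simp only [Polynomial.coeff_sub, Polynomial.coeff_X_one, Polynomial.coeff_X_pow,
    Polynomial.coeff_zero, if_neg hqq, sub_zero] at h3
  exact one_ne_zero h3

/-- (E3) `y_∞` is the integral series `j - j(t^q)^q`, with reduction `h`. -/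
theorem coe_yInf : ((yInf M q : FN (M * q)) : LaurentSeries Kbar) =
    iA A (jqModC ↥A - (qExpand ↥A q (jqModC ↥A)) ^ q) := by
  rw [map_sub, map_pow, iA_qExpand, iA_jqModC, ← coe_jqN M q, ← coe_jN M q]
  rfl

theorem coe_yZero : ((yZero M q : FN (M * q)) : LaurentSeries Kbar) =
    iA A (qExpand ↥A q (jqModC ↥A) - jqModC ↥A ^ q) := by
  rw [map_sub, map_pow, iA_qExpand, iA_jqModC, ← coe_jqN M q, ← coe_jN M q]
  rfl

include hq hA in
theorem pA_yInf : pA A (jqModC ↥A - (qExpand ↥A q (jqModC ↥A)) ^ q) =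
    jqModC (IsLocalRing.ResidueField ↥A) - (jqModC (IsLocalRing.ResidueField ↥A) ^ q) ^ q := by
  haveI := Hecke.charP_residueField A hq hA
  haveI : Fact q.Prime := ⟨hq⟩
  rw [map_sub, map_pow, pA_qExpand, pA_jqModC, qExpand_jqModC_char]

include hq hA in
theorem pA_yZero : pA A (qExpand ↥A q (jqModC ↥A) - jqModC ↥A ^ q) = 0 := by
  haveI := Hecke.charP_residueField A hq hA
  haveI : Fact q.Prime := ⟨hq⟩
  rw [map_sub, map_pow, pA_qExpand, pA_jqModC, qExpand_jqModC_char, sub_self]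

include hq hA in
theorem Eps_pA_sum_ne_zero : pA A ((jqModC ↥A - (qExpand ↥A q (jqModC ↥A)) ^ q) +
    (qExpand ↥A q (jqModC ↥A) - jqModC ↥A ^ q)) ≠ 0 := by
  rw [map_add, pA_yInf q hq A hA, pA_yZero q hq A hA, add_zero]
  exact jb_sub_pow_ne_zero q hq _

theorem Eps_coe_sum : ((yInf M q + yZero M q : FN (M * q)) : LaurentSeries Kbar) =
    iA A ((jqModC ↥A - (qExpand ↥A q (jqModC ↥A)) ^ q) +
      (qExpand ↥A q (jqModC ↥A) - jqModC ↥A ^ q)) := by
  rw [map_add, ← coe_yInf M q A, ← coe_yZero M q A]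
  rfl

include hq hA in
theorem yInf_add_yZero_ne_zero : yInf M q + yZero M q ≠ 0 := by
  intro h
  have h1 := Eps_coe_sum M q A
  rw [h] at h1
  exact iA_ne_zero_of_pA_ne_zero A (Eps_pA_sum_ne_zero q hq A hA) h1.symm

include hq hA in
/-- (E4) -/
theorem W_eps : W M q hq hqM (eps M q) = 1 - eps M q := by
  have h0 := yInf_add_yZero_ne_zero M q hq A hA
  rw [eps, map_div₀, map_add, W_yInf, W_yZero, add_comm (yZero M q), eq_sub_iff_add_eq,
    ← add_div, add_comm (yZero M q), div_self h0]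

include hq hA in
theorem Eps_key : iA A ((jqModC ↥A - (qExpand ↥A q (jqModC ↥A)) ^ q) +
      (qExpand ↥A q (jqModC ↥A) - jqModC ↥A ^ q)) * ((eps M q : FN (M * q)) : LaurentSeries Kbar) =
    iA A (jqModC ↥A - (qExpand ↥A q (jqModC ↥A)) ^ q) := by
  rw [← Eps_coe_sum M q A, ← coe_yInf M q A]
  have h0 := yInf_add_yZero_ne_zero M q hq A hA
  have h1 : (yInf M q + yZero M q) * eps M q = yInf M q := by
    rw [eps, mul_div_cancel₀ _ h0]
  exact congrArg (fun x : FN (M * q) => (x : LaurentSeries Kbar)) h1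

include hq hA in
/-- (E5) -/
theorem eps_mem_gRing : ((eps M q : FN (M * q)) : LaurentSeries Kbar) ∈ gRing A :=
  (mem_gRing_iff A).mpr ⟨_, _, Eps_pA_sum_ne_zero q hq A hA, Eps_key M q hq A hA⟩

/-- (E6) -/
theorem gRes_eps : gRes A ⟨_, eps_mem_gRing M q hq A hA⟩ = 1 := by
  have h1 := gRes_eq A ⟨_, eps_mem_gRing M q hq A hA⟩
    (z := jqModC ↥A - (qExpand ↥A q (jqModC ↥A)) ^ q)
    (g := (jqModC ↥A - (qExpand ↥A q (jqModC ↥A)) ^ q) +
      (qExpand ↥A q (jqModC ↥A) - jqModC ↥A ^ q))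
    (Eps_pA_sum_ne_zero q hq A hA) (Eps_key M q hq A hA)
  rw [h1, map_add (pA A), pA_yZero q hq A hA, add_zero, div_self]
  rw [pA_yInf q hq A hA]
  exact jb_sub_pow_ne_zero q hq _

end Fermat.Agent.DR.Conc
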