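import Fermat.Agent.DR.Conc.Normalise
import Fermat.Agent.GAL.RED.Concrete

/-!
# DR/Conc, block R: the two reduction data `R1`, `R2` on `F = FN (M q)`

`A` a place of `Kbar` over the prime `q ∤ M`, `k` its residue field, `Fb = E k M`.
* `R1` : `O = F ∩ gRing A` (Gauss valuation of the expansion at `∞`), `res = gRes`;
* `R2 = R1 ∘ W` (Gauss valuation of the expansion at `0`).
-/

set_option autoImplicit false
set_option linter.unusedSectionVars false

noncomputable section

namespace Fermat.Agent.DR.Conc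

open ModularCurve AlgebraicCurve Fermat.Agent.S24 Fermat.Agent.GAL Fermat.Agent.GAL.Gauss
  Fermat.Agent.GAL.RED

variable (A : ValuationSubring Kbar) (M q : ℕ) [NeZero M] [NeZero q] (hq : q.Prime)
  (hqM : ¬ q ∣ M) (hA : A.LiesOverPrime q)

/-- The Gauss valuation ring (expansion at `∞`) of `FN (M q)`. -/
def O1 : ValuationSubring (FN (M * q)) where
  toSubring := (gRing A).comap (algebraMap (FN (M * q)) (LaurentSeries Kbar))
  mem_or_inv_mem' x := by
    by_cases hx0 : x = 0
    · subst hx0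
      exact Or.inl (Subring.zero_mem _)
    obtain ⟨a, u, ha, hxu, hu, -⟩ := normalise1 A M q hq hqM hA x hx0
    rcases A.mem_or_inv_mem a with h | h
    · left
      show (x : LaurentSeries Kbar) ∈ gRing A
      rw [hxu]
      exact (C_mul_unit_mem_iff A a u hu).mpr h
    · right
      show algebraMap (FN (M * q)) (LaurentSeries Kbar) x⁻¹ ∈ gRing A
      rw [map_inv₀]
      show (x : LaurentSeries Kbar)⁻¹ ∈ gRing A
      rw [hxu, mul_inv, ← map_inv₀]
      exact (gRing A).mul_mem ((C_mem_gRing_iff A _).mpr h)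
        (inv_mem_gRing_of_gRes_ne_zero A u hu)

theorem mem_O1_iff (x : FN (M * q)) :
    x ∈ O1 A M q hq hqM hA ↔ (x : LaurentSeries Kbar) ∈ gRing A := Iff.rfl

/-- The residue map of `O1`. -/
def res1 : ↥(O1 A M q hq hqM hA) →+* Igusa.E (IsLocalRing.ResidueField ↥A) M :=
  ((gRes A).comp
    (((algebraMap (FN (M * q)) (LaurentSeries Kbar)).comp
      (O1 A M q hq hqM hA).subtype).codRestrict (gRing A) (fun x => x.2))).codRestrict
    (modularFunctionFieldFullC (IsLocalRing.ResidueField ↥A) M).toSubring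
    (fun x => gRes_mem1 A M q hq hqM hA x.1 x.2)

theorem coe_res1 (x : ↥(O1 A M q hq hqM hA)) :
    ((res1 A M q hq hqM hA x : Igusa.E (IsLocalRing.ResidueField ↥A) M) :
      LaurentSeries (IsLocalRing.ResidueField ↥A)) =
      gRes A ⟨((x : FN (M * q)) : LaurentSeries Kbar), x.2⟩ := rfl

theorem res1_surjective : Function.Surjective (res1 A M q hq hqM hA) := by
  intro x
  obtain ⟨y, hyF, hy⟩ := gRes_surjective A M (natCast_M_ne_zero A M q hq hqM hA) x x.2
  have hyF' : (y : LaurentSeries Kbar) ∈ modularFunctionFieldBar M := by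
    rw [Igusa.modularFunctionFieldBar_eq]; exact hyF
  refine ⟨⟨heckeAlphaBar Kbar M q ⟨y, hyF'⟩, ?_⟩, Subtype.ext ?_⟩
  · show ((heckeAlphaBar Kbar M q ⟨y, hyF'⟩ : FN (M * q)) : LaurentSeries Kbar) ∈ gRing A
    rw [coe_heckeAlphaBar]
    exact y.2
  · rw [coe_res1, ← hy]
    congr 1

theorem coe_algebraMap_FN (N : ℕ) (a : Kbar) :
    ((algebraMap Kbar (FN N) a : FN N) : LaurentSeries Kbar) = HahnSeries.C a := by
  rw [IntermediateField.coe_algebraMap_apply, algebraMap_eq_C]

theorem algebraMap_mem_O1 (a : Kbar) (ha : a ∈ A) :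
    algebraMap Kbar (FN (M * q)) a ∈ O1 A M q hq hqM hA := by
  rw [mem_O1_iff, coe_algebraMap_FN]
  exact (C_mem_gRing_iff A a).mpr ha

theorem res1_algebraMap (a : Kbar) (ha : a ∈ A) :
    res1 A M q hq hqM hA ⟨algebraMap Kbar (FN (M * q)) a, algebraMap_mem_O1 A M q hq hqM hA a ha⟩
      = algebraMap (IsLocalRing.ResidueField ↥A) (Igusa.E (IsLocalRing.ResidueField ↥A) M)
          (IsLocalRing.residue ↥A ⟨a, ha⟩) := by
  apply Subtype.ext
  rw [coe_res1]
  refine Eq.trans ?_ (coe_algebraMap_fullC M _).symm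
  rw [← gRes_C A ⟨a, ha⟩ ((C_mem_gRing_iff A a).mpr ha)]
  congr 1
  apply Subtype.ext
  exact coe_algebraMap_FN (M * q) a

/-- **The reduction datum at `∞`.** -/
def R1 : RedData Kbar (FN (M * q)) (IsLocalRing.ResidueField ↥A)
    (Igusa.E (IsLocalRing.ResidueField ↥A) M) where
  A := A
  O := O1 A M q hq hqM hA
  resA := IsLocalRing.residue ↥A
  res := res1 A M q hq hqM hA
  resA_surjective := IsLocalRing.residue_surjective
  res_surjective := res1_surjective A M q hq hqM hA
  algebraMap_mem := algebraMap_mem_O1 A M q hq hqM hA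
  res_algebraMap := res1_algebraMap A M q hq hqM hA

/-- The Gauss valuation ring of the expansion at `0`. -/
def O2 : ValuationSubring (FN (M * q)) :=
  (O1 A M q hq hqM hA).comap ((W M q hq hqM : FN (M * q) ≃ₐ[Kbar] FN (M * q)) :
    FN (M * q) →+* FN (M * q))

theorem mem_O2_iff (x : FN (M * q)) :
    x ∈ O2 A M q hq hqM hA ↔ W M q hq hqM x ∈ O1 A M q hq hqM hA := Iff.rfl

/-- The residue map of `O2`. -/
def res2 : ↥(O2 A M q hq hqM hA) →+* Igusa.E (IsLocalRing.ResidueField ↥A) M :=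
  (res1 A M q hq hqM hA).comp
    ((((W M q hq hqM : FN (M * q) ≃ₐ[Kbar] FN (M * q)) : FN (M * q) →+* FN (M * q)).comp
      (O2 A M q hq hqM hA).subtype).codRestrict (O1 A M q hq hqM hA).toSubring (fun x => x.2))

theorem res2_apply (x : ↥(O2 A M q hq hqM hA)) :
    res2 A M q hq hqM hA x = res1 A M q hq hqM hA ⟨W M q hq hqM (x : FN (M * q)), x.2⟩ := rfl

/-- **The reduction datum at `0`.** -/
def R2 : RedData Kbar (FN (M * q)) (IsLocalRing.ResidueField ↥A)
    (Igusa.E (IsLocalRing.ResidueField ↥A) M) where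
  A := A
  O := O2 A M q hq hqM hA
  resA := IsLocalRing.residue ↥A
  res := res2 A M q hq hqM hA
  resA_surjective := IsLocalRing.residue_surjective
  res_surjective := by
    intro x
    obtain ⟨y, hy⟩ := res1_surjective A M q hq hqM hA x
    refine ⟨⟨W M q hq hqM (y : FN (M * q)), ?_⟩, ?_⟩
    · rw [mem_O2_iff, W_W]; exact y.2
    · rw [res2_apply, ← hy]
      congr 1
      exact Subtype.ext (W_W M q hq hqM _)
  algebraMap_mem := by
    intro a ha
    rw [mem_O2_iff, AlgEquiv.commutes]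
    exact algebraMap_mem_O1 A M q hq hqM hA a ha
  res_algebraMap := by
    intro a ha
    rw [res2_apply, ← res1_algebraMap A M q hq hqM hA a ha]
    congr 1
    exact Subtype.ext (AlgEquiv.commutes _ a)

/-! ### API -/

theorem mem_R1_O_iff (x : FN (M * q)) :
    x ∈ (R1 A M q hq hqM hA).O ↔ (x : LaurentSeries Kbar) ∈ gRing A := Iff.rfl

theorem mem_R2_O_iff (x : FN (M * q)) :
    x ∈ (R2 A M q hq hqM hA).O ↔ W M q hq hqM x ∈ (R1 A M q hq hqM hA).O := Iff.rfl

theorem coe_R1_red (x : FN (M * q)) (hx : (x : LaurentSeries Kbar) ∈ gRing A) :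
    (((R1 A M q hq hqM hA).red x : Igusa.E (IsLocalRing.ResidueField ↥A) M) :
      LaurentSeries (IsLocalRing.ResidueField ↥A)) = gRes A ⟨_, hx⟩ := by
  rw [(R1 A M q hq hqM hA).red_of_mem hx]
  rfl

theorem R2_red (x : FN (M * q)) :
    (R2 A M q hq hqM hA).red x = (R1 A M q hq hqM hA).red (W M q hq hqM x) := by
  by_cases hx : x ∈ (R2 A M q hq hqM hA).O
  · rw [(R2 A M q hq hqM hA).red_of_mem hx,
      (R1 A M q hq hqM hA).red_of_mem ((mem_R2_O_iff A M q hq hqM hA x).mp hx)]
    rfl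
  · rw [(R2 A M q hq hqM hA).red_of_not_mem hx, (R1 A M q hq hqM hA).red_of_not_mem
      (fun h => hx ((mem_R2_O_iff A M q hq hqM hA x).mpr h))]

theorem R1_red_W (x : FN (M * q)) :
    (R1 A M q hq hqM hA).red (W M q hq hqM x) = (R2 A M q hq hqM hA).red x :=
  (R2_red A M q hq hqM hA x).symm

theorem R2_red_W (x : FN (M * q)) :
    (R2 A M q hq hqM hA).red (W M q hq hqM x) = (R1 A M q hq hqM hA).red x := by
  rw [R2_red, W_W]

/-- an element with an honest `A`-integral expansion. -/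
theorem coe_R1_red_of_iA (x : FN (M * q)) (z : LaurentSeries ↥A)
    (hz : (x : LaurentSeries Kbar) = iA A z) :
    (((R1 A M q hq hqM hA).red x : Igusa.E (IsLocalRing.ResidueField ↥A) M) :
      LaurentSeries (IsLocalRing.ResidueField ↥A)) = pA A z := by
  have hx : (x : LaurentSeries Kbar) ∈ gRing A := by rw [hz]; exact iA_mem_gRing A z
  rw [coe_R1_red A M q hq hqM hA x hx]
  exact gRes_of_eq_iA A _ z hz

/-- **value group**: every nonzero function is a constant times an `R1`-unit. -/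
theorem R1_scale (x : FN (M * q)) (hx : x ≠ 0) :
    ∃ a : Kbar, a ≠ 0 ∧ (R1 A M q hq hqM hA).red (algebraMap Kbar (FN (M * q)) a * x) ≠ 0 := by
  obtain ⟨a, u, ha, hxu, hu, -⟩ := normalise1 A M q hq hqM hA x hx
  refine ⟨a⁻¹, inv_ne_zero ha, ?_⟩
  have hcoe : ((algebraMap Kbar (FN (M * q)) a⁻¹ * x : FN (M * q)) : LaurentSeries Kbar) =
      (u : LaurentSeries Kbar) := by
    have hCa : (HahnSeries.C a : LaurentSeries Kbar) ≠ 0 := by rw [Ne, map_eq_zero]; exact ha
    rw [IntermediateField.coe_mul, coe_algebraMap_FN, hxu, map_inv₀, ← mul_assoc,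
      inv_mul_cancel₀ hCa, one_mul]
  have hmem : ((algebraMap Kbar (FN (M * q)) a⁻¹ * x : FN (M * q)) : LaurentSeries Kbar) ∈ gRing A := by
    rw [hcoe]; exact u.2
  intro h0
  apply hu
  have h1 := coe_R1_red A M q hq hqM hA _ hmem
  rw [h0] at h1
  have h2 : (⟨_, hmem⟩ : ↥(gRing A)) = u := Subtype.ext hcoe
  rw [h2] at h1
  exact h1.symm

theorem R2_scale (x : FN (M * q)) (hx : x ≠ 0) :
    ∃ a : Kbar, a ≠ 0 ∧ (R2 A M q hq hqM hA).red (algebraMap Kbar (FN (M * q)) a * x) ≠ 0 := by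
  obtain ⟨a, ha, h⟩ := R1_scale A M q hq hqM hA (W M q hq hqM x)
    ((map_ne_zero (W M q hq hqM)).mpr hx)
  refine ⟨a, ha, ?_⟩
  rwa [R2_red, map_mul, AlgEquiv.commutes]

end Fermat.Agent.DR.Conc
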