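import Fermat.Agent.DR.Conc.Main
import Fermat.Agent.DR.Gal.Conc

/-!
# DR/Conc : exports in the format of `DR/Gal/Conc.lean` (`XX`, `Old`, `PairSurj`) and the set `Fix (Φ²)`
-/

set_option autoImplicit false
set_option linter.unusedSectionVars false

noncomputable section

namespace Fermat.Agent.DR.Conc

open ModularCurve AlgebraicCurve Fermat.Agent.S24 Fermat.Agent.GAL Fermat.Agent.GAL.Gauss
  Fermat.Agent.GAL.RED Fermat.Agent.DR.Gal Fermat.Agent.Lib.RR

section fix

variable (k : Type) [Field k] (M : ℕ) [NeZero M] (q : ℕ) [NeZero q] [Fact q.Prime] [CharP k q]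
  [PerfectRing k q]

/-- The fixed points of `Φ²`. -/
def fixSet : Set (Place k (Igusa.E k M)) := {P | Fr k M q • Fr k M q • P = P}

theorem mem_fixSet (P : Place k (Igusa.E k M)) :
    P ∈ fixSet k M q ↔ Fr k M q • Fr k M q • P = P := Iff.rfl

theorem inv_smul_mem_fixSet {P : Place k (Igusa.E k M)} (hP : P ∈ fixSet k M q) :
    (Fr k M q)⁻¹ • P ∈ fixSet k M q := by
  rw [mem_fixSet] at hP ⊢
  rw [smul_inv_smul]
  conv_rhs => rw [← hP]
  rw [inv_smul_smul]

theorem smul_mem_fixSet {P : Place k (Igusa.E k M)} (hP : P ∈ fixSet k M q) :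
    Fr k M q • P ∈ fixSet k M q := by
  rw [mem_fixSet] at hP ⊢
  rw [hP]

variable [IsAlgClosed k] [Lib.RR.IsFF k (Igusa.E k M)]

/-- `Fix (Φ²)` is finite: it is contained in the support of the divisor of `y(j̄) = Φ² j̄ - j̄`. -/
theorem finite_fixSet : (fixSet k M q).Finite := by
  refine Set.Finite.subset
    (divOf (K := k) (yOf (q ^ 2) (Igusa.jb k M))).support.finite_toSet (fun P hP => ?_)
  rw [Finset.mem_coe, Finsupp.mem_support_iff, divOf_apply]
  exact ord_yOf_jb_ne_zero k M q P hP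

theorem ord_sig_of_mem_fixSet {P : Place k (Igusa.E k M)} (hP : P ∈ fixSet k M q) :
    P.ord (sig k M q) = 0 := ord_sig_of_fix k M q P hP

end fix

variable (A : ValuationSubring Kbar) (M q : ℕ) [NeZero M] [NeZero q] (hq : q.Prime)
  (hqM : ¬ q ∣ M) (hA : A.LiesOverPrime q)
  [Fact q.Prime] [CharP (IsLocalRing.ResidueField ↥A) q] [PerfectRing (IsLocalRing.ResidueField ↥A) q]
  [IsAlgClosed (IsLocalRing.ResidueField ↥A)]
  [Lib.RR.IsFF (IsLocalRing.ResidueField ↥A) (Igusa.E (IsLocalRing.ResidueField ↥A) M)]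
  [Lib.RR.IsFF Kbar (FN (M * q))] [Lib.RR.IsFF Kbar (FN M)]

/-- **`Old`** for the coordinate `xC`. -/
theorem old_gal (hg : GoodRed A M)
    (S : Set (Place (IsLocalRing.ResidueField ↥A) (Igusa.E (IsLocalRing.ResidueField ↥A) M))) :
    Gal.Old (Gal.XX A M q hq hqM hA (xC M q) (sig (IsLocalRing.ResidueField ↥A) M q) S)
      (FrE (IsLocalRing.ResidueField ↥A) M q) q :=
  fun v hv => old_frob A M q hq hqM hA hg v hv

omit [Fact q.Prime] [CharP (IsLocalRing.ResidueField ↥A) q]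
  [PerfectRing (IsLocalRing.ResidueField ↥A) q] [IsAlgClosed (IsLocalRing.ResidueField ↥A)]
  [Lib.RR.IsFF (IsLocalRing.ResidueField ↥A) (Igusa.E (IsLocalRing.ResidueField ↥A) M)]
  [Lib.RR.IsFF Kbar (FN (M * q))] [Lib.RR.IsFF Kbar (FN M)] in
/-- **`PairSurj`**. -/
theorem pairSurj_gal (x : FN (M * q)) (xb : Igusa.E (IsLocalRing.ResidueField ↥A) M)
    (S : Set (Place (IsLocalRing.ResidueField ↥A) (Igusa.E (IsLocalRing.ResidueField ↥A) M))) :
    Gal.PairSurj (Gal.XX A M q hq hqM hA x xb S) :=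
  fun u u' => pairSurj A M q hq hqM hA u u'

omit [NeZero M] [NeZero q] in
theorem self_mem_regOff' {K F : Type*} [Field K] [Field F] [Algebra K F] (x : F) :
    x ∈ regOff K x := fun _ hP => hP

theorem gal_xC_mem_regOff (σ : Kbar ≃ₐ[ℚ] Kbar) :
    arithmeticGalois (modularFunctionFieldFull (M * q)) σ • xC M q ∈ regOff Kbar (xC M q) := by
  rw [gal_xC]
  exact self_mem_regOff' _

theorem W_xC_mem_regOff : W M q hq hqM (xC M q) ∈ regOff Kbar (xC M q) := by
  rw [W_xC]
  exact self_mem_regOff' _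

end Fermat.Agent.DR.Conc
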