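import Fermat.Agent.DR.Conc.Level

/-!
# DR/Conc, block Φ: the reductions of old functions, of `j`, `j_q`, `eps`; surjectivity of the pair.

`red₁ (α u) = ū`, `red₁ (β u) = Φ ū`, `red₂ (α u) = Φ ū`, `red₂ (β u) = ū`.
-/

set_option autoImplicit false
set_option linter.unusedSectionVars false

noncomputable section

namespace Fermat.Agent.DR.Conc

open ModularCurve AlgebraicCurve Fermat.Agent.S24 Fermat.Agent.GAL Fermat.Agent.GAL.Gauss
  Fermat.Agent.GAL.RED Fermat.Agent.DR.Gal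

variable (A : ValuationSubring Kbar) (M q : ℕ) [NeZero M] [NeZero q] (hq : q.Prime)
  (hqM : ¬ q ∣ M) (hA : A.LiesOverPrime q)

/-- `RM` with the canonical proof that `M` is invertible in the residue field. -/
abbrev RMq : RedData Kbar (FN M) (IsLocalRing.ResidueField ↥A) (Igusa.E (IsLocalRing.ResidueField ↥A) M) := RM A M (natCast_M_ne_zero A M q hq hqM hA)

theorem alpha_mem_R1_O_iff (u : FN M) :
    heckeAlphaBar Kbar M q u ∈ (R1 A M q hq hqM hA).O ↔ u ∈ (RMq A M q hq hqM hA).O := by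
  rw [mem_R1_O_iff, mem_RM_O_iff, coe_heckeAlphaBar]

/-- uses `qExpand_mem_gRing`, `mem_gRing_of_qExpand`. -/
theorem beta_mem_R1_O_iff (u : FN M) :
    heckeBetaBar Kbar M q u ∈ (R1 A M q hq hqM hA).O ↔ u ∈ (RMq A M q hq hqM hA).O := by
  rw [mem_R1_O_iff, mem_RM_O_iff, coe_heckeBetaBar]
  exact ⟨mem_gRing_of_qExpand A q, qExpand_mem_gRing A q⟩

theorem alpha_mem_R2_O_iff (u : FN M) :
    heckeAlphaBar Kbar M q u ∈ (R2 A M q hq hqM hA).O ↔ u ∈ (RMq A M q hq hqM hA).O := by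
  rw [mem_R2_O_iff, W_alpha, beta_mem_R1_O_iff]

theorem beta_mem_R2_O_iff (u : FN M) :
    heckeBetaBar Kbar M q u ∈ (R2 A M q hq hqM hA).O ↔ u ∈ (RMq A M q hq hqM hA).O := by
  rw [mem_R2_O_iff, W_beta, alpha_mem_R1_O_iff]

/-- (Φ1) -/
theorem R1_red_alpha (u : FN M) :
    (R1 A M q hq hqM hA).red (heckeAlphaBar Kbar M q u) = (RMq A M q hq hqM hA).red u := by
  by_cases hu : u ∈ (RMq A M q hq hqM hA).O
  · have hu' : (u : LaurentSeries Kbar) ∈ gRing A := (mem_RM_O_iff A M _ u).mp hu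
    have hα : ((heckeAlphaBar Kbar M q u : FN (M * q)) : LaurentSeries Kbar) ∈ gRing A := by
      rw [coe_heckeAlphaBar]; exact hu'
    have hcoe : ((heckeAlphaBar Kbar M q u : FN (M * q)) : LaurentSeries Kbar) =
        (u : LaurentSeries Kbar) := by rw [coe_heckeAlphaBar]
    have key : (⟨_, hα⟩ : ↥(gRing A)) = ⟨_, hu'⟩ := Subtype.ext hcoe
    apply Subtype.ext
    rw [coe_R1_red A M q hq hqM hA _ hα, coe_RM_red A M _ u hu', key]
  · rw [(RMq A M q hq hqM hA).red_of_not_mem hu, (R1 A M q hq hqM hA).red_of_not_mem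
      (fun h => hu ((alpha_mem_R1_O_iff A M q hq hqM hA u).mp h))]

/-- the expansion of the reduction of `β u`. -/
theorem Formulas_coe_R1_red_beta (u : FN M) (hu : u ∈ (RMq A M q hq hqM hA).O) :
    (((R1 A M q hq hqM hA).red (heckeBetaBar Kbar M q u) :
      Igusa.E (IsLocalRing.ResidueField ↥A) M) : LaurentSeries (IsLocalRing.ResidueField ↥A)) =
      qExpand (IsLocalRing.ResidueField ↥A) q
        (((RMq A M q hq hqM hA).red u : Igusa.E (IsLocalRing.ResidueField ↥A) M) :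
          LaurentSeries (IsLocalRing.ResidueField ↥A)) := by
  have hu' : (u : LaurentSeries Kbar) ∈ gRing A := (mem_RM_O_iff A M _ u).mp hu
  have hβ : ((heckeBetaBar Kbar M q u : FN (M * q)) : LaurentSeries Kbar) ∈ gRing A := by
    rw [coe_heckeBetaBar]; exact qExpand_mem_gRing A q hu'
  have hcoe : ((heckeBetaBar Kbar M q u : FN (M * q)) : LaurentSeries Kbar) =
      qExpand Kbar q (u : LaurentSeries Kbar) := by rw [coe_heckeBetaBar]
  have key : (⟨_, hβ⟩ : ↥(gRing A)) = ⟨_, qExpand_mem_gRing A q hu'⟩ := Subtype.ext hcoe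
  rw [coe_R1_red A M q hq hqM hA _ hβ, coe_RM_red A M _ u hu', ← gRes_qExpand A q hu', key]

/-- (Φ2) -/
theorem R1_red_beta [Fact q.Prime] [CharP (IsLocalRing.ResidueField ↥A) q] [PerfectRing (IsLocalRing.ResidueField ↥A) q] (u : FN M) :
    (R1 A M q hq hqM hA).red (heckeBetaBar Kbar M q u) =
      Phi (IsLocalRing.ResidueField ↥A) M q ((RMq A M q hq hqM hA).red u) := by
  by_cases hu : u ∈ (RMq A M q hq hqM hA).O
  · apply Subtype.ext
    rw [Formulas_coe_R1_red_beta A M q hq hqM hA u hu, coe_Phi]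
  · rw [(RMq A M q hq hqM hA).red_of_not_mem hu, (R1 A M q hq hqM hA).red_of_not_mem
      (fun h => hu ((beta_mem_R1_O_iff A M q hq hqM hA u).mp h)), map_zero]

theorem R2_red_alpha [Fact q.Prime] [CharP (IsLocalRing.ResidueField ↥A) q] [PerfectRing (IsLocalRing.ResidueField ↥A) q] (u : FN M) :
    (R2 A M q hq hqM hA).red (heckeAlphaBar Kbar M q u) =
      Phi (IsLocalRing.ResidueField ↥A) M q ((RMq A M q hq hqM hA).red u) := by
  rw [R2_red, W_alpha, R1_red_beta]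

theorem R2_red_beta (u : FN M) :
    (R2 A M q hq hqM hA).red (heckeBetaBar Kbar M q u) = (RMq A M q hq hqM hA).red u := by
  rw [R2_red, W_beta, R1_red_alpha]

/-- (Φ3) -/
theorem R1_red_jN : (R1 A M q hq hqM hA).red (jN M q) = Igusa.jb (IsLocalRing.ResidueField ↥A) M := by
  rw [jN_eq_alpha, R1_red_alpha, RM_red_jF]

theorem R2_red_jqN : (R2 A M q hq hqM hA).red (jqN M q) = Igusa.jb (IsLocalRing.ResidueField ↥A) M := by
  rw [R2_red, W_jqN, R1_red_jN]

theorem R1_red_jqN : (R1 A M q hq hqM hA).red (jqN M q) = Igusa.jb (IsLocalRing.ResidueField ↥A) M ^ q := by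
  have : Fact q.Prime := ⟨hq⟩
  have : CharP (IsLocalRing.ResidueField ↥A) q := Hecke.charP_residueField A hq hA
  have hj := RM_red_jF A M (natCast_M_ne_zero A M q hq hqM hA)
  by_cases hu : jF M ∈ (RMq A M q hq hqM hA).O
  · apply Subtype.ext
    rw [jqN, Formulas_coe_R1_red_beta A M q hq hqM hA _ hu, hj]
    exact qExpand_jqModC_char q (IsLocalRing.ResidueField ↥A)
  · rw [← hj, (RMq A M q hq hqM hA).red_of_not_mem hu, jqN, (R1 A M q hq hqM hA).red_of_not_mem
      (fun h => hu ((beta_mem_R1_O_iff A M q hq hqM hA _).mp h)), zero_pow hq.ne_zero]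

theorem R2_red_jN : (R2 A M q hq hqM hA).red (jN M q) = Igusa.jb (IsLocalRing.ResidueField ↥A) M ^ q := by
  rw [R2_red, W_jN, R1_red_jqN]

/-- (Φ4) -/
theorem eps_mem_R1_O : eps M q ∈ (R1 A M q hq hqM hA).O := eps_mem_gRing M q hq A hA

theorem R1_red_eps : (R1 A M q hq hqM hA).red (eps M q) = 1 := by
  apply Subtype.ext
  rw [coe_R1_red A M q hq hqM hA (eps M q) (eps_mem_gRing M q hq A hA), gRes_eps M q hq A hA]
  rfl

theorem eps_mem_R2_O : eps M q ∈ (R2 A M q hq hqM hA).O := by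
  rw [mem_R2_O_iff, W_eps M q hq hqM A hA]
  exact sub_mem (one_mem _) (eps_mem_R1_O A M q hq hqM hA)

theorem R2_red_eps : (R2 A M q hq hqM hA).red (eps M q) = 0 := by
  rw [R2_red, W_eps M q hq hqM A hA, (R1 A M q hq hqM hA).red_sub (one_mem _)
    (eps_mem_R1_O A M q hq hqM hA), RedData.red_one, R1_red_eps, sub_self]

/-- (Φ5) `O₁ ∩ O₂ → Fb × Fb` is onto: `y = eps * α ũ + (1 - eps) * β ũ'`. -/
theorem pairSurj (u u' : Igusa.E (IsLocalRing.ResidueField ↥A) M) :
    ∃ y : FN (M * q), y ∈ (R1 A M q hq hqM hA).O ∧ y ∈ (R2 A M q hq hqM hA).O ∧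
      (R1 A M q hq hqM hA).red y = u ∧ (R2 A M q hq hqM hA).red y = u' := by
  obtain ⟨v, hv, rfl⟩ := (RMq A M q hq hqM hA).exists_lift u
  obtain ⟨v', hv', rfl⟩ := (RMq A M q hq hqM hA).exists_lift u'
  have e1 := eps_mem_R1_O A M q hq hqM hA
  have e2 := eps_mem_R2_O A M q hq hqM hA
  have f1 : 1 - eps M q ∈ (R1 A M q hq hqM hA).O := sub_mem (one_mem _) e1
  have f2 : 1 - eps M q ∈ (R2 A M q hq hqM hA).O := sub_mem (one_mem _) e2
  have a1 := (alpha_mem_R1_O_iff A M q hq hqM hA v).mpr hv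
  have a2 := (alpha_mem_R2_O_iff A M q hq hqM hA v).mpr hv
  have b1 := (beta_mem_R1_O_iff A M q hq hqM hA v').mpr hv'
  have b2 := (beta_mem_R2_O_iff A M q hq hqM hA v').mpr hv'
  refine ⟨eps M q * heckeAlphaBar Kbar M q v + (1 - eps M q) * heckeBetaBar Kbar M q v',
    add_mem (mul_mem e1 a1) (mul_mem f1 b1), add_mem (mul_mem e2 a2) (mul_mem f2 b2), ?_, ?_⟩
  · rw [RedData.red_add _ (mul_mem e1 a1) (mul_mem f1 b1), RedData.red_mul _ e1 a1,
      RedData.red_mul _ f1 b1, RedData.red_sub _ (one_mem _) e1, RedData.red_one, R1_red_eps,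
      R1_red_alpha, sub_self, zero_mul, one_mul, add_zero]
  · rw [RedData.red_add _ (mul_mem e2 a2) (mul_mem f2 b2), RedData.red_mul _ e2 a2,
      RedData.red_mul _ f2 b2, RedData.red_sub _ (one_mem _) e2, RedData.red_one, R2_red_eps,
      R2_red_beta, sub_zero, zero_mul, one_mul, zero_add]

end Fermat.Agent.DR.Conc
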