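import Fermat.Agent.GAL.Igusa.Level
import Fermat.Agent.GAL.Hecke.SeriesFrob
import Fermat.Prelude.Def_AlgebraicCurve_BaseChangeGalois

/-!
# DR/Conc, block F: Frobenius on the function field `E k M = k(j(t^d) : d ∣ M) ⊆ k((t))`, `char k = q`.

* `FrE` : the coefficientwise Frobenius (a `frobenius`-semilinear automorphism of `E k M`);
* `Fr`  : the same as an element of `SemilinearAut k (E k M)` (so it acts on places);
* `Phi` : the `k`-linear Frobenius `x(t) ↦ x(t^q)`;  `Phi (FrE x) = x ^ q`.
-/

set_option autoImplicit false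
set_option linter.unusedSectionVars false

noncomputable section

namespace Fermat.Agent.DR.Conc

open ModularCurve AlgebraicCurve Fermat.Agent.GAL Fermat.Agent.GAL.Igusa

variable (k : Type) [Field k] (M : ℕ)

/-- (F1) the field `E k M` is stable under coefficientwise ring endomorphisms of `k`
(`IntermediateField.adjoin_induction`; generators are fixed: `coeffMap_jqModC`, `coeffMap_qExpand`;
constants go to constants). -/
theorem coeffMap_mem_fullC (σ : k →+* k) {x : LaurentSeries k}
    (hx : x ∈ modularFunctionFieldFullC k M) : coeffMap σ x ∈ modularFunctionFieldFullC k M := by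
  unfold modularFunctionFieldFullC at hx
  induction hx using IntermediateField.adjoin_induction with
  | mem y hy =>
    obtain ⟨d, hd0, hd, rfl⟩ := hy
    rw [coeffMap_qExpand, coeffMap_jqModC]
    exact jqModCd_mem_full k M hd
  | algebraMap a =>
    rw [coeffMap_algebraMap]
    exact (modularFunctionFieldFullC k M).algebraMap_mem _
  | add x y _ _ hx hy => rw [map_add]; exact add_mem hx hy
  | inv x _ hx => rw [map_inv₀]; exact inv_mem hx
  | mul x y _ _ hx hy => rw [map_mul]; exact mul_mem hx hy

variable (q : ℕ) [NeZero q] [Fact q.Prime] [CharP k q] [PerfectRing k q]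

/-- (F2) in characteristic `q` the field `E k M` is stable under `t ↦ t^q`:
`x(t^q) = (σ⁻¹ x)^q`, `σ` = coefficientwise Frobenius (`Hecke.pow_char_eq_qExpand`). -/
theorem qExpand_mem_fullC {x : LaurentSeries k} (hx : x ∈ modularFunctionFieldFullC k M) :
    qExpand k q x ∈ modularFunctionFieldFullC k M := by
  have h := Hecke.pow_char_eq_qExpand k q (coeffMap ((frobeniusEquiv k q).symm : k →+* k) x)
  have h2 : coeffMap (frobenius k q) (coeffMap ((frobeniusEquiv k q).symm : k →+* k) x) = x := by
    ext n
    simp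
  rw [h2] at h
  rw [← h]
  exact pow_mem (coeffMap_mem_fullC k M _ hx) q

/-- The coefficientwise Frobenius of `E k M`. -/
def FrE : E k M ≃+* E k M where
  toFun x := ⟨coeffMap (frobenius k q) (x : LaurentSeries k), coeffMap_mem_fullC k M _ x.2⟩
  invFun x := ⟨coeffMap ((frobeniusEquiv k q).symm : k →+* k) (x : LaurentSeries k),
    coeffMap_mem_fullC k M _ x.2⟩
  left_inv x := by
    apply Subtype.ext
    ext n
    simp
  right_inv x := by
    apply Subtype.ext
    ext n
    simp
  map_mul' x y := Subtype.ext (map_mul (coeffMap (frobenius k q)) _ _)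
  map_add' x y := Subtype.ext (map_add (coeffMap (frobenius k q)) _ _)

theorem coe_FrE (x : E k M) :
    ((FrE k M q x : E k M) : LaurentSeries k) = coeffMap (frobenius k q) (x : LaurentSeries k) := rfl

theorem coe_FrE_symm (x : E k M) :
    (((FrE k M q).symm x : E k M) : LaurentSeries k) =
      coeffMap ((frobeniusEquiv k q).symm : k →+* k) (x : LaurentSeries k) := rfl

theorem FrE_algebraMap (a : k) :
    FrE k M q (algebraMap k (E k M) a) = algebraMap k (E k M) (frobeniusEquiv k q a) := by
  apply Subtype.ext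
  rw [coe_FrE]
  exact coeffMap_algebraMap (frobenius k q) a

/-- The coefficientwise Frobenius as a semilinear automorphism. -/
def Fr : SemilinearAut k (E k M) :=
  ⟨(FrE k M q, frobeniusEquiv k q), fun a => FrE_algebraMap k M q a⟩

theorem Fr_smul (x : E k M) : Fr k M q • x = FrE k M q x := rfl

/-- The `k`-linear Frobenius `x(t) ↦ x(t^q)`. -/
def Phi : E k M →ₐ[k] E k M where
  toFun x := ⟨qExpand k q (x : LaurentSeries k), qExpand_mem_fullC k M q x.2⟩
  map_one' := Subtype.ext (map_one (qExpand k q))
  map_mul' _ _ := Subtype.ext (map_mul (qExpand k q) _ _)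
  map_zero' := Subtype.ext (map_zero (qExpand k q))
  map_add' _ _ := Subtype.ext (map_add (qExpand k q) _ _)
  commutes' a := Subtype.ext ((qExpandAlgHomC k q).commutes a)

theorem coe_Phi (x : E k M) :
    ((Phi k M q x : E k M) : LaurentSeries k) = qExpand k q (x : LaurentSeries k) := rfl

/-- (F3) -/
theorem Phi_FrE (x : E k M) : Phi k M q (FrE k M q x) = x ^ q := by
  apply Subtype.ext
  rw [coe_Phi, coe_FrE, ← Hecke.pow_char_eq_qExpand]
  rfl

theorem Phi_eq_pow (x : E k M) : Phi k M q x = ((FrE k M q).symm x) ^ q := by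
  rw [← Phi_FrE, RingEquiv.apply_symm_apply]

theorem FrE_Phi (x : E k M) : FrE k M q (Phi k M q x) = Phi k M q (FrE k M q x) := by
  apply Subtype.ext
  rw [coe_FrE, coe_Phi, coe_Phi, coe_FrE, coeffMap_qExpand]

/-- (F4) `j` has coefficients in the prime field. -/
theorem FrE_jb : FrE k M q (jb k M) = jb k M :=
  Subtype.ext (coeffMap_jqModC (frobenius k q))

theorem Phi_jb : Phi k M q (jb k M) = jb k M ^ q := by
  rw [← Phi_FrE, FrE_jb]

/-- (F5) `ord_P (Phi u) = q * ord_{Fr P} u`. -/
theorem ord_Phi (P : Place k (E k M)) (u : E k M) :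
    P.ord (Phi k M q u) = q * (Fr k M q • P).ord u := by
  have h : (Fr k M q • P).ord u = P.ord ((FrE k M q).symm u) := by
    have h1 := SemilinearAut.ord_smul (Fr k M q) P ((FrE k M q).symm u)
    rwa [Fr_smul, RingEquiv.apply_symm_apply] at h1
  rw [h, Phi_eq_pow, ← zpow_natCast, Place.ord_zpow]

/-- (F6) `Phi` preserves integrality over `k[j]`. -/
theorem isIntegral_Phi {u : E k M} (hu : IsIntegral (Algebra.adjoin k {jb k M}) u) :
    IsIntegral (Algebra.adjoin k {jb k M}) (Phi k M q u) := by
  have hmem : ∀ x : Algebra.adjoin k {jb k M},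
      ((Phi k M q).comp (Algebra.adjoin k {jb k M}).val) x ∈ Algebra.adjoin k {jb k M} := by
    intro x
    have h1 : (Algebra.adjoin k {jb k M}).map (Phi k M q) ≤ Algebra.adjoin k {jb k M} := by
      rw [AlgHom.map_adjoin, Set.image_singleton, Phi_jb]
      exact Algebra.adjoin_le
        (Set.singleton_subset_iff.mpr (pow_mem (Algebra.self_mem_adjoin_singleton k _) q))
    exact h1 ⟨x, x.2, rfl⟩
  exact IsIntegral.map_of_comp_eq
    (((Phi k M q).comp (Algebra.adjoin k {jb k M}).val).codRestrict _ hmem : _ →+* _)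
    (Phi k M q : E k M →+* E k M) (RingHom.ext fun x => rfl) hu

end Fermat.Agent.DR.Conc
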