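import Fermat.Agent.DR.Conc.Formulas
import Fermat.Agent.GAL.Hecke.GalA

/-!
# DR/Conc, block G: the decomposition group of `A` acts compatibly on `R1`, `R2`

`σ` in the decomposition group of `A` acts on `FN (M q)` coefficientwise (`arithmeticGalois`), preserves
`O₁`, `O₂`, and induces on the residue field `E k M` the coefficientwise action of `σ̄`.
-/

set_option autoImplicit false
set_option linter.unusedSectionVars false

noncomputable section

namespace Fermat.Agent.DR.Conc

open ModularCurve AlgebraicCurve Fermat.Agent.S24 Fermat.Agent.GAL Fermat.Agent.GAL.Gauss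
  Fermat.Agent.GAL.RED Fermat.Agent.DR.Gal

/-- The coefficientwise action of an automorphism of `k` on `E k M`. -/
def galE (k : Type) [Field k] (M : ℕ) (τ : k ≃+* k) : Igusa.E k M ≃+* Igusa.E k M where
  toFun x := ⟨coeffMap (τ : k →+* k) (x : LaurentSeries k), coeffMap_mem_fullC k M _ x.2⟩
  invFun x := ⟨coeffMap (τ.symm : k →+* k) (x : LaurentSeries k), coeffMap_mem_fullC k M _ x.2⟩
  left_inv x := by
    apply Subtype.ext
    ext n
    simp
  right_inv x := by
    apply Subtype.ext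
    ext n
    simp
  map_mul' x y := Subtype.ext (map_mul (coeffMap (τ : k →+* k)) _ _)
  map_add' x y := Subtype.ext (map_add (coeffMap (τ : k →+* k)) _ _)

theorem coe_galE (k : Type) [Field k] (M : ℕ) (τ : k ≃+* k) (x : Igusa.E k M) :
    ((galE k M τ x : Igusa.E k M) : LaurentSeries k) =
      coeffMap (τ : k →+* k) (x : LaurentSeries k) := rfl

variable (A : ValuationSubring Kbar) (M q : ℕ) [NeZero M] [NeZero q] (hq : q.Prime)
  (hqM : ¬ q ∣ M) (hA : A.LiesOverPrime q)

/-- The automorphism of the residue field induced by an element of the decomposition group. -/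
def barAut (σ : A.decompositionSubgroup ℚ) :
    IsLocalRing.ResidueField ↥A ≃+* IsLocalRing.ResidueField ↥A :=
  MulSemiringAction.toRingAut (A.decompositionSubgroup ℚ) (IsLocalRing.ResidueField ↥A) σ

theorem Galois_mem (σ : A.decompositionSubgroup ℚ) (a : Kbar) (ha : a ∈ A) :
    (((σ : Kbar ≃ₐ[ℚ] Kbar) : Kbar →+* Kbar)) a ∈ A :=
  (σ • (⟨a, ha⟩ : ↥A) : ↥A).2

theorem Galois_residue (σ : A.decompositionSubgroup ℚ) (a : Kbar) (ha : a ∈ A) :
    IsLocalRing.residue ↥A ⟨(((σ : Kbar ≃ₐ[ℚ] Kbar) : Kbar →+* Kbar)) a, Galois_mem A σ a ha⟩ =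
      ((barAut A σ : IsLocalRing.ResidueField ↥A ≃+* IsLocalRing.ResidueField ↥A) :
        IsLocalRing.ResidueField ↥A →+* IsLocalRing.ResidueField ↥A)
        (IsLocalRing.residue ↥A ⟨a, ha⟩) := by
  show IsLocalRing.residue ↥A (σ • (⟨a, ha⟩ : ↥A)) = σ • IsLocalRing.residue ↥A ⟨a, ha⟩
  rw [IsLocalRing.ResidueField.residue_smul]

/-- (G1) (`coeffMap_mem_gRing`, `gRes_coeffMap` of `Series.lean`;
`IsLocalRing.ResidueField.residue_smul` as in `Hecke.red_galA_of_inertia`). -/
theorem compat_R1 (σ : A.decompositionSubgroup ℚ) :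
    Compat (R1 A M q hq hqM hA)
      (arithmeticGalois (L := Kbar) (modularFunctionFieldFull (M * q)) (σ : Kbar ≃ₐ[ℚ] Kbar))
      (galE _ M (barAut A σ)) := by
  have hmem : ∀ y ∈ (R1 A M q hq hqM hA).O,
      arithmeticGalois (L := Kbar) (modularFunctionFieldFull (M * q)) (σ : Kbar ≃ₐ[ℚ] Kbar) • y ∈
        (R1 A M q hq hqM hA).O := by
    intro y hy
    rw [mem_R1_O_iff] at hy ⊢
    exact coeffMap_mem_gRing A _ (Galois_mem A σ) _ (Galois_residue A σ) hy
  refine ⟨hmem, ?_⟩
  intro y hy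
  apply Subtype.ext
  rw [coe_galE, coe_R1_red A M q hq hqM hA _ ((mem_R1_O_iff A M q hq hqM hA _).mp (hmem y hy)),
    coe_R1_red A M q hq hqM hA _ ((mem_R1_O_iff A M q hq hqM hA _).mp hy)]
  exact gRes_coeffMap A _ (Galois_mem A σ) _ (Galois_residue A σ)
    ((mem_R1_O_iff A M q hq hqM hA _).mp hy)

/-- (G2) (`W_galois`) -/
theorem compat_R2 (σ : A.decompositionSubgroup ℚ) :
    Compat (R2 A M q hq hqM hA)
      (arithmeticGalois (L := Kbar) (modularFunctionFieldFull (M * q)) (σ : Kbar ≃ₐ[ℚ] Kbar))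
      (galE _ M (barAut A σ)) := by
  have h1 := compat_R1 A M q hq hqM hA σ
  have hW : ∀ y : FN (M * q), W M q hq hqM
      (arithmeticGalois (L := Kbar) (modularFunctionFieldFull (M * q)) (σ : Kbar ≃ₐ[ℚ] Kbar) • y) =
      arithmeticGalois (L := Kbar) (modularFunctionFieldFull (M * q)) (σ : Kbar ≃ₐ[ℚ] Kbar) •
        (W M q hq hqM y) := fun y => W_galois M q hq hqM (σ : Kbar ≃ₐ[ℚ] Kbar) y
  constructor
  · intro y hy
    rw [mem_R2_O_iff] at hy ⊢
    rw [hW]
    exact h1.mem _ hy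
  · intro y hy
    rw [mem_R2_O_iff] at hy
    rw [R2_red, R2_red, hW]
    exact h1.red _ hy

/-- (G3) -/
theorem galE_barAut_of_inertia (σ : A.decompositionSubgroup ℚ) (hσ : σ ∈ A.inertiaSubgroup ℚ) :
    galE _ M (barAut A σ) = RingEquiv.refl _ := by
  have h : barAut A σ = 1 := hσ
  apply RingEquiv.ext
  intro x
  apply Subtype.ext
  rw [coe_galE, h]
  ext n
  rfl

/-- (G4) -/
theorem galE_barAut_of_frobenius [Fact q.Prime] [CharP (IsLocalRing.ResidueField ↥A) q]
    [PerfectRing (IsLocalRing.ResidueField ↥A) q] (σ : Kbar ≃ₐ[ℚ] Kbar)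
    (hσ : A.IsFrobeniusAt σ q) :
    galE _ M (barAut A ⟨σ, hσ.mem_decompositionSubgroup⟩) =
      FrE (IsLocalRing.ResidueField ↥A) M q := by
  apply RingEquiv.ext
  intro x
  apply Subtype.ext
  rw [coe_galE, coe_FrE]
  ext n
  exact hσ.smul_residue_eq _

end Fermat.Agent.DR.Conc
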