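import Fermat.Agent.DR.Conc.Coord
import Fermat.Agent.S28.CPar

/-!
# DR/Conc, block J: the function `j_q / j^q` is regular at the cusps of `X₀(M q)` and separates the
two components there: pair of reductions `(1, j̄^(1 - q²))`.
-/

set_option autoImplicit false
set_option linter.unusedSectionVars false

noncomputable section

namespace Fermat.Agent.DR.Conc

open ModularCurve AlgebraicCurve Polynomial Fermat.Agent.S24 Fermat.Agent.GAL Fermat.Agent.GAL.Gauss
  Fermat.Agent.GAL.RED Fermat.Agent.DR.Gal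

section Abs
variable {R : Type*} [CommRing R] (v : AddValuation R (WithTop ℤ))

/-- coefficient bound, one more linear factor. -/
theorem JqBound_step (m : ℤ) (n : ℕ) (P : R[X]) (a : R)
    (hP : ∀ i : ℕ, ((-(((n : ℤ) - i) * m) : ℤ) : WithTop ℤ) ≤ v (P.coeff i))
    (ha : ((-m : ℤ) : WithTop ℤ) ≤ v a) (i : ℕ) :
    ((-((((n + 1 : ℕ) : ℤ) - i) * m) : ℤ) : WithTop ℤ) ≤ v (((X - C a) * P).coeff i) := by
  have hmul : ∀ j : ℕ, ((-((((n + 1 : ℕ) : ℤ) - j) * m) : ℤ) : WithTop ℤ) ≤ v (a * P.coeff j) := by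
    intro j
    rw [v.map_mul]
    have h1 := add_le_add ha (hP j)
    rw [← WithTop.coe_add] at h1
    refine le_trans (le_of_eq ?_) h1
    congr 1
    push_cast
    ring
  have hsub : (X - C a) * P = X * P - C a * P := sub_mul _ _ _
  rw [hsub]
  cases i with
  | zero =>
    rw [coeff_sub, coeff_X_mul_zero, coeff_C_mul, zero_sub, v.map_neg]
    exact hmul 0
  | succ i =>
    rw [coeff_sub, coeff_X_mul, coeff_C_mul]
    refine v.map_le_sub ?_ (hmul (i + 1))
    refine le_trans (le_of_eq ?_) (hP i)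
    congr 1
    push_cast
    ring

theorem JqBound_prod (m : ℤ) {ι : Type*} (s : Finset ι) (r : ι → R)
    (hr : ∀ k ∈ s, ((-m : ℤ) : WithTop ℤ) ≤ v (r k)) (i : ℕ) :
    ((-(((s.card : ℤ) - i) * m) : ℤ) : WithTop ℤ) ≤ v ((∏ k ∈ s, (X - C (r k))).coeff i) := by
  classical
  induction s using Finset.induction_on generalizing i with
  | empty =>
    rw [Finset.prod_empty, coeff_one]
    split_ifs with h
    · subst h
      simp
    · rw [v.map_zero]
      exact le_top
  | insert a s ha ih =>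
    rw [Finset.prod_insert ha, Finset.card_insert_of_notMem ha]
    exact JqBound_step v m s.card _ (r a)
      (fun j => ih (fun k hk => hr k (Finset.mem_insert_of_mem hk)) j)
      (hr a (Finset.mem_insert_self a s)) i

theorem JqBound_val_eval₂ (f : ℤ →+* R) (hf : ∀ n : ℤ, n ≠ 0 → v (f n) = 0) (x : R) (e : ℤ)
    (he : 0 < e) (hx : v x = ((-e : ℤ) : WithTop ℤ)) (c : ℤ[X]) (hc : c ≠ 0) :
    v (c.eval₂ f x) = ((-(e * c.natDegree) : ℤ) : WithTop ℤ) := by
  have hpow : ∀ k : ℕ, v (x ^ k) = ((-(e * k) : ℤ) : WithTop ℤ) := by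
    intro k
    rw [v.map_pow, hx, ← WithTop.coe_nsmul]
    congr 1
    rw [nsmul_eq_mul]
    ring
  have hlead : v (f (c.coeff c.natDegree) * x ^ c.natDegree) =
      ((-(e * c.natDegree) : ℤ) : WithTop ℤ) := by
    rw [v.map_mul, hf _ (by simpa using hc), zero_add, hpow]
  rw [eval₂_eq_sum_range, Finset.sum_range_succ]
  rw [v.map_add_eq_of_lt_right, hlead]
  rw [hlead]
  refine v.map_lt_sum WithTop.coe_ne_top fun k hk => ?_
  rw [Finset.mem_range] at hk
  by_cases h0 : c.coeff k = 0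
  · rw [h0, map_zero, zero_mul, v.map_zero]
    exact WithTop.coe_lt_top _
  · rw [v.map_mul, hf _ h0, zero_add, hpow, WithTop.coe_lt_coe]
    have : (k : ℤ) < c.natDegree := by exact_mod_cast hk
    nlinarith

end Abs

section Conc

variable (K : Type) [Field K] [CharZero K]

theorem JqBound_val_qExpand (q : ℕ) [NeZero q] (x : LaurentSeries K) (a : ℤ)
    (hx : HahnSeries.addVal ℤ K x = ((a : ℤ) : WithTop ℤ)) :
    HahnSeries.addVal ℤ K (qExpand K q x) = (((q : ℤ) * a : ℤ) : WithTop ℤ) := by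
  rw [HahnSeries.addVal_apply] at hx ⊢
  have h : (qExpand K q x).orderTop = WithTop.map _ x.orderTop := HahnSeries.orderTop_embDomain
  rw [h, hx]
  rfl

theorem JqBound_val_jqModC : HahnSeries.addVal ℤ K (jqModC K) = ((-1 : ℤ) : WithTop ℤ) := by
  rw [HahnSeries.addVal_apply]
  exact S28.orderTop_jqModC K

theorem JqBound_val_twist (c : Kˣ) (x : LaurentSeries K) (a : ℤ)
    (hx : ((a : ℤ) : WithTop ℤ) ≤ HahnSeries.addVal ℤ K x) :
    ((a : ℤ) : WithTop ℤ) ≤ HahnSeries.addVal ℤ K (S28.twist c x) := by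
  rw [HahnSeries.addVal_apply] at hx ⊢
  rw [HahnSeries.le_orderTop_iff_forall] at hx ⊢
  intro j hj
  rw [S28.twist_coeff, hx j hj, mul_zero]

theorem JqBound_val_intCast (n : ℤ) (hn : n ≠ 0) :
    HahnSeries.addVal ℤ K (Int.castRingHom (LaurentSeries K) n) = 0 := by
  have h : Int.castRingHom (LaurentSeries K) n = HahnSeries.single (0 : ℤ) (n : K) := by
    have := map_intCast (HahnSeries.C : K →+* LaurentSeries K) n
    rw [eq_intCast, ← this]
    rfl
  rw [h, HahnSeries.addVal_apply, HahnSeries.orderTop_single (by exact_mod_cast hn)]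
  rfl

theorem JqBound_natDegree_coeff_le (q : ℕ) [NeZero q] (Φ : ℤ[X][X])
    (ζ : Kˣ)
    (h : Φ.map (S28.evBase q K) =
      (X - C (S28.rootInf q K)) * ∏ b ∈ Finset.range q, (X - C (S28.rootFin ζ b))) (i : ℕ) :
    (Φ.coeff i).natDegree ≤ q * (q + 1 - i) := by
  set v := HahnSeries.addVal ℤ K with hv
  have hq0 : 0 < q := Nat.pos_of_ne_zero (NeZero.ne q)
  have hq0' : (0 : ℤ) < q := by exact_mod_cast hq0
  have hbase : v (S28.jBase q K) = ((-(q : ℤ) : ℤ) : WithTop ℤ) := by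
    have := JqBound_val_qExpand K q _ _ (JqBound_val_jqModC K)
    rw [mul_neg_one] at this
    exact this
  have hinf : v (S28.rootInf q K) = ((-((q : ℤ) * q) : ℤ) : WithTop ℤ) := by
    have := JqBound_val_qExpand K q _ _ hbase
    rw [mul_neg] at this
    exact this
  have hfin : ∀ b ∈ Finset.range q, ((-((q : ℤ) * q) : ℤ) : WithTop ℤ) ≤ v (S28.rootFin ζ b) := by
    intro b _
    apply JqBound_val_twist
    rw [JqBound_val_jqModC, WithTop.coe_le_coe]
    nlinarith
  have hbd := JqBound_step v ((q : ℤ) * q) (Finset.range q).card _ (S28.rootInf q K)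
    (JqBound_prod v ((q : ℤ) * q) (Finset.range q) (fun b => S28.rootFin ζ b) hfin) hinf.ge i
  rw [← h, coeff_map, Finset.card_range] at hbd
  by_cases hc : Φ.coeff i = 0
  · rw [hc, natDegree_zero]
    exact Nat.zero_le _
  have hval : v (S28.evBase q K (Φ.coeff i)) =
      ((-((q : ℤ) * (Φ.coeff i).natDegree) : ℤ) : WithTop ℤ) :=
    JqBound_val_eval₂ v (Int.castRingHom _) (JqBound_val_intCast K) _ q hq0' hbase _ hc
  rw [hval, WithTop.coe_le_coe] at hbd
  push_cast at hbd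
  have h1 : ((Φ.coeff i).natDegree : ℤ) ≤ ((q : ℤ) + 1 - i) * q := by
    by_contra hlt
    rw [not_le] at hlt
    nlinarith
  by_cases hi : i ≤ q + 1
  · zify [hi]
    linarith
  · exfalso
    rw [not_le] at hi
    have h2 : ((q : ℤ) + 1 - i) < 0 := by
      have : ((q + 1 : ℕ) : ℤ) < i := by exact_mod_cast hi
      push_cast at this
      linarith
    have h3 : (0 : ℤ) ≤ (Φ.coeff i).natDegree := Int.natCast_nonneg _
    nlinarith

end Conc

/-- (J1) **degree bound for the modular polynomial.**  Let `Φ : ℤ[X][X]` be monic with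
`Φ.map (evBase q Kbar) = (X - C (rootInf q Kbar)) * ∏ b ∈ range q, (X - C (rootFin ζ b))`
(`S28.StatementB`).  Then `natDegree (Φ.coeff i) ≤ q * (q + 1 - i)`.
PROOF. all `q + 1` roots have order `≥ -q²` in `Kbar((y))` (`rootInf = j(y^(q²))`, `rootFin = j(ζ^b y)`),
so the coefficient of `X^i` of the product has order `≥ -(q + 1 - i) q²`
(e.g. `Polynomial.scaleRoots` by `y^(q²)`: the scaled polynomial is a product of `X - C (power series)`);
on the other hand `evBase q Kbar c` has order `- q * natDegree c` for `c ≠ 0` in `ℤ[X]`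
(`jBase = j(y^q)` has order `-q`, characteristic zero). -/
theorem natDegree_coeff_le (q : ℕ) [NeZero q] (hq : q.Prime) (Φ : ℤ[X][X]) (hΦ : Φ.Monic)
    (ζ : Kbarˣ)
    (h : Φ.map (S28.evBase q Kbar) =
      (X - C (S28.rootInf q Kbar)) * ∏ b ∈ Finset.range q, (X - C (S28.rootFin ζ b))) (i : ℕ) :
    (Φ.coeff i).natDegree ≤ q * (q + 1 - i) :=
  JqBound_natDegree_coeff_le Kbar q Φ ζ h i

theorem JqBound_mem_adjoin {F : Type*} [Field F] [Algebra Kbar F] (j : F) (hj : j ≠ 0) (c : ℤ[X])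
    (N : ℕ) (hc : c.natDegree ≤ N) :
    c.eval₂ (Int.castRingHom F) j * (j⁻¹) ^ N ∈ Algebra.adjoin Kbar {j⁻¹} := by
  rw [eval₂_eq_sum_range, Finset.sum_mul]
  refine Subalgebra.sum_mem _ fun k hk => ?_
  have hk' : k ≤ N := (Nat.lt_succ_iff.1 (Finset.mem_range.1 hk)).trans hc
  have h1 : j ^ k * (j⁻¹) ^ N = (j⁻¹) ^ (N - k) := by
    obtain ⟨d, rfl⟩ := Nat.exists_eq_add_of_le hk'
    rw [Nat.add_sub_cancel_left, pow_add, ← mul_assoc, ← mul_pow, mul_inv_cancel₀ hj, one_pow,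
      one_mul]
  rw [mul_assoc, h1]
  have h2 : j⁻¹ ∈ Algebra.adjoin Kbar {j⁻¹} := Algebra.subset_adjoin (Set.mem_singleton _)
  have h3 : (Int.castRingHom F) (c.coeff k) ∈ Algebra.adjoin Kbar {j⁻¹} := by
    rw [eq_intCast]
    exact intCast_mem _ _
  exact Subalgebra.mul_mem _ h3 (Subalgebra.pow_mem _ h2 _)

theorem JqBound_exists_zeta (q : ℕ) [NeZero q] : ∃ ζ : Kbarˣ, IsPrimitiveRoot ζ q := by
  obtain ⟨ζ, hζ⟩ := HasEnoughRootsOfUnity.exists_primitiveRoot Kbar q
  exact ⟨(hζ.isUnit (NeZero.ne q)).unit, IsPrimitiveRoot.coe_units_iff.1 (by simpa using hζ)⟩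

/-- `Φ(j_q, j) = 0` for Laurent series. -/
theorem JqBound_series_root (q : ℕ) [NeZero q] (Φ : ℤ[X][X]) (ζ : Kbarˣ)
    (h : Φ.map (S28.evBase q Kbar) =
      (X - C (S28.rootInf q Kbar)) * ∏ b ∈ Finset.range q, (X - C (S28.rootFin ζ b))) :
    (Φ.map (S28.evJ Kbar)).eval (qExpand Kbar q (jqModC Kbar)) = 0 := by
  have key : (Φ.map (S28.evBase q Kbar)).eval (S28.rootInf q Kbar) = 0 := by
    rw [h, eval_mul, eval_sub, eval_X, eval_C, sub_self, zero_mul]
  have e1 : S28.evBase q Kbar = (qExpand Kbar q).comp (S28.evJ Kbar) := by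
    apply Polynomial.ringHom_ext
    · intro a
      simp [S28.evBase, S28.evJ]
    · simp [S28.evBase, S28.evJ, S28.jBase]
  have hinj : Function.Injective (qExpand Kbar q) := (qExpand Kbar q).injective
  apply hinj
  rw [map_zero, ← key, eval_map, eval_map, hom_eval₂, e1]
  rfl

theorem JqBound_natDegree (q : ℕ) [NeZero q] (Φ : ℤ[X][X]) (hΦ : Φ.Monic) (ζ : Kbarˣ)
    (h : Φ.map (S28.evBase q Kbar) =
      (X - C (S28.rootInf q Kbar)) * ∏ b ∈ Finset.range q, (X - C (S28.rootFin ζ b))) :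
    Φ.natDegree = q + 1 := by
  have h1 := congrArg natDegree h
  rw [hΦ.natDegree_map, (monic_X_sub_C _).natDegree_mul
    (monic_prod_of_monic _ _ fun b _ => monic_X_sub_C _), natDegree_X_sub_C,
    natDegree_prod_of_monic _ _ fun b _ => monic_X_sub_C _] at h1
  simp only [natDegree_X_sub_C, Finset.sum_const, Finset.card_range, smul_eq_mul, mul_one] at h1
  omega

variable (M q : ℕ) [NeZero M] [NeZero q] (hq : q.Prime) (hqM : ¬ q ∣ M)

/-- The separating function `j_q / j^q`. -/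
def sepFn : FN (M * q) := jqN M q / jN M q ^ q

include hq in
/-- (J2) `j_q / j^q` is integral over `Kbar[1/j]`.
PROOF. `Φ(j_q, j) = 0` as in `isIntegral_jqN`; divide by `j^(q (q+1))`:
`z^(q+1) + ∑_{i ≤ q} (c_i(j) / j^(q (q+1-i))) z^i = 0`, `z = j_q / j^q`, and
`c_i(j) / j^(q (q+1-i))` is a polynomial in `1/j` by (J1). -/
theorem isIntegral_sepFn : IsIntegral (Algebra.adjoin Kbar {(jN M q)⁻¹}) (sepFn M q) := by
  obtain ⟨Φ, U, G, m, c, hm, hΦ, hU, hU0, hc, hUeq, hK⟩ := S28.statementB S28.statementA q hq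
  obtain ⟨ζ, hζ⟩ := JqBound_exists_zeta q
  obtain ⟨hfac, -, -⟩ := hK Kbar ζ hζ
  have hdeg := fun i => natDegree_coeff_le q hq Φ hΦ ζ hfac i
  have hj : jN M q ≠ 0 := by
    intro h0
    have h1 := coe_jN M q
    rw [h0] at h1
    have h2 := JqBound_val_jqModC Kbar
    rw [← h1] at h2
    have h3 : HahnSeries.addVal ℤ Kbar (((0 : FN (M * q)) : LaurentSeries Kbar)) = ⊤ :=
      (HahnSeries.addVal ℤ Kbar).map_zero
    rw [h3] at h2
    exact WithTop.top_ne_coe h2
  let ev : ℤ[X] →+* FN (M * q) := eval₂RingHom (Int.castRingHom _) (jN M q)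
  have hpm : (Φ.map ev).Monic := hΦ.map ev
  have hpdeg : (Φ.map ev).natDegree = q + 1 := by
    rw [hΦ.natDegree_map, JqBound_natDegree q Φ hΦ ζ hfac]
  have hroot : (Φ.map ev).eval (jqN M q) = 0 := by
    apply Subtype.val_injective
    have e2 : (algebraMap (FN (M * q)) (LaurentSeries Kbar)).comp ev = S28.evJ Kbar := by
      apply Polynomial.ringHom_ext
      · intro a
        simp [ev, S28.evJ]
      · simp only [ev, S28.evJ, RingHom.comp_apply, coe_eval₂RingHom, eval₂_X]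
        exact coe_jN M q
    have e3 := JqBound_series_root q Φ ζ hfac
    rw [← e2, ← coe_jqN M q, eval_map] at e3
    have e4 := hom_eval₂ Φ ev (algebraMap (FN (M * q)) (LaurentSeries Kbar)) (jqN M q)
    rw [eval_map]
    exact e4.trans e3
  have hp' : ((Φ.map ev).scaleRoots ((jN M q)⁻¹ ^ q)).Monic := (monic_scaleRoots_iff _).2 hpm
  have hlift : (Φ.map ev).scaleRoots ((jN M q)⁻¹ ^ q) ∈
      lifts (algebraMap (Algebra.adjoin Kbar {(jN M q)⁻¹}) (FN (M * q))) := by
    rw [lifts_iff_coeff_lifts]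
    intro i
    rw [coeff_scaleRoots, hpdeg, coeff_map, ← pow_mul]
    exact ⟨⟨_, JqBound_mem_adjoin _ hj _ _ (hdeg i)⟩, rfl⟩
  obtain ⟨Q, hQ, -, hQm⟩ := lifts_and_natDegree_eq_and_monic hlift hp'
  refine ⟨Q, hQm, ?_⟩
  rw [← eval_map, hQ]
  have h5 : sepFn M q = (jN M q)⁻¹ ^ q * jqN M q := by
    rw [sepFn, div_eq_mul_inv, inv_pow]
    exact mul_comm _ _
  rw [h5, scaleRoots_eval_mul, hroot, mul_zero]

include hq hqM in
/-- (J3) -/
theorem sepFn_mem_regOff_inv : sepFn M q ∈ regOff Kbar (xN M q)⁻¹ := by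
  intro P hP
  exact Igusa.mem_place_of_isIntegral P ((xN_inv_mem_place_iff M q hq hqM P).mp hP).1
    (isIntegral_sepFn M q hq)

variable (A : ValuationSubring Kbar) (hA : A.LiesOverPrime q)

theorem JqBound_jb_ne_zero (k : Type) [Field k] (M : ℕ) [NeZero M] : Igusa.jb k M ≠ 0 := by
  intro h
  exact Igusa.transcendental_jb (k := k) (M := M) (h ▸ isAlgebraic_zero)

/-- (J4) (`RedData.red_div`, `red_pow`, `R1_red_jN`, `R1_red_jqN`, ...) -/
theorem R1_red_sepFn : (R1 A M q hq hqM hA).red (sepFn M q) = 1 := by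
  have hjb : Igusa.jb (IsLocalRing.ResidueField ↥A) M ≠ 0 := JqBound_jb_ne_zero _ M
  have h1 : (R1 A M q hq hqM hA).red (jN M q ^ q) ≠ 0 := by
    rw [RedData.red_pow, R1_red_jN]
    exact pow_ne_zero _ hjb
  have h2 : jqN M q ∈ (R1 A M q hq hqM hA).O :=
    (R1 A M q hq hqM hA).mem_of_red_ne_zero (by rw [R1_red_jqN]; exact pow_ne_zero _ hjb)
  rw [sepFn, RedData.red_div _ h2 h1, RedData.red_pow, R1_red_jN, R1_red_jqN,
    div_self (pow_ne_zero _ hjb)]

theorem R2_red_sepFn : (R2 A M q hq hqM hA).red (sepFn M q) =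
    Igusa.jb (IsLocalRing.ResidueField ↥A) M / (Igusa.jb (IsLocalRing.ResidueField ↥A) M ^ q) ^ q := by
  have hjb : Igusa.jb (IsLocalRing.ResidueField ↥A) M ≠ 0 := JqBound_jb_ne_zero _ M
  have h1 : (R2 A M q hq hqM hA).red (jN M q ^ q) ≠ 0 := by
    rw [RedData.red_pow, R2_red_jN]
    exact pow_ne_zero _ (pow_ne_zero _ hjb)
  have h2 : jqN M q ∈ (R2 A M q hq hqM hA).O :=
    (R2 A M q hq hqM hA).mem_of_red_ne_zero (by rw [R2_red_jqN]; exact hjb)
  rw [sepFn, RedData.red_div _ h2 h1, RedData.red_pow, R2_red_jN, R2_red_jqN]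

theorem sepFn_mem_R1_O : sepFn M q ∈ (R1 A M q hq hqM hA).O :=
  (R1 A M q hq hqM hA).mem_of_red_ne_zero (by rw [R1_red_sepFn]; exact one_ne_zero)

theorem sepFn_mem_R2_O : sepFn M q ∈ (R2 A M q hq hqM hA).O := by
  have hjb : Igusa.jb (IsLocalRing.ResidueField ↥A) M ≠ 0 := JqBound_jb_ne_zero _ M
  refine (R2 A M q hq hqM hA).mem_of_red_ne_zero ?_
  rw [R2_red_sepFn]
  exact div_ne_zero hjb (pow_ne_zero _ (pow_ne_zero _ hjb))

end Fermat.Agent.DR.Conc
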