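import Fermat.Agent.DR.Conc.XiAbs

/-!
# DR/Conc, block L (abstract): lifting of functions with prescribed poles under good reduction

`R : RedData K F k Fb` Cartesian with `genusFF K F = genusFF k Fb` (good reduction), `y ∈ F` with non constant
reduction `ȳ` and `deg (y)_∞ ≤ deg (ȳ)_∞`.  Then `r_* (y)_∞ = (ȳ)_∞`, `r_* (y)_0 = (ȳ)_0` and every function on the
reduction which is regular off the poles of `ȳ` lifts to an integral function which is regular off the poles of
`y`.
-/

set_option autoImplicit false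

noncomputable section

namespace Fermat.Agent.DR.Conc

open AlgebraicCurve Fermat.Agent.Lib.RR Fermat.Agent.GAL.RED Fermat.Agent.DR.Gal

variable {K F k Fb : Type*} [Field K] [Field F] [Algebra K F] [Field k] [Field Fb] [Algebra k Fb]
variable [IsFF K F] [IsAlgClosed K] [IsFF k Fb] [IsAlgClosed k]

omit [Field k] [Field Fb] [Algebra k Fb] [IsFF k Fb] [IsAlgClosed k] in
/-- a non constant function has a pole. -/
theorem LiftAbs_degree_poleDiv_pos {y : F} (hy : y ∉ Set.range (algebraMap K F)) :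
    0 < Divisor.degree (poleDiv (K := K) y) := by
  have h0 := degree_nonneg (Level_poleDiv_nonneg (K := K) y)
  rcases h0.lt_or_eq with h | h
  · exact h
  · exfalso
    have hz := eq_zero_of_nonneg_of_degree (Level_poleDiv_nonneg (K := K) y) h.symm
    apply hy
    apply mem_range_of_ord_nonneg
    intro P
    have := DFunLike.congr_fun hz P
    rw [poleDiv_apply, Finsupp.coe_zero, Pi.zero_apply] at this
    have h2 := le_max_left (-P.ord y) 0
    omega

/-- (L1) the reduction map on places sends `(y)_∞` to `(ȳ)_∞` and `(y)_0` to `(ȳ)_0`.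
PROOF. `hr.map_divOf y`: `r_* div y = div ȳ`, `div y = (y)_0 - (y)_∞` (`(y)_0 = poleDiv y⁻¹`); all four divisors
`r_*(y)_0, r_*(y)_∞, (ȳ)_0, (ȳ)_∞` are effective, `(ȳ)_0, (ȳ)_∞` have disjoint supports, so
`r_*(y)_∞ ≥ (ȳ)_∞`; `deg r_*(y)_∞ = deg (y)_∞ ≤ deg (ȳ)_∞` (`mapDomain` preserves the degree since all places have
degree one: `RED.deg_eq_one`, `RED.degree_eq_sum`), so they are equal; then also the zero divisors. -/
theorem map_poleDiv_of_degree_le (R : RedData K F k Fb) (r : Place K F → Place k Fb)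
    (hr : IsRedMap R r) (y : F) (hy : R.red y ≠ 0)
    (hdeg : Divisor.degree (poleDiv (K := K) y) ≤ Divisor.degree (poleDiv (K := k) (R.red y))) :
    Finsupp.mapDomain r (poleDiv (K := K) y) = poleDiv (K := k) (R.red y) ∧
      Finsupp.mapDomain r (poleDiv (K := K) y⁻¹) = poleDiv (K := k) (R.red y)⁻¹ := by
  refine Level_map_poleDiv hr hy (le_antisymm hdeg ?_)
  by_cases hc : R.red y ∈ Set.range (algebraMap k Fb)
  · obtain ⟨c, hc⟩ := hc
    have hz : poleDiv (K := k) (R.red y) = 0 := by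
      ext P
      rw [poleDiv_apply, ← hc, ord_algebraMap]
      simp
    rw [hz, map_zero]
    exact degree_nonneg (Level_poleDiv_nonneg (K := K) y)
  · exact degree_poleDiv_red_le R y hc

/-- (L2) **lifting**.
PROOF. `RED.exists_isRedMap R hC hg`; enlarge `a` to `a'` with `3 g ≤ a' deg (y)_∞`
(`deg (y)_∞ ≥ deg (ȳ)_∞ > 0` by `degree_poleDiv_red_le` and since `ȳ` is not constant; `L(a D) ⊆ L(a' D)`);
`hr.redSub_L (a' • poleDiv y)`, `Finsupp.mapDomain_smul` and (L1). -/
theorem exists_lift_rr (R : RedData K F k Fb) (hC : R.IsCartesian)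
    (hg : genusFF K F = genusFF k Fb) (y : F) (hy : R.red y ∉ Set.range (algebraMap k Fb))
    (hdeg : Divisor.degree (poleDiv (K := K) y) ≤ Divisor.degree (poleDiv (K := k) (R.red y)))
    (a : ℕ) (v : Fb) (hv : v ∈ riemannRochSpace (a • poleDiv (K := k) (R.red y))) :
    ∃ (a' : ℕ) (u : F), u ∈ riemannRochSpace (a' • poleDiv (K := K) y) ∧ u ∈ R.O ∧ R.red u = v := by
  obtain ⟨r, hr⟩ := exists_isRedMap R hC hg
  have hy0 : R.red y ≠ 0 := fun h => hy ⟨0, by rw [h, map_zero]⟩
  have hmap := (map_poleDiv_of_degree_le R r hr y hy0 hdeg).1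
  have hpos : 0 < Divisor.degree (poleDiv (K := K) y) :=
    lt_of_lt_of_le (LiftAbs_degree_poleDiv_pos hy) (degree_poleDiv_red_le R y hy)
  obtain ⟨u, hu, huO, hred⟩ := Level_exists_lift hr hmap hpos v (mem_regOff_of_mem_rr hv)
  obtain ⟨a', ha'⟩ := exists_mem_rr_of_mem_regOff hu
  exact ⟨a', u, ha', huO, hred⟩

/-- (L2') lifting, in terms of `regOff`. -/
theorem exists_lift_regOff_abs (R : RedData K F k Fb) (hC : R.IsCartesian)
    (hg : genusFF K F = genusFF k Fb) (y : F) (hy : R.red y ∉ Set.range (algebraMap k Fb))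
    (hdeg : Divisor.degree (poleDiv (K := K) y) ≤ Divisor.degree (poleDiv (K := k) (R.red y)))
    (v : Fb) (hv : v ∈ regOff k (R.red y)) :
    ∃ u : F, u ∈ regOff K y ∧ u ∈ R.O ∧ R.red u = v := by
  obtain ⟨a, ha⟩ := exists_mem_rr_of_mem_regOff hv
  obtain ⟨a', u, hu, huO, hred⟩ := exists_lift_rr R hC hg y hy hdeg a v ha
  exact ⟨u, mem_regOff_of_mem_rr hu, huO, hred⟩

/-- (L3) lifting in the other chart. -/
theorem exists_lift_regOff_abs_inv (R : RedData K F k Fb) (hC : R.IsCartesian)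
    (hg : genusFF K F = genusFF k Fb) (y : F) (hy : R.red y ∉ Set.range (algebraMap k Fb))
    (hdeg : Divisor.degree (poleDiv (K := K) y) ≤ Divisor.degree (poleDiv (K := k) (R.red y)))
    (v : Fb) (hv : v ∈ regOff k (R.red y)⁻¹) :
    ∃ u : F, u ∈ regOff K y⁻¹ ∧ u ∈ R.O ∧ R.red u = v := by
  refine exists_lift_regOff_abs R hC hg y⁻¹ ?_ ?_ v (by rwa [R.red_inv])
  · rw [R.red_inv]
    rintro ⟨c, hc⟩
    exact hy ⟨c⁻¹, by rw [map_inv₀, hc, inv_inv]⟩
  · rw [R.red_inv, degree_poleDiv_inv, degree_poleDiv_inv]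
    exact hdeg

end Fermat.Agent.DR.Conc
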