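import Fermat.Agent.DR.Conc.Old
import Fermat.Agent.DR.Abs.Cartesian
import Fermat.Agent.DR.Abs.Nodal.Bridge

/-!
# DR/Conc : the output of the block

`pairHyp : Nodal.PairHyp (TT ..) (xC M q) (frobX ..) (sig ..)` for a level `M` of good reduction
(`GoodRed A M`, true for neat `M`: `goodRed_of_neat`).
Other exports: `TT_sep`, `W_xC`, `gal_xC`, `pairSurj`, `old_frob`, `R1_scale`, `R2_scale`.
-/

set_option autoImplicit false
set_option linter.unusedSectionVars false

noncomputable section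

namespace Fermat.Agent.DR.Conc

open ModularCurve AlgebraicCurve Fermat.Agent.S24 Fermat.Agent.GAL Fermat.Agent.GAL.Gauss
  Fermat.Agent.GAL.RED Fermat.Agent.DR.Gal Fermat.Agent.Lib.RR

variable (A : ValuationSubring Kbar) (M q : ℕ) [NeZero M] [NeZero q] (hq : q.Prime)
  (hqM : ¬ q ∣ M) (hA : A.LiesOverPrime q)
  [Fact q.Prime] [CharP (IsLocalRing.ResidueField ↥A) q] [PerfectRing (IsLocalRing.ResidueField ↥A) q]
  [IsAlgClosed (IsLocalRing.ResidueField ↥A)]
  [Lib.RR.IsFF (IsLocalRing.ResidueField ↥A) (Igusa.E (IsLocalRing.ResidueField ↥A) M)]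
  [Lib.RR.IsFF Kbar (FN (M * q))] [Lib.RR.IsFF Kbar (FN M)]

theorem TT_red_xC_not_mem_range (i : Fin 2) : ((TT A M q hq hqM hA).R i).red (xC M q) ∉
    Set.range (algebraMap (IsLocalRing.ResidueField ↥A)
      (Igusa.E (IsLocalRing.ResidueField ↥A) M)) := by
  rw [TT_red_xC]
  exact sig_not_mem_range _ M q (natCast_M_ne_zero A M q hq hqM hA)

theorem TT_degree : Divisor.degree (RED.poleDiv (K := Kbar) (xC M q)) =
    ∑ i : Fin 2, Divisor.degree (RED.poleDiv (K := IsLocalRing.ResidueField ↥A)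
      (((TT A M q hq hqM hA).R i).red (xC M q))) := by
  rw [Fin.sum_univ_two, TT_red_xC, TT_red_xC, degree_poleDiv_xC A M q hq hqM hA]
  ring

theorem TT_isCartesian : (TT A M q hq hqM hA).IsCartesian :=
  Abs.MultiRed.isCartesian_of_degree_le (TT_sep A M q hq hqM hA) (xC M q)
    (TT_red_xC_not_mem_range A M q hq hqM hA) (TT_degree A M q hq hqM hA).le

/-- **The output of DR/Conc.** -/
theorem pairHyp (hg : GoodRed A M) :
    Nodal.PairHyp (TT A M q hq hqM hA) (xC M q) (frobX (IsLocalRing.ResidueField ↥A) M q)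
      (sig (IsLocalRing.ResidueField ↥A) M q) where
  cart := TT_isCartesian A M q hq hqM hA
  sep := TT_sep A M q hq hqM hA
  red_x := TT_red_xC A M q hq hqM hA
  Φs_σ := Phi_sig _ M q
  pole := exists_pole_sig _ M q (natCast_M_ne_zero A M q hq hqM hA)
  fix_unit := fun P hP => ord_sig_of_fix _ M q P hP
  swap := by
    intro a y hy hyO
    refine ⟨W M q hq hqM y, algEquiv_mem_rr _ (W_xC M q hq hqM) hy,
      W_mem_TT_O A M q hq hqM hA hyO, ?_, ?_⟩
    · exact R1_red_W A M q hq hqM hA y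
    · exact R2_red_W A M q hq hqM hA y
  bound := by
    intro a y hy hyO i
    have h := (TT A M q hq hqM hA).red_mem_L_of_mem_L (TT_sep A M q hq hqM hA) (xC M q)
      (TT_red_xC_not_mem_range A M q hq hqM hA) (TT_degree A M q hq hqM hA) a y hy hyO i
    rwa [TT_red_xC] at h
  degree := degree_poleDiv_xC A M q hq hqM hA
  old := by
    intro u hu
    obtain ⟨z, hz, hzO, h1, h2⟩ := old_regOff A M q hq hqM hA hg u
      ((mem_regOut_polesOf_iff _ u).1 hu)
    obtain ⟨a, ha⟩ := exists_mem_rr_of_mem_regOff hz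
    exact ⟨a, z, ha, hzO, h1, h2⟩
  old_inf := by
    intro u hu
    obtain ⟨z, hz, hzO, h1, h2⟩ := old_regOff_inv A M q hq hqM hA hg u
      ((mem_regOut_zerosOf_iff _ u).1 hu)
    obtain ⟨a, ha⟩ := exists_mem_rr_of_mem_regOff hz
    exact ⟨a, z, ha, hzO, h1, h2⟩

end Fermat.Agent.DR.Conc
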