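import Mathlib
import Fermat.Prelude.Def_FLTPrelim_Ramification

/-!
# DR/Conc, block K: a valuation ring of `ℚ̄` over a prime `q` has rank one

For `b` in the maximal ideal of `A` and any `a`, some `b ^ r * a` lies in the maximal ideal.
-/

set_option autoImplicit false

namespace Fermat.Agent.DR.Conc

open Polynomial in
theorem Rank_aeval_mem (A : ValuationSubring (AlgebraicClosure ℚ)) {b : AlgebraicClosure ℚ}
    (hb : b ∈ A) (P : ℤ[X]) : Polynomial.aeval b P ∈ A := by
  rw [Polynomial.aeval_eq_sum_range]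
  exact A.toSubring.sum_mem fun i _ => A.toSubring.zsmul_mem (A.toSubring.pow_mem hb i) _

/-- an integer prime to `q` is a unit of `A`. -/
theorem Rank_valuation_intCast (A : ValuationSubring (AlgebraicClosure ℚ)) (q : ℕ)
    (hq : q.Prime) (hA : A.LiesOverPrime q) (u : ℤ) (hu : ¬ (q : ℤ) ∣ u) :
    A.valuation (u : AlgebraicClosure ℚ) = 1 := by
  have hqv : A.valuation (q : AlgebraicClosure ℚ) < 1 := (ValuationSubring.mem_nonunits_iff A).1 hA
  have hcop : IsCoprime (q : ℤ) u :=
    ((Nat.prime_iff_prime_int.mp hq).irreducible.coprime_iff_not_dvd).2 hu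
  obtain ⟨s, t, hst⟩ := hcop
  have h1 : (t : AlgebraicClosure ℚ) * u = 1 - s * q := by
    have : ((s * q + t * u : ℤ) : AlgebraicClosure ℚ) = 1 := by rw [hst]; simp
    push_cast at this
    linear_combination this
  have hs : A.valuation (s : AlgebraicClosure ℚ) ≤ 1 :=
    (A.valuation_le_one_iff _).2 (intCast_mem A s)
  have ht : A.valuation (t : AlgebraicClosure ℚ) ≤ 1 :=
    (A.valuation_le_one_iff _).2 (intCast_mem A t)
  have hu1 : A.valuation (u : AlgebraicClosure ℚ) ≤ 1 :=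
    (A.valuation_le_one_iff _).2 (intCast_mem A u)
  have h2 : A.valuation ((s : AlgebraicClosure ℚ) * q) < 1 := by
    rw [map_mul]
    calc A.valuation (s : AlgebraicClosure ℚ) * A.valuation (q : AlgebraicClosure ℚ)
        ≤ 1 * A.valuation (q : AlgebraicClosure ℚ) := by gcongr
      _ < 1 := by rwa [one_mul]
  have h3 : A.valuation ((t : AlgebraicClosure ℚ) * u) = 1 := by
    rw [h1]
    exact Valuation.map_one_sub_of_lt _ h2
  rw [map_mul] at h3
  refine le_antisymm hu1 ?_
  calc (1 : _) = A.valuation (t : AlgebraicClosure ℚ) * A.valuation (u : AlgebraicClosure ℚ) := h3.symm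
    _ ≤ 1 * A.valuation (u : AlgebraicClosure ℚ) := by gcongr
    _ = _ := one_mul _

/-- (K1) powers of `q` are cofinal: for `a ≠ 0` there is `m` with `q ^ m * a ∈ A`. -/
theorem exists_natCast_pow_mul_mem (A : ValuationSubring (AlgebraicClosure ℚ)) (q : ℕ)
    (hq : q.Prime) (hA : A.LiesOverPrime q) (a : AlgebraicClosure ℚ) :
    ∃ m : ℕ, (q : AlgebraicClosure ℚ) ^ m * a ∈ A := by
  have halg : IsAlgebraic ℤ a := by
    have h : IsAlgebraic ℚ a := (AlgebraicClosure.isAlgebraic ℚ).isAlgebraic a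
    exact (IsFractionRing.isAlgebraic_iff ℤ ℚ (AlgebraicClosure ℚ)).2 h
  obtain ⟨d, hd0, hd⟩ := halg.exists_integral_multiple
  -- `d • a` lies in `A`
  have hdA : (d : AlgebraicClosure ℚ) * a ∈ A := by
    have h1 : IsIntegral A (d • a) := hd.tower_top
    obtain ⟨y, hy⟩ := IsIntegrallyClosed.isIntegral_iff.mp h1
    have : (d : AlgebraicClosure ℚ) * a = (y : AlgebraicClosure ℚ) := by
      rw [← zsmul_eq_mul]
      exact hy.symm
    rw [this]
    exact y.2
  have hqp : Prime (q : ℤ) := Nat.prime_iff_prime_int.mp hq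
  obtain ⟨u, hdu, hu⟩ := (FiniteMultiplicity.of_prime_left (b := d) hqp hd0).exists_eq_pow_mul_and_not_dvd
  set m := multiplicity (q : ℤ) d with hm
  refine ⟨m, ?_⟩
  have hu1 := Rank_valuation_intCast A q hq hA u hu
  have hu0 : (u : AlgebraicClosure ℚ) ≠ 0 := by
    intro h
    rw [h, map_zero] at hu1
    exact zero_ne_one hu1
  have h2 : (q : AlgebraicClosure ℚ) ^ m * a = (u : AlgebraicClosure ℚ)⁻¹ * ((d : AlgebraicClosure ℚ) * a) := by
    have : (d : AlgebraicClosure ℚ) = (q : AlgebraicClosure ℚ) ^ m * u := by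
      rw [hdu]; push_cast; ring
    rw [this]
    field_simp
  rw [h2]
  refine A.mul_mem _ _ ?_ hdA
  rw [← A.valuation_le_one_iff, map_inv₀, hu1, inv_one]

open Polynomial in
theorem Rank_aux (A : ValuationSubring (AlgebraicClosure ℚ)) (q : ℕ)
    (hq : q.Prime) (hA : A.LiesOverPrime q) (b : AlgebraicClosure ℚ) (hb : b ∈ A.nonunits) (i : ℕ) :
    ∀ (P : ℤ[X]) (k : ℕ) (z : AlgebraicClosure ℚ), z ∈ A →
      b ^ k * Polynomial.aeval b P = (q : AlgebraicClosure ℚ) * z → ¬ (q : ℤ) ∣ P.coeff i →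
      ∃ n : ℕ, ∃ c ∈ A, b ^ n = (q : AlgebraicClosure ℚ) * c := by
  have hbA : b ∈ A := A.nonunits_subset hb
  have hbv : A.valuation b < 1 := (ValuationSubring.mem_nonunits_iff A).1 hb
  -- decomposition `P(b) = a₀ + b P'(b)`
  have hdec : ∀ P : ℤ[X], Polynomial.aeval b P =
      ((P.coeff 0 : ℤ) : AlgebraicClosure ℚ) + b * Polynomial.aeval b P.divX := by
    intro P
    conv_lhs => rw [← Polynomial.X_mul_divX_add P]
    simp only [map_add, map_mul, Polynomial.aeval_X, Polynomial.aeval_C]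
    rw [eq_intCast]
    ring
  -- the base step
  have hbase : ∀ (P : ℤ[X]) (k : ℕ) (z : AlgebraicClosure ℚ), z ∈ A →
      b ^ k * Polynomial.aeval b P = (q : AlgebraicClosure ℚ) * z → ¬ (q : ℤ) ∣ P.coeff 0 →
      ∃ n : ℕ, ∃ c ∈ A, b ^ n = (q : AlgebraicClosure ℚ) * c := by
    intro P k z hz hP h0
    have hu := Rank_valuation_intCast A q hq hA _ h0
    have hw : A.valuation (b * Polynomial.aeval b P.divX) < 1 := by
      rw [map_mul]
      have := (A.valuation_le_one_iff _).2 (Rank_aeval_mem A hbA P.divX)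
      calc A.valuation b * A.valuation (Polynomial.aeval b P.divX) ≤ A.valuation b * 1 := by gcongr
        _ < 1 := by rwa [mul_one]
    have hε : A.valuation (Polynomial.aeval b P) = 1 := by
      rw [hdec P, ← hu]
      exact Valuation.map_add_eq_of_lt_left _ (by rw [hu]; exact hw)
    have hε0 : Polynomial.aeval b P ≠ 0 := by
      intro h
      rw [h, map_zero] at hε
      exact zero_ne_one hε
    refine ⟨k, z * (Polynomial.aeval b P)⁻¹, A.mul_mem _ _ hz ?_, ?_⟩
    · rw [← A.valuation_le_one_iff, map_inv₀, hε, inv_one]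
    · rw [← mul_assoc, ← hP]
      field_simp
  induction i with
  | zero => exact hbase
  | succ i ih =>
    intro P k z hz hP hi
    by_cases h0 : (q : ℤ) ∣ P.coeff 0
    · obtain ⟨a', ha'⟩ := h0
      refine ih P.divX (k + 1) (z - b ^ k * (a' : AlgebraicClosure ℚ)) ?_ ?_ ?_
      · exact A.sub_mem hz (A.mul_mem _ _ (pow_mem hbA k) (intCast_mem A a'))
      · rw [hdec P, ha'] at hP
        push_cast at hP
        linear_combination hP
      · rwa [Polynomial.coeff_divX]
    · exact hbase P k z hz hP h0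

/-- (K2) for `b ∈ 𝔪_A` some power of `b` is divisible by `q`. -/
theorem exists_pow_mem_natCast_mul (A : ValuationSubring (AlgebraicClosure ℚ)) (q : ℕ)
    (hq : q.Prime) (hA : A.LiesOverPrime q) (b : AlgebraicClosure ℚ) (hb : b ∈ A.nonunits) :
    ∃ n : ℕ, ∃ c ∈ A, b ^ n = (q : AlgebraicClosure ℚ) * c := by
  have halg : IsAlgebraic ℤ b := by
    have h : IsAlgebraic ℚ b := (AlgebraicClosure.isAlgebraic ℚ).isAlgebraic b
    exact (IsFractionRing.isAlgebraic_iff ℤ ℚ (AlgebraicClosure ℚ)).2 h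
  obtain ⟨P, hP0, hP⟩ := halg
  have hprim := P.isPrimitive_primPart
  have hPP : Polynomial.aeval b P.primPart = 0 := Polynomial.aeval_primPart_eq_zero hP0 hP
  have hex : ∃ i, ¬ (q : ℤ) ∣ P.primPart.coeff i := by
    by_contra hcon
    push Not at hcon
    have h1 : Polynomial.C (q : ℤ) ∣ P.primPart := (Polynomial.C_dvd_iff_dvd_coeff _ _).2 hcon
    have h2 := hprim _ h1
    exact (Nat.prime_iff_prime_int.mp hq).not_isUnit h2
  obtain ⟨i, hi⟩ := hex
  exact Rank_aux A q hq hA b hb i P.primPart 0 0 A.zero_mem (by rw [hPP]; simp) hi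

/-- **rank one.** -/
theorem exists_pow_mul_mem_nonunits (A : ValuationSubring (AlgebraicClosure ℚ)) (q : ℕ)
    (hq : q.Prime) (hA : A.LiesOverPrime q) (b : AlgebraicClosure ℚ) (hb : b ∈ A.nonunits)
    (a : AlgebraicClosure ℚ) : ∃ r : ℕ, b ^ r * a ∈ A.nonunits := by
  obtain ⟨m, hm⟩ := exists_natCast_pow_mul_mem A q hq hA a
  obtain ⟨n, c, hc, hn⟩ := exists_pow_mem_natCast_mul A q hq hA b hb
  refine ⟨n * m + 1, ?_⟩
  have h1 : b ^ (n * m + 1) * a = b * (c ^ m * ((q : AlgebraicClosure ℚ) ^ m * a)) := by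
    rw [pow_succ, pow_mul, hn, mul_pow]
    ring
  rw [h1, ValuationSubring.mem_nonunits_iff, map_mul]
  have h2 : A.valuation (c ^ m * ((q : AlgebraicClosure ℚ) ^ m * a)) ≤ 1 :=
    (A.valuation_le_one_iff _).2 (A.mul_mem _ _ (pow_mem hc m) hm)
  have h3 : A.valuation b < 1 := (ValuationSubring.mem_nonunits_iff A).1 hb
  calc A.valuation b * A.valuation (c ^ m * ((q : AlgebraicClosure ℚ) ^ m * a))
      ≤ A.valuation b * 1 := by gcongr
    _ < 1 := by rwa [mul_one]

end Fermat.Agent.DR.Conc
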