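import Fermat.Agent.DR.Conc.Formulas
import Fermat.Agent.DR.Conc.Rank
import Fermat.Agent.DR.Abs.Defs

/-!
# DR/Conc, block T: the pair `(R1, R2)` as a `MultiRed`, and the independence `Sep` of the two valuations
-/

set_option autoImplicit false
set_option linter.unusedSectionVars false

noncomputable section

namespace Fermat.Agent.DR.Conc

open ModularCurve AlgebraicCurve Fermat.Agent.S24 Fermat.Agent.GAL Fermat.Agent.GAL.Gauss
  Fermat.Agent.GAL.RED Fermat.Agent.DR.Gal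

variable (A : ValuationSubring Kbar) (M q : ℕ) [NeZero M] [NeZero q] (hq : q.Prime)
  (hqM : ¬ q ∣ M) (hA : A.LiesOverPrime q)

theorem R1_A : (R1 A M q hq hqM hA).A = A := rfl

theorem R2_A : (R2 A M q hq hqM hA).A = A := rfl

theorem R2_redA (a : Kbar) : (R2 A M q hq hqM hA).redA a = (R1 A M q hq hqM hA).redA a := by
  by_cases h : a ∈ A
  · rw [(R2 A M q hq hqM hA).redA_of_mem (show a ∈ (R2 A M q hq hqM hA).A from h),
      (R1 A M q hq hqM hA).redA_of_mem (show a ∈ (R1 A M q hq hqM hA).A from h)]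
    rfl
  · rw [(R2 A M q hq hqM hA).redA_of_not_mem (show a ∉ (R2 A M q hq hqM hA).A from h),
      (R1 A M q hq hqM hA).redA_of_not_mem (show a ∉ (R1 A M q hq hqM hA).A from h)]

/-- **The pair of reductions.**  `R 0 = R1` (Gauss valuation at `∞`), `R 1 = R2 = R1 ∘ W`. -/
def TT : Abs.MultiRed Kbar (FN (M * q)) (IsLocalRing.ResidueField ↥A)
    (fun _ : Fin 2 => Igusa.E (IsLocalRing.ResidueField ↥A) M) where
  R := ![R1 A M q hq hqM hA, R2 A M q hq hqM hA]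
  A := A
  redA := (R1 A M q hq hqM hA).redA
  A_eq := by
    rw [Fin.forall_fin_two]
    exact ⟨R1_A A M q hq hqM hA, R2_A A M q hq hqM hA⟩
  redA_eq := by
    rw [Fin.forall_fin_two]
    exact ⟨fun _ => rfl, R2_redA A M q hq hqM hA⟩
  redA_surj := by
    intro c
    obtain ⟨⟨a, ha⟩, rfl⟩ := IsLocalRing.residue_surjective (R := ↥A) c
    exact ⟨a, ha, (R1 A M q hq hqM hA).redA_of_mem ha⟩

@[simp] theorem TT_R_zero : (TT A M q hq hqM hA).R 0 = R1 A M q hq hqM hA := rfl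

@[simp] theorem TT_R_one : (TT A M q hq hqM hA).R 1 = R2 A M q hq hqM hA := rfl

theorem mem_TT_O_iff (y : FN (M * q)) : y ∈ (TT A M q hq hqM hA).O ↔
    y ∈ (R1 A M q hq hqM hA).O ∧ y ∈ (R2 A M q hq hqM hA).O := by
  rw [Abs.MultiRed.mem_O]
  constructor
  · intro h
    exact ⟨h 0, h 1⟩
  · rintro ⟨h0, h1⟩ i
    fin_cases i
    · exact h0
    · exact h1

/-- `W` preserves `T.O`. -/
theorem W_mem_TT_O {y : FN (M * q)} (hy : y ∈ (TT A M q hq hqM hA).O) :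
    W M q hq hqM y ∈ (TT A M q hq hqM hA).O := by
  rw [mem_TT_O_iff] at hy ⊢
  refine ⟨(mem_R2_O_iff A M q hq hqM hA y).1 hy.2, ?_⟩
  rw [mem_R2_O_iff, W_W]
  exact hy.1

/-- (S1) an `R1`-unit with reduction `1` which is as small as we want for `R2`.
PROOF. `ε = eps M q`: `R1_red_eps`, `eps_mem_R2_O`, `R2_red_eps`; `ε ≠ 0`.  `R2_scale ε`: `b ≠ 0` with `η := b ε` an
`R2`-unit.  `b ∉ A` (otherwise `red₂ η = redA b * red₂ ε = 0`), so `b⁻¹ ∈ A.nonunits`.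
`exists_pow_mul_mem_nonunits`: `r` with `(b⁻¹) ^ r * a ∈ A.nonunits`.  `e := ε ^ r`:
`a • e = ((b⁻¹) ^ r * a) • η ^ r`, `RedData.red_smul`, `redA` of a non unit is `0`. -/
theorem exists_small2 (a : Kbar) : ∃ e : FN (M * q), (R1 A M q hq hqM hA).red e = 1 ∧
    a • e ∈ (R2 A M q hq hqM hA).O ∧ (R2 A M q hq hqM hA).red (a • e) = 0 := by
  have hε : eps M q ≠ 0 := by
    intro h0
    have h1 := R1_red_eps A M q hq hqM hA
    rw [h0, RedData.red_zero] at h1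
    exact zero_ne_one h1
  obtain ⟨b, hb0, hb⟩ := R2_scale A M q hq hqM hA (eps M q) hε
  have hbA : b ∉ A := by
    intro hbA
    apply hb
    rw [(R2 A M q hq hqM hA).red_mul ((R2 A M q hq hqM hA).algebraMap_mem b hbA)
      (eps_mem_R2_O A M q hq hqM hA), R2_red_eps, mul_zero]
  have hbinv : b⁻¹ ∈ A.nonunits := by
    rw [ValuationSubring.mem_nonunits_iff, map_inv₀]
    have h1 : 1 < A.valuation b := by
      rw [← not_le, A.valuation_le_one_iff]
      exact hbA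
    exact inv_lt_one_of_one_lt₀ h1
  obtain ⟨r, hr⟩ := exists_pow_mul_mem_nonunits A q hq hA b⁻¹ hbinv a
  have hrA : (b⁻¹) ^ r * a ∈ (R2 A M q hq hqM hA).A := A.nonunits_subset hr
  have hη : (algebraMap Kbar (FN (M * q)) b * eps M q) ^ r ∈ (R2 A M q hq hqM hA).O :=
    pow_mem ((R2 A M q hq hqM hA).mem_of_red_ne_zero hb) r
  have key : a • eps M q ^ r = ((b⁻¹) ^ r * a) • (algebraMap Kbar (FN (M * q)) b * eps M q) ^ r := by
    have hb' : algebraMap Kbar (FN (M * q)) b ≠ 0 := by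
      rw [Ne, map_eq_zero]
      exact hb0
    rw [Algebra.smul_def, Algebra.smul_def, map_mul, map_pow, map_inv₀, mul_pow, inv_pow]
    have hb'' : algebraMap Kbar (FN (M * q)) b ^ r ≠ 0 := pow_ne_zero r hb'
    field_simp
  refine ⟨eps M q ^ r, ?_, ?_, ?_⟩
  · rw [RedData.red_pow, R1_red_eps, one_pow]
  · rw [key]
    exact (R2 A M q hq hqM hA).smul_mem hrA hη
  · rw [key, Algebra.smul_def,
      (R2 A M q hq hqM hA).red_mul ((R2 A M q hq hqM hA).algebraMap_mem _ hrA) hη,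
      (R2 A M q hq hqM hA).red_algebraMap hrA,
      ((R2 A M q hq hqM hA).redA_eq_zero_iff hrA).2 ((ValuationSubring.mem_nonunits_iff A).1 hr),
      map_zero, zero_mul]

/-- (S1') the same with the roles exchanged (apply `W`). -/
theorem exists_small1 (a : Kbar) : ∃ e : FN (M * q), (R2 A M q hq hqM hA).red e = 1 ∧
    a • e ∈ (R1 A M q hq hqM hA).O ∧ (R1 A M q hq hqM hA).red (a • e) = 0 := by
  obtain ⟨e, h1, h2, h3⟩ := exists_small2 A M q hq hqM hA a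
  have h4 : a • W M q hq hqM e = W M q hq hqM (a • e) :=
    ((W M q hq hqM).toAlgHom.toLinearMap.map_smul a e).symm
  refine ⟨W M q hq hqM e, ?_, ?_, ?_⟩
  · rw [R2_red_W, h1]
  · rw [h4]
    exact (mem_R2_O_iff A M q hq hqM hA _).1 h2
  · rw [h4, R1_red_W, h3]

/-- (S2) **`Sep`**: arbitrary residues with arbitrary scalings.
PROOF. `pairSurj`: `y₀, y₁ ∈ O₁ ∩ O₂` with `red₁ y₀ = u 0`, `red₂ y₁ = u 1`.  `e₀` from `exists_small2 (c 1 / c 0)`,
`e₁` from `exists_small1 (c 0 / c 1)`.  `h := (c 0)⁻¹ • (e₀ * y₀) + (c 1)⁻¹ • (e₁ * y₁)`.  Then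
`c 0 • h = e₀ * y₀ + ((c 0 / c 1) • e₁) * y₁` has `red₁ = 1 * u 0 + 0`, and
`c 1 • h = ((c 1 / c 0) • e₀) * y₀ + e₁ * y₁` has `red₂ = 0 + 1 * u 1`. -/
theorem TT_sep : (TT A M q hq hqM hA).Sep := by
  intro u c hc
  obtain ⟨y₀, hy01, hy02, hy0r, -⟩ := pairSurj A M q hq hqM hA (u 0) (u 0)
  obtain ⟨y₁, hy11, hy12, -, hy1r⟩ := pairSurj A M q hq hqM hA (u 1) (u 1)
  obtain ⟨e₀, he01, he02, he03⟩ := exists_small2 A M q hq hqM hA (c 1 / c 0)
  obtain ⟨e₁, he11, he12, he13⟩ := exists_small1 A M q hq hqM hA (c 0 / c 1)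
  have hc0 := hc 0
  have hc1 := hc 1
  have he0O : e₀ ∈ (R1 A M q hq hqM hA).O :=
    (R1 A M q hq hqM hA).mem_of_red_ne_zero (by rw [he01]; exact one_ne_zero)
  have he1O : e₁ ∈ (R2 A M q hq hqM hA).O :=
    (R2 A M q hq hqM hA).mem_of_red_ne_zero (by rw [he11]; exact one_ne_zero)
  have k0 : c 0 • ((c 0)⁻¹ • (e₀ * y₀) + (c 1)⁻¹ • (e₁ * y₁)) =
      e₀ * y₀ + ((c 0 / c 1) • e₁) * y₁ := by
    rw [smul_add, smul_smul, smul_smul, mul_inv_cancel₀ hc0, one_smul, smul_mul_assoc,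
      div_eq_mul_inv]
  have k1 : c 1 • ((c 0)⁻¹ • (e₀ * y₀) + (c 1)⁻¹ • (e₁ * y₁)) =
      ((c 1 / c 0) • e₀) * y₀ + e₁ * y₁ := by
    rw [smul_add, smul_smul, smul_smul, mul_inv_cancel₀ hc1, one_smul, smul_mul_assoc,
      div_eq_mul_inv]
  refine ⟨(c 0)⁻¹ • (e₀ * y₀) + (c 1)⁻¹ • (e₁ * y₁), ?_⟩
  rw [Fin.forall_fin_two]
  refine ⟨?_, ?_⟩
  · rw [k0, TT_R_zero]
    refine ⟨add_mem (mul_mem he0O hy01) (mul_mem he12 hy11), ?_⟩
    rw [RedData.red_add _ (mul_mem he0O hy01) (mul_mem he12 hy11), RedData.red_mul _ he0O hy01,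
      RedData.red_mul _ he12 hy11, he01, he13, hy0r, one_mul, zero_mul, add_zero]
  · rw [k1, TT_R_one]
    refine ⟨add_mem (mul_mem he02 hy02) (mul_mem he1O hy12), ?_⟩
    rw [RedData.red_add _ (mul_mem he02 hy02) (mul_mem he1O hy12), RedData.red_mul _ he02 hy02,
      RedData.red_mul _ he1O hy12, he11, he03, hy1r, one_mul, zero_mul, zero_add]

end Fermat.Agent.DR.Conc
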