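import Fermat.Agent.DR.Conc.PairNorm
import Fermat.Agent.DR.Conc.Frob

/-!
# DR/Conc, block N: every nonzero element of `FN (M q)` is a constant times a Gauss unit
(i.e. the Gauss valuation at `∞` of `FN (M q)`, `q` = residue characteristic, is a valuation with the
value group of `A` and residue field the level `M` field over `k`).
-/

set_option autoImplicit false
set_option linter.unusedSectionVars false

noncomputable section

namespace Fermat.Agent.DR.Conc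

open ModularCurve AlgebraicCurve Fermat.Agent.S24 Fermat.Agent.GAL Fermat.Agent.GAL.Gauss

variable (A : ValuationSubring Kbar) (M q : ℕ) [NeZero M] [NeZero q] (hq : q.Prime)
  (hqM : ¬ q ∣ M) (hA : A.LiesOverPrime q)

/-- a root of unity (and its inverse) lies in `A`. -/
theorem Normalise_zeta_mem {ζ : Kbar} {n : ℕ} (hn : 0 < n) (hζ : ζ ^ n = 1) : ζ ∈ A ∧ ζ⁻¹ ∈ A := by
  have hinv : ζ⁻¹ = ζ ^ (n - 1) := by
    apply inv_eq_of_mul_eq_one_right
    rw [← pow_succ', Nat.sub_add_cancel hn, hζ]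
  have hinv' : ζ = ζ⁻¹ ^ (n - 1) := by
    rw [inv_pow, ← hinv, inv_inv]
  have hζA : ζ ∈ A := by
    rcases A.mem_or_inv_mem ζ with h | h
    · exact h
    · rw [hinv']
      exact pow_mem h _
  exact ⟨hζA, by rw [hinv]; exact pow_mem hζA _⟩

include hq hA in
/-- a `q`-th root of unity reduces to `1`. -/
theorem Normalise_residue_zeta {ζ : Kbar} (hζ : ζ ^ q = 1) (h : ζ ∈ A) :
    IsLocalRing.residue ↥A ⟨ζ, h⟩ = 1 := by
  have hζ0 : ζ ≠ 0 := by
    rintro rfl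
    rw [zero_pow hq.ne_zero] at hζ
    exact zero_ne_one hζ
  have h' := (Normalise_zeta_mem A hq.pos hζ).2
  let z : (↥A)ˣ := ⟨⟨ζ, h⟩, ⟨ζ⁻¹, h'⟩, Subtype.ext (mul_inv_cancel₀ hζ0),
    Subtype.ext (inv_mul_cancel₀ hζ0)⟩
  have hz : z ^ q = 1 := by
    apply Units.ext
    apply Subtype.ext
    show ((((z ^ q : (↥A)ˣ) : ↥A)) : Kbar) = 1
    rw [Units.val_pow_eq_pow_val, SubmonoidClass.coe_pow]
    exact hζ
  exact Hecke.residue_eq_one_of_pow_eq_one A hq hA z hz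

include hq in
theorem Normalise_twist_mem {ζ : Kbar} (hζ : IsPrimitiveRoot ζ q) {x : LaurentSeries Kbar}
    (hx : x ∈ gRing A) (i : ℕ) :
    Fermat.Agent.S24.twist (ζ ^ i) (pow_ne_zero _ (hζ.ne_zero hq.ne_zero)) x ∈ gRing A := by
  have h1 : (ζ ^ i) ^ q = 1 := by rw [← pow_mul, mul_comm, pow_mul, hζ.pow_eq_one, one_pow]
  obtain ⟨h2, h3⟩ := Normalise_zeta_mem A hq.pos h1
  exact twist_mem_gRing A _ h2 h3 hx

include hq hA in
theorem Normalise_gRes_twist {ζ : Kbar} (hζ : IsPrimitiveRoot ζ q) {x : LaurentSeries Kbar}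
    (hx : x ∈ gRing A) (i : ℕ) :
    gRes A ⟨_, Normalise_twist_mem A q hq hζ hx i⟩ = gRes A ⟨x, hx⟩ := by
  have h1 : (ζ ^ i) ^ q = 1 := by rw [← pow_mul, mul_comm, pow_mul, hζ.pow_eq_one, one_pow]
  obtain ⟨h2, h3⟩ := Normalise_zeta_mem A hq.pos h1
  exact gRes_twist A _ h2 h3 (Normalise_residue_zeta A q hq hA h1 h2) hx

include hq hA in
/-- (N1) the product `∏_i x(ζ^i t)` of a Gauss integral `x` is Gauss integral with residue `x̄^q`
(`twist_mem_gRing`, `gRes_twist`, `Hecke.residue_eq_one_of_pow_eq_one`; `ζ, ζ⁻¹ ∈ A` as in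
`Hecke.exists_red_heckeNorm`). -/
theorem prod_twist_mem_gRing {ζ : Kbar} (hζ : IsPrimitiveRoot ζ q) {x : LaurentSeries Kbar}
    (hx : x ∈ gRing A) :
    ∏ i : Fin q, Fermat.Agent.S24.twist (ζ ^ (i : ℕ)) (pow_ne_zero _ (hζ.ne_zero hq.ne_zero)) x
      ∈ gRing A :=
  Subring.prod_mem _ fun i _ => Normalise_twist_mem A q hq hζ hx i

theorem gRes_prod_twist {ζ : Kbar} (hζ : IsPrimitiveRoot ζ q) {x : LaurentSeries Kbar}
    (hx : x ∈ gRing A) :
    gRes A ⟨_, prod_twist_mem_gRing A q hq hA hζ hx⟩ = gRes A ⟨x, hx⟩ ^ q := by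
  have e : (⟨_, prod_twist_mem_gRing A q hq hA hζ hx⟩ : ↥(gRing A)) =
      ∏ i : Fin q, (⟨_, Normalise_twist_mem A q hq hζ hx i⟩ : ↥(gRing A)) := by
    apply Subtype.ext
    simp only [SubmonoidClass.coe_finsetProd]
  rw [e, map_prod,
    Finset.prod_congr rfl fun (i : Fin q) _ => Normalise_gRes_twist A q hq hA hζ hx (i : ℕ),
    Finset.prod_const, Finset.card_univ, Fintype.card_fin]

include hq hqM hA in
/-- (N2) **the case `ȳ = 0`, `(W y)‾ ≠ 0`.**
PROOF. `qExpand_normAlpha`: `(Nm y)(t^q) = y(t^q) T`, `T = ∏ (W y)(ζ^i t)` a Gauss unit with residue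
`r₂^q` (N1).  `Nm y ≠ 0` lies in `FN M`: `Gauss.normalise A M` gives `Nm y = C a * u'`, `u'` a Gauss
unit with residue in the level `M` field (`Gauss.gRes_mem`).  So `(y / a)(t^q) = u'(t^q) T⁻¹ ∈ gRing`,
hence `y / a ∈ gRing` (`mem_gRing_of_qExpand`) and
`(gRes (y/a))(t^q) = ū'(t^q) / r₂^q = (ū' / Fr r₂)(t^q)` (`gRes_qExpand`,
`Hecke.pow_char_eq_qExpand`, `coeffMap_mem_fullC`, `qExpand_injective`). -/
theorem normalise_of_W_unit (y : FN (M * q))
    (h₂ : ((W M q hq hqM y : FN (M * q)) : LaurentSeries Kbar) ∈ gRing A)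
    (hr₂ : gRes A ⟨_, h₂⟩ ≠ 0)
    (hr₂' : gRes A ⟨_, h₂⟩ ∈ modularFunctionFieldFullC (IsLocalRing.ResidueField ↥A) M) :
    ∃ (a : Kbar) (u : ↥(gRing A)), a ≠ 0 ∧
      (y : LaurentSeries Kbar) = HahnSeries.C a * (u : LaurentSeries Kbar) ∧ gRes A u ≠ 0 ∧
      gRes A u ∈ modularFunctionFieldFullC (IsLocalRing.ResidueField ↥A) M := by
  have : Fact q.Prime := ⟨hq⟩
  have := Hecke.charP_residueField A hq hA
  obtain ⟨ζ, hζ⟩ := HasEnoughRootsOfUnity.exists_primitiveRoot Kbar q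
  have hM : ((M : ℕ) : IsLocalRing.ResidueField ↥A) ≠ 0 := by
    rw [Ne, CharP.cast_eq_zero_iff (IsLocalRing.ResidueField ↥A) q]
    exact hqM
  -- `y ≠ 0`
  have hy0 : y ≠ 0 := by
    rintro rfl
    apply hr₂
    have : (⟨((W M q hq hqM (0 : FN (M * q)) : FN (M * q)) : LaurentSeries Kbar), h₂⟩ :
        ↥(gRing A)) = 0 := Subtype.ext (by
      show ((W M q hq hqM (0 : FN (M * q)) : FN (M * q)) : LaurentSeries Kbar) = 0
      rw [map_zero]; rfl)
    rw [this, map_zero]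
  set r₂ := gRes A ⟨_, h₂⟩ with hr₂def
  -- the product `T`
  have hT := prod_twist_mem_gRing A q hq hA hζ h₂
  have hTres := gRes_prod_twist A q hq hA hζ h₂
  set T : LaurentSeries Kbar := ∏ i : Fin q, Fermat.Agent.S24.twist (ζ ^ (i : ℕ))
    (pow_ne_zero _ (hζ.ne_zero hq.ne_zero))
    ((W M q hq hqM y : FN (M * q)) : LaurentSeries Kbar) with hTdef
  have hTres0 : gRes A ⟨T, hT⟩ ≠ 0 := by rw [hTres]; exact pow_ne_zero _ hr₂
  have hTinv := inv_mem_gRing_of_gRes_ne_zero A ⟨T, hT⟩ hTres0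
  have hT0 : T ≠ 0 := by
    intro h0
    apply hTres0
    have : (⟨T, hT⟩ : ↥(gRing A)) = 0 := Subtype.ext h0
    rw [this, map_zero]
  have key := qExpand_normAlpha M q hq hqM hζ y
  rw [← hTdef] at key
  -- normalisation of the norm
  have hN0 := normAlpha_ne_zero M q hy0
  set Ny : FN M := normAlong (heckeAlphaBar Kbar M q) y with hNy
  have hNmem : (Ny : LaurentSeries Kbar) ∈ modularFunctionFieldFullC Kbar M := by
    rw [← Igusa.modularFunctionFieldBar_eq]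
    exact Ny.2
  have hN0' : (Ny : LaurentSeries Kbar) ≠ 0 := fun h => hN0 (Subtype.ext h)
  obtain ⟨a, u', ha, hu'F, hNu, hu'0⟩ := Gauss.normalise A M hM _ hNmem hN0'
  have hCa : (HahnSeries.C a : LaurentSeries Kbar) ≠ 0 := by rw [Ne, map_eq_zero]; exact ha
  -- `y' = y / a`
  have hy' : qExpand Kbar q ((HahnSeries.C a)⁻¹ * (y : LaurentSeries Kbar)) =
      qExpand Kbar q (u' : LaurentSeries Kbar) * T⁻¹ := by
    rw [hNu, map_mul, qExpand_C] at key
    rw [map_mul, map_inv₀, qExpand_C, eq_mul_inv_iff_mul_eq₀ hT0, mul_assoc, ← key,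
      inv_mul_cancel_left₀ hCa]
  have hqu' := qExpand_mem_gRing A q u'.2
  have hmem1 : qExpand Kbar q ((HahnSeries.C a)⁻¹ * (y : LaurentSeries Kbar)) ∈ gRing A := by
    rw [hy']
    exact mul_mem hqu' hTinv
  have hmem : (HahnSeries.C a)⁻¹ * (y : LaurentSeries Kbar) ∈ gRing A :=
    mem_gRing_of_qExpand A q hmem1
  -- the residue
  have hFr0 : coeffMap (frobenius (IsLocalRing.ResidueField ↥A) q) r₂ ≠ 0 := by
    intro h
    apply hr₂
    exact (map_eq_zero_iff _ (Fermat.Agent.S28.coeffMap_injective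
      (frobenius (IsLocalRing.ResidueField ↥A) q) (RingHom.injective _))).mp h
  have hres : gRes A ⟨_, hmem⟩ =
      gRes A u' / coeffMap (frobenius (IsLocalRing.ResidueField ↥A) q) r₂ := by
    apply qExpand_injective (R := IsLocalRing.ResidueField ↥A) (N := q)
    rw [← gRes_qExpand A q hmem, map_div₀, ← Hecke.pow_char_eq_qExpand, ← hTres,
      ← gRes_qExpand A q u'.2, div_eq_mul_inv, ← gRes_inv A ⟨T, hT⟩ hTinv, ← map_mul]
    congr 1
    exact Subtype.ext hy'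
  refine ⟨a, ⟨_, hmem⟩, ha, ?_, ?_, ?_⟩
  · show (y : LaurentSeries Kbar) = HahnSeries.C a * ((HahnSeries.C a)⁻¹ * (y : LaurentSeries Kbar))
    rw [mul_inv_cancel_left₀ hCa]
  · rw [hres]
    exact div_ne_zero hu'0 hFr0
  · rw [hres]
    exact div_mem (Gauss.gRes_mem A M hM u' hu'F) (coeffMap_mem_fullC _ M _ hr₂')

include hq hqM hA in
/-- (N3) **normalisation at level `M q`.** (`pair_normalise` + (N2).) -/
theorem normalise1 (y : FN (M * q)) (hy : y ≠ 0) :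
    ∃ (a : Kbar) (u : ↥(gRing A)), a ≠ 0 ∧
      (y : LaurentSeries Kbar) = HahnSeries.C a * (u : LaurentSeries Kbar) ∧ gRes A u ≠ 0 ∧
      gRes A u ∈ modularFunctionFieldFullC (IsLocalRing.ResidueField ↥A) M := by
  obtain ⟨a, y₁, h₁, h₂, ha, hy1, hm₁, hm₂, hne⟩ := pair_normalise A M q hq hqM hA y hy
  have hcoe : (y : LaurentSeries Kbar) = HahnSeries.C a * (y₁ : LaurentSeries Kbar) := by
    rw [hy1, IntermediateField.coe_mul, IntermediateField.coe_algebraMap_apply, algebraMap_eq_C]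
  by_cases h0 : gRes A ⟨_, h₁⟩ = 0
  · obtain ⟨a', u, ha', hu, hu0, hum⟩ :=
      normalise_of_W_unit A M q hq hqM hA y₁ h₂ (hne.resolve_left (not_not.mpr h0)) hm₂
    refine ⟨a * a', u, mul_ne_zero ha ha', ?_, hu0, hum⟩
    rw [hcoe, hu, map_mul, mul_assoc]
  · exact ⟨a, ⟨_, h₁⟩, ha, hcoe, h0, hm₁⟩

include hq hqM hA in
/-- (N4) the residue of a Gauss integral element of `FN (M q)` lies in the level `M` field. -/
theorem gRes_mem1 (y : FN (M * q)) (hy : (y : LaurentSeries Kbar) ∈ gRing A) :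
    gRes A ⟨_, hy⟩ ∈ modularFunctionFieldFullC (IsLocalRing.ResidueField ↥A) M := by
  by_cases h0 : y = 0
  · subst h0
    have : (⟨((0 : FN (M * q)) : LaurentSeries Kbar), hy⟩ : ↥(gRing A)) = 0 := rfl
    rw [this, map_zero]
    exact zero_mem _
  obtain ⟨a, u, ha, hyu, hu0, hum⟩ := normalise1 A M q hq hqM hA y h0
  have haA : a ∈ A := (C_mul_unit_mem_iff A a u hu0).mp (hyu ▸ hy)
  have hC : HahnSeries.C a ∈ gRing A := (C_mem_gRing_iff A a).mpr haA
  have : (⟨(y : LaurentSeries Kbar), hy⟩ : ↥(gRing A)) = ⟨_, hC⟩ * u := Subtype.ext hyu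
  rw [this, map_mul, gRes_C A ⟨a, haA⟩ hC, ← algebraMap_eq_C]
  exact mul_mem (IntermediateField.algebraMap_mem _ _) hum

end Fermat.Agent.DR.Conc
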