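import Fermat.Agent.DR.Conc.XiDeg
import Fermat.Agent.DR.Conc.LiftAbs

/-!
# DR/Conc, block O: old functions in the two charts of the coordinate `x`, and the swap `W`
-/

set_option autoImplicit false
set_option linter.unusedSectionVars false

noncomputable section

namespace Fermat.Agent.DR.Conc

open ModularCurve AlgebraicCurve Fermat.Agent.S24 Fermat.Agent.GAL Fermat.Agent.GAL.Gauss
  Fermat.Agent.GAL.RED Fermat.Agent.DR.Gal Fermat.Agent.Lib.RR

section generic

variable {K F : Type*} [Field K] [Field F] [Algebra K F]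

theorem semilinear_mem_regOff (g : SemilinearAut K F) {x y : F} (hx : g • x = x)
    (hy : y ∈ regOff K x) : g • y ∈ regOff K x := by
  intro P hP
  have key : ∀ z : F, z ∈ (g⁻¹ • P).toValuationSubring ↔ g • z ∈ P.toValuationSubring := by
    intro z
    rw [SemilinearAut.smul_toValuationSubring,
      ValuationSubring.mem_pointwise_smul_iff_inv_smul_mem, inv_inv]
  rw [← key]
  apply hy
  rw [key, hx]
  exact hP

theorem old_mem_iff (P : Place K F) (f : F) : f ∈ P.toValuationSubring ↔ 0 ≤ P.ord f := by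
  rcases eq_or_ne f 0 with rfl | hf
  · simp
  · exact Fermat.Agent.S24.mem_iff_ord_nonneg P hf

theorem mem_regOut_polesOf_iff [Lib.RR.IsFF K F] (σ u : F) :
    u ∈ Nodal.regOut (Nodal.polesOf (k := K) σ) ↔ u ∈ regOff K σ := by
  rw [Nodal.mem_regOut, mem_regOff]
  refine forall_congr' fun P => ?_
  rw [old_mem_iff P σ]
  simp only [Nodal.polesOf, Set.mem_ofPred_eq, not_lt]

theorem mem_regOut_zerosOf_iff [Lib.RR.IsFF K F] (σ u : F) :
    u ∈ Nodal.regOut (Nodal.zerosOf (k := K) σ) ↔ u ∈ regOff K σ⁻¹ := by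
  rw [Nodal.mem_regOut, mem_regOff]
  refine forall_congr' fun P => ?_
  rw [old_mem_iff P σ⁻¹, P.ord_inv]
  simp only [Nodal.zerosOf, Set.mem_ofPred_eq, not_lt, Left.nonneg_neg_iff]

theorem algEquiv_mem_rr [Lib.RR.IsFF K F] (w : F ≃ₐ[K] F) {x y : F} (hx : w x = x) {a : ℕ}
    (hy : y ∈ riemannRochSpace (a • RED.poleDiv (K := K) x)) :
    w y ∈ riemannRochSpace (a • RED.poleDiv (K := K) x) := by
  have hD : (0 : Divisor K F) ≤ a • RED.poleDiv (K := K) x := by
    intro P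
    rw [Finsupp.smul_apply, RED.poleDiv_apply]
    simp only [Finsupp.coe_zero, Pi.zero_apply, nsmul_eq_mul]
    positivity
  rw [Abs.poleBound_mem_L_iff _ _ hD] at hy ⊢
  intro P
  have h1 := hy ((SemilinearAut.ofAlgAut w)⁻¹ • P)
  have h2 : RED.poleDiv (K := K) (w y) P =
      RED.poleDiv (K := K) y ((SemilinearAut.ofAlgAut w)⁻¹ • P) := by
    rw [Coord_poleDiv_algEquiv, SemilinearAut.divisor_smul_apply]
  have h3 : RED.poleDiv (K := K) x P =
      RED.poleDiv (K := K) x ((SemilinearAut.ofAlgAut w)⁻¹ • P) := by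
    conv_lhs => rw [← hx]
    rw [Coord_poleDiv_algEquiv, SemilinearAut.divisor_smul_apply]
  rw [Finsupp.smul_apply] at h1 ⊢
  rw [h2, h3]
  exact h1

end generic

variable (A : ValuationSubring Kbar) (M q : ℕ) [NeZero M] [NeZero q] (hq : q.Prime)
  (hqM : ¬ q ∣ M) (hA : A.LiesOverPrime q)
  [Fact q.Prime] [CharP (IsLocalRing.ResidueField ↥A) q] [PerfectRing (IsLocalRing.ResidueField ↥A) q]
  [IsAlgClosed (IsLocalRing.ResidueField ↥A)]
  [Lib.RR.IsFF (IsLocalRing.ResidueField ↥A) (Igusa.E (IsLocalRing.ResidueField ↥A) M)]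
  [Lib.RR.IsFF Kbar (FN (M * q))] [Lib.RR.IsFF Kbar (FN M)]

theorem alpha_mem_TT_O {u : FN M} (hu : u ∈ (RMq A M q hq hqM hA).O) :
    heckeAlphaBar Kbar M q u ∈ (TT A M q hq hqM hA).O := by
  rw [mem_TT_O_iff]
  exact ⟨(alpha_mem_R1_O_iff A M q hq hqM hA u).2 hu, (alpha_mem_R2_O_iff A M q hq hqM hA u).2 hu⟩

theorem degree_xiM_le :
    Divisor.degree (RED.poleDiv (K := Kbar) (xiM M q)) ≤
      Divisor.degree (RED.poleDiv (K := IsLocalRing.ResidueField ↥A)
        ((RMq A M q hq hqM hA).red (xiM M q))) := by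
  rw [RM_red_xiM, degree_poleDiv_xiM M q hq,
    degree_poleDiv_xib _ M q (natCast_M_ne_zero A M q hq hqM hA)]

theorem red_xiM_not_mem_range : (RMq A M q hq hqM hA).red (xiM M q) ∉
    Set.range (algebraMap (IsLocalRing.ResidueField ↥A)
      (Igusa.E (IsLocalRing.ResidueField ↥A) M)) := by
  rw [RM_red_xiM]
  exact xib_not_mem_range _ M q (natCast_M_ne_zero A M q hq hqM hA)

/-- **old functions, first chart.** -/
theorem old_regOff (hg : GoodRed A M) (u : Igusa.E (IsLocalRing.ResidueField ↥A) M)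
    (hu : u ∈ regOff (IsLocalRing.ResidueField ↥A) (sig (IsLocalRing.ResidueField ↥A) M q)) :
    ∃ z : FN (M * q), z ∈ regOff Kbar (xC M q) ∧ z ∈ (TT A M q hq hqM hA).O ∧
      (R1 A M q hq hqM hA).red z = u ∧
      (R2 A M q hq hqM hA).red z = Phi (IsLocalRing.ResidueField ↥A) M q u := by
  rw [regOff_sig] at hu
  obtain ⟨v, h1, h2, h3⟩ := exists_lift_regOff_abs (RMq A M q hq hqM hA) (RM_isCartesian A M _) hg
    (xiM M q) (red_xiM_not_mem_range A M q hq hqM hA) (degree_xiM_le A M q hq hqM hA) u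
    (by rwa [RM_red_xiM])
  refine ⟨heckeAlphaBar Kbar M q v, ?_, alpha_mem_TT_O A M q hq hqM hA h2, ?_, ?_⟩
  · rw [xC_eq]
    exact regOff_le_of_poleDiv_mul (poleDiv_xC A M q hq hqM hA)
      (Coord_map_mem_regOff _ (Hecke.integral_alpha M q) h1)
  · rw [R1_red_alpha, h3]
  · rw [R2_red_alpha, h3]

/-- **old functions, second chart.** -/
theorem old_regOff_inv (hg : GoodRed A M) (u : Igusa.E (IsLocalRing.ResidueField ↥A) M)
    (hu : u ∈ regOff (IsLocalRing.ResidueField ↥A) (sig (IsLocalRing.ResidueField ↥A) M q)⁻¹) :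
    ∃ z : FN (M * q), z ∈ regOff Kbar (xC M q)⁻¹ ∧ z ∈ (TT A M q hq hqM hA).O ∧
      (R1 A M q hq hqM hA).red z = u ∧
      (R2 A M q hq hqM hA).red z = Phi (IsLocalRing.ResidueField ↥A) M q u := by
  rw [regOff_sig_inv] at hu
  obtain ⟨v, h1, h2, h3⟩ := exists_lift_regOff_abs_inv (RMq A M q hq hqM hA) (RM_isCartesian A M _)
    hg (xiM M q) (red_xiM_not_mem_range A M q hq hqM hA) (degree_xiM_le A M q hq hqM hA) u
    (by rwa [RM_red_xiM])
  refine ⟨heckeAlphaBar Kbar M q v, ?_, alpha_mem_TT_O A M q hq hqM hA h2, ?_, ?_⟩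
  · rw [xC_eq, mul_inv]
    have h4 := Coord_map_mem_regOff _ (Hecke.integral_alpha M q) h1
    rw [map_inv₀] at h4
    exact regOff_le_of_poleDiv_mul (poleDiv_xC_inv A M q hq hqM hA) h4
  · rw [R1_red_alpha, h3]
  · rw [R2_red_alpha, h3]

/-- **`Old`** in the format of `DR/Gal/DR2.lean`. -/
theorem old_frob (hg : GoodRed A M) (v : Igusa.E (IsLocalRing.ResidueField ↥A) M)
    (hv : v ∈ regOff (IsLocalRing.ResidueField ↥A) (sig (IsLocalRing.ResidueField ↥A) M q)) :
    ∃ z ∈ regOff Kbar (xC M q), z ∈ (R1 A M q hq hqM hA).O ∧ z ∈ (R2 A M q hq hqM hA).O ∧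
      (R1 A M q hq hqM hA).red z = FrE (IsLocalRing.ResidueField ↥A) M q v ∧
      (R2 A M q hq hqM hA).red z = v ^ q := by
  have h1 : FrE (IsLocalRing.ResidueField ↥A) M q v ∈
      regOff (IsLocalRing.ResidueField ↥A) (sig (IsLocalRing.ResidueField ↥A) M q) :=
    semilinear_mem_regOff (Fr (IsLocalRing.ResidueField ↥A) M q)
      (FrE_sig (IsLocalRing.ResidueField ↥A) M q) hv
  obtain ⟨z, hz, hzO, hz1, hz2⟩ := old_regOff A M q hq hqM hA hg _ h1
  rw [mem_TT_O_iff] at hzO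
  exact ⟨z, hz, hzO.1, hzO.2, hz1, by rw [hz2, Phi_FrE]⟩

end Fermat.Agent.DR.Conc
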