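import Fermat.Agent.DR.Conc.Basis

/-!
# DR/Conc, block B4: `pair_normalise`
-/

set_option autoImplicit false
set_option linter.unusedSectionVars false

noncomputable section

namespace Fermat.Agent.DR.Conc

open ModularCurve AlgebraicCurve Fermat.Agent.S24 Fermat.Agent.GAL Fermat.Agent.GAL.Gauss

/-! ### bookkeeping: "`x` is Gauss integral with reduction `r`" -/

section Red

variable {K : Type*} [Field K] (A : ValuationSubring K)

/-- `x` is Gauss integral with reduction `r`. -/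
def PairNormRed (x : LaurentSeries K) (r : LaurentSeries (IsLocalRing.ResidueField ↥A)) : Prop :=
  ∃ h : x ∈ gRing A, gRes A ⟨x, h⟩ = r

namespace PairNormRed

variable {A}
variable {x y : LaurentSeries K} {r s : LaurentSeries (IsLocalRing.ResidueField ↥A)}

theorem mk' (h : x ∈ gRing A) : PairNormRed A x (gRes A ⟨x, h⟩) := ⟨h, rfl⟩

theorem mem (h : PairNormRed A x r) : x ∈ gRing A := h.1

theorem eq (h : PairNormRed A x r) (h' : x ∈ gRing A) : gRes A ⟨x, h'⟩ = r := h.2

theorem mul (h : PairNormRed A x r) (h' : PairNormRed A y s) : PairNormRed A (x * y) (r * s) := by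
  obtain ⟨hx, h1⟩ := h
  obtain ⟨hy, h2⟩ := h'
  refine ⟨(gRing A).mul_mem hx hy, ?_⟩
  rw [← h1, ← h2, ← map_mul]
  rfl

theorem add (h : PairNormRed A x r) (h' : PairNormRed A y s) : PairNormRed A (x + y) (r + s) := by
  obtain ⟨hx, h1⟩ := h
  obtain ⟨hy, h2⟩ := h'
  refine ⟨(gRing A).add_mem hx hy, ?_⟩
  rw [← h1, ← h2, ← map_add]
  rfl

theorem sub (h : PairNormRed A x r) (h' : PairNormRed A y s) : PairNormRed A (x - y) (r - s) := by
  obtain ⟨hx, h1⟩ := h
  obtain ⟨hy, h2⟩ := h'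
  refine ⟨(gRing A).sub_mem hx hy, ?_⟩
  rw [← h1, ← h2, ← map_sub]
  rfl

theorem zero : PairNormRed A 0 0 := ⟨(gRing A).zero_mem, map_zero (gRes A)⟩

theorem one : PairNormRed A 1 1 := ⟨(gRing A).one_mem, map_one (gRes A)⟩

theorem sum {ι : Type*} (s : Finset ι) (f : ι → LaurentSeries K)
    (g : ι → LaurentSeries (IsLocalRing.ResidueField ↥A)) (h : ∀ i ∈ s, PairNormRed A (f i) (g i)) :
    PairNormRed A (∑ i ∈ s, f i) (∑ i ∈ s, g i) := by
  classical
  induction s using Finset.induction_on with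
  | empty => simpa using zero
  | insert a s ha ih =>
    rw [Finset.sum_insert ha, Finset.sum_insert ha]
    exact (h a (Finset.mem_insert_self a s)).add
      (ih fun i hi => h i (Finset.mem_insert_of_mem hi))

theorem iA (z : LaurentSeries ↥A) : PairNormRed A (iA A z) (pA A z) :=
  ⟨iA_mem_gRing A z, gRes_iA A z⟩

theorem qExp (d : ℕ) [NeZero d] (h : PairNormRed A x r) :
    PairNormRed A (qExpand K d x) (qExpand _ d r) := by
  obtain ⟨hx, h1⟩ := h
  refine ⟨qExpand_mem_gRing A d hx, ?_⟩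
  rw [← h1]
  exact gRes_qExpand A d hx

end PairNormRed

end Red

variable (A : ValuationSubring Kbar) (M q : ℕ) [NeZero M] [NeZero q] (hq : q.Prime)
  (hqM : ¬ q ∣ M) (hA : A.LiesOverPrime q)

/-- an `A`-integral series of the level `M` field, as an element of `FN M`. -/
def zFN (z : LaurentSeries ↥A) (hz : iA A z ∈ modularFunctionFieldFullC Kbar M) : FN M :=
  ⟨iA A z, by rw [Igusa.modularFunctionFieldBar_eq]; exact hz⟩

/-- first kind of basis vectors: `eps * α z`; pair of reductions `(z̄, 0)`. -/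
def bInl (z : LaurentSeries ↥A) (hz : iA A z ∈ modularFunctionFieldFullC Kbar M) : FN (M * q) :=
  eps M q * heckeAlphaBar Kbar M q (zFN A M z hz)

/-- second kind of basis vectors: `(1 - eps) * β z`; pair of reductions `(0, z̄)`. -/
def bInr (z : LaurentSeries ↥A) (hz : iA A z ∈ modularFunctionFieldFullC Kbar M) : FN (M * q) :=
  (1 - eps M q) * heckeBetaBar Kbar M q (zFN A M z hz)

include hq hA in
theorem pairNorm_red_eps :
    PairNormRed A ((eps M q : FN (M * q)) : LaurentSeries Kbar) 1 :=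
  ⟨eps_mem_gRing M q hq A hA, gRes_eps M q hq A hA⟩

include hq hA in
theorem pairNorm_red_one_sub_eps :
    PairNormRed A ((1 - eps M q : FN (M * q)) : LaurentSeries Kbar) 0 := by
  have h := PairNormRed.one.sub (pairNorm_red_eps A M q hq hA)
  rw [sub_self] at h
  exact h

include hq hA in
theorem pairNorm_red_bInl (z : LaurentSeries ↥A)
    (hz : iA A z ∈ modularFunctionFieldFullC Kbar M) :
    PairNormRed A ((bInl A M q z hz : FN (M * q)) : LaurentSeries Kbar) (pA A z) := by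
  have h := (pairNorm_red_eps A M q hq hA).mul (PairNormRed.iA z)
  rw [one_mul] at h
  exact h

include hq hA in
theorem pairNorm_red_bInr (z : LaurentSeries ↥A)
    (hz : iA A z ∈ modularFunctionFieldFullC Kbar M) :
    PairNormRed A ((bInr A M q z hz : FN (M * q)) : LaurentSeries Kbar) 0 := by
  have h := (pairNorm_red_one_sub_eps A M q hq hA).mul ((PairNormRed.iA z).qExp q)
  rw [zero_mul] at h
  exact h

include hA in
theorem pairNorm_W_bInl (z : LaurentSeries ↥A)
    (hz : iA A z ∈ modularFunctionFieldFullC Kbar M) :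
    W M q hq hqM (bInl A M q z hz) = bInr A M q z hz := by
  rw [bInl, bInr, map_mul, W_eps M q hq hqM A hA, W_alpha]

include hA in
theorem pairNorm_W_bInr (z : LaurentSeries ↥A)
    (hz : iA A z ∈ modularFunctionFieldFullC Kbar M) :
    W M q hq hqM (bInr A M q z hz) = bInl A M q z hz := by
  rw [bInl, bInr, map_mul, map_sub, map_one, W_eps M q hq hqM A hA, W_beta, sub_sub_cancel]

include hq hA in
theorem bInl_mem (z : LaurentSeries ↥A) (hz : iA A z ∈ modularFunctionFieldFullC Kbar M) :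
    ((bInl A M q z hz : FN (M * q)) : LaurentSeries Kbar) ∈ gRing A :=
  (pairNorm_red_bInl A M q hq hA z hz).mem

theorem gRes_bInl (z : LaurentSeries ↥A) (hz : iA A z ∈ modularFunctionFieldFullC Kbar M) :
    gRes A ⟨_, bInl_mem A M q hq hA z hz⟩ = pA A z :=
  (pairNorm_red_bInl A M q hq hA z hz).eq _

include hA in
theorem W_bInl_mem (z : LaurentSeries ↥A) (hz : iA A z ∈ modularFunctionFieldFullC Kbar M) :
    ((W M q hq hqM (bInl A M q z hz) : FN (M * q)) : LaurentSeries Kbar) ∈ gRing A := by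
  rw [pairNorm_W_bInl A M q hq hqM hA]
  exact (pairNorm_red_bInr A M q hq hA z hz).mem

theorem gRes_W_bInl (z : LaurentSeries ↥A) (hz : iA A z ∈ modularFunctionFieldFullC Kbar M) :
    gRes A ⟨_, W_bInl_mem A M q hq hqM hA z hz⟩ = 0 := by
  have h : PairNormRed A ((W M q hq hqM (bInl A M q z hz) : FN (M * q)) : LaurentSeries Kbar) 0 := by
    rw [pairNorm_W_bInl A M q hq hqM hA]
    exact pairNorm_red_bInr A M q hq hA z hz
  exact h.eq _

include hq hA in
theorem bInr_mem (z : LaurentSeries ↥A) (hz : iA A z ∈ modularFunctionFieldFullC Kbar M) :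
    ((bInr A M q z hz : FN (M * q)) : LaurentSeries Kbar) ∈ gRing A :=
  (pairNorm_red_bInr A M q hq hA z hz).mem

theorem gRes_bInr (z : LaurentSeries ↥A) (hz : iA A z ∈ modularFunctionFieldFullC Kbar M) :
    gRes A ⟨_, bInr_mem A M q hq hA z hz⟩ = 0 :=
  (pairNorm_red_bInr A M q hq hA z hz).eq _

include hA in
theorem W_bInr_mem (z : LaurentSeries ↥A) (hz : iA A z ∈ modularFunctionFieldFullC Kbar M) :
    ((W M q hq hqM (bInr A M q z hz) : FN (M * q)) : LaurentSeries Kbar) ∈ gRing A := by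
  rw [pairNorm_W_bInr A M q hq hqM hA]
  exact (pairNorm_red_bInl A M q hq hA z hz).mem

theorem gRes_W_bInr (z : LaurentSeries ↥A) (hz : iA A z ∈ modularFunctionFieldFullC Kbar M) :
    gRes A ⟨_, W_bInr_mem A M q hq hqM hA z hz⟩ = pA A z := by
  have h : PairNormRed A ((W M q hq hqM (bInr A M q z hz) : FN (M * q)) : LaurentSeries Kbar)
      (pA A z) := by
    rw [pairNorm_W_bInr A M q hq hqM hA]
    exact pairNorm_red_bInl A M q hq hA z hz
  exact h.eq _

/-- for `c ∈ Kbar(j) ⊆ FN (M q)`: `(W c)(t) = c(t^q)`. -/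
theorem coe_W_of_mem_adjoin (c : FN (M * q)) (hc : c ∈ IntermediateField.adjoin Kbar {jF (M * q)}) :
    ((W M q hq hqM c : FN (M * q)) : LaurentSeries Kbar) =
      qExpand Kbar q (c : LaurentSeries Kbar) := by
  have h : c ∈ (IntermediateField.adjoin Kbar {jF M}).map (heckeAlphaBar Kbar M q) := by
    rw [IntermediateField.adjoin_map, Set.image_singleton, DegreeAlpha.alpha_jF]
    exact hc
  obtain ⟨u, -, rfl⟩ := h
  show ((W M q hq hqM (heckeAlphaBar Kbar M q u) : FN (M * q)) : LaurentSeries Kbar) =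
      qExpand Kbar q ((heckeAlphaBar Kbar M q u : FN (M * q)) : LaurentSeries Kbar)
  rw [W_alpha, coe_heckeBetaBar, coe_heckeAlphaBar]

theorem coe_mem_adjoin_j (c : FN (M * q)) (hc : c ∈ IntermediateField.adjoin Kbar {jF (M * q)}) :
    (c : LaurentSeries Kbar) ∈ IntermediateField.adjoin Kbar {jqModC Kbar} := by
  have h : (modularFunctionFieldBar (M * q)).val c ∈
      (IntermediateField.adjoin Kbar {jF (M * q)}).map (modularFunctionFieldBar (M * q)).val :=
    ⟨c, hc, rfl⟩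
  rw [IntermediateField.adjoin_map, Set.image_singleton] at h
  have h2 : (modularFunctionFieldBar (M * q)).val (jF (M * q)) = jqModC Kbar :=
    Igusa.LevelDeg_coeffEmb_jq
  rw [h2] at h
  exact h

/-- `ι₁ y = y(t)`. -/
def pairNormI1 : FN (M * q) →+* LaurentSeries Kbar :=
  (modularFunctionFieldBar (M * q)).val.toRingHom

/-- `ι₂ y = (W y)(t)`. -/
def pairNormI2 : FN (M * q) →+* LaurentSeries Kbar :=
  (pairNormI1 M q).comp (W M q hq hqM).toRingEquiv.toRingHom

theorem pairNormI1_apply (x : FN (M * q)) : pairNormI1 M q x = (x : LaurentSeries Kbar) := rfl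

theorem pairNormI2_apply (x : FN (M * q)) :
    pairNormI2 M q hq hqM x = ((W M q hq hqM x : FN (M * q)) : LaurentSeries Kbar) := rfl

theorem pairNormI1_algebraMap (a : Kbar) :
    pairNormI1 M q (algebraMap Kbar (FN (M * q)) a) = HahnSeries.C a := by
  rw [← algebraMap_eq_C]
  rfl

theorem pairNormI2_algebraMap (a : Kbar) :
    pairNormI2 M q hq hqM (algebraMap Kbar (FN (M * q)) a) = HahnSeries.C a := by
  rw [pairNormI2_apply, AlgEquiv.commutes, ← pairNormI1_apply, pairNormI1_algebraMap]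

include hA in
/-- (B4) **pair normalisation**: every `y ≠ 0` of `FN (M q)` is `a * y₁`, `a` a nonzero constant,
`y₁` and `W y₁` Gauss integral, with reductions in the level `M` field over `k`, not both zero.
PROOF. `pair_scale` with `E = Kbar⟮jF (M q)⟯` (`Hecke.finrank_jF`, `finiteDimensional_jF`,
`dedekindPsi (M q) = (q + 1) dedekindPsi M`, `Igusa.finrank_jb`/`exists_gaussBasis` for `n = ψ(M)`),
`L = Kbar((t))`, `O = gRing A`, `ρ = gRes A`, `ι₁ = val`, `ι₂ = val ∘ W`,
index type `Fin n ⊕ Fin n × Fin q`, `b` as in the header;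
`hval` = `ratJ_val`; `h12`: for `c ∈ Kbar(j)`, `ι₂ c = (ι₁ c)(t^q)` (`W_jN`) and `qExpand_mem_gRing`;
`hind`: first sum + `GaussBasis.indep_res`, second sum + `gRes_qExpand` + `indep_frob`.
Finally `c₀ = C a * (Gauss unit of Kbar(j))` by `ratJ_normalise`. -/
theorem pair_normalise (y : FN (M * q)) (hy : y ≠ 0) :
    ∃ (a : Kbar) (y₁ : FN (M * q)) (h₁ : (y₁ : LaurentSeries Kbar) ∈ gRing A)
      (h₂ : ((W M q hq hqM y₁ : FN (M * q)) : LaurentSeries Kbar) ∈ gRing A),
      a ≠ 0 ∧ y = algebraMap Kbar (FN (M * q)) a * y₁ ∧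
      gRes A ⟨_, h₁⟩ ∈ modularFunctionFieldFullC (IsLocalRing.ResidueField ↥A) M ∧
      gRes A ⟨_, h₂⟩ ∈ modularFunctionFieldFullC (IsLocalRing.ResidueField ↥A) M ∧
      (gRes A ⟨_, h₁⟩ ≠ 0 ∨ gRes A ⟨_, h₂⟩ ≠ 0) := by
  classical
  have hchar := Hecke.charP_residueField A hq hA
  have hfact : Fact q.Prime := ⟨hq⟩
  have hM := natCast_M_ne_zero A M q hq hqM hA
  obtain ⟨n, z, hn0, hz, hfin, -⟩ := exists_gaussBasis A M hM
  have hM0 : ((M : ℕ) : Kbar) ≠ 0 := by exact_mod_cast NeZero.ne M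
  have hn : n = dedekindPsi M := by
    rw [← hfin]
    exact (Igusa.finrank_jb_eq Kbar M hM0).symm.trans (Igusa.finrank_jb Kbar M hM0)
  have hfd : FiniteDimensional (IntermediateField.adjoin Kbar {jF (M * q)}) (FN (M * q)) :=
    finiteDimensional_jF (M * q)
  have hzj : ∀ p : Fin n × Fin q,
      iA A (z p.1 * jqModC ↥A ^ (p.2 : ℕ)) ∈ modularFunctionFieldFullC Kbar M := by
    intro p
    rw [map_mul, map_pow, iA_jqModC]
    exact mul_mem (hz.mem p.1) (pow_mem (jqModC_mem_full Kbar M) _)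
  obtain ⟨b, hbdef⟩ : ∃ b : Fin n ⊕ Fin n × Fin q → FN (M * q), b =
    Sum.elim (fun i => bInl A M q (z i) (hz.mem i)) (fun p => bInr A M q _ (hzj p)) := ⟨_, rfl⟩
  -- reductions of `b`
  have hb1 : ∀ i, PairNormRed A (pairNormI1 M q (b i))
      (Sum.elim (fun i => pA A (z i)) (fun _ => 0) i) := by
    rw [hbdef]
    rintro (i | p)
    · exact pairNorm_red_bInl A M q hq hA _ _
    · exact pairNorm_red_bInr A M q hq hA _ _
  have hb2 : ∀ i, PairNormRed A (pairNormI2 M q hq hqM (b i))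
      (Sum.elim (fun _ => 0) (fun p : Fin n × Fin q =>
        pA A (z p.1) * jqModC (IsLocalRing.ResidueField ↥A) ^ (p.2 : ℕ)) i) := by
    rw [hbdef]
    rintro (i | p)
    · rw [pairNormI2_apply, Sum.elim_inl, pairNorm_W_bInl A M q hq hqM hA]
      exact pairNorm_red_bInr A M q hq hA _ _
    · rw [pairNormI2_apply, Sum.elim_inr, pairNorm_W_bInr A M q hq hqM hA]
      have := pairNorm_red_bInl A M q hq hA _ (hzj p)
      rwa [map_mul, map_pow, pA_jqModC] at this
  -- the subfield `E`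
  have hE1 : ∀ c : IntermediateField.adjoin Kbar {jF (M * q)},
      pairNormI1 M q (algebraMap _ (FN (M * q)) c) ∈ IntermediateField.adjoin Kbar {jqModC Kbar} :=
    fun c => coe_mem_adjoin_j M q _ c.2
  have hE2 : ∀ c : IntermediateField.adjoin Kbar {jF (M * q)},
      pairNormI2 M q hq hqM (algebraMap _ (FN (M * q)) c) =
        qExpand Kbar q (pairNormI1 M q (algebraMap _ (FN (M * q)) c)) :=
    fun c => coe_W_of_mem_adjoin M q hq hqM _ c.2
  have hval : ∀ c : IntermediateField.adjoin Kbar {jF (M * q)},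
      pairNormI1 M q (algebraMap _ (FN (M * q)) c) ∈ gRing A ∨
        pairNormI1 M q (algebraMap _ (FN (M * q)) c⁻¹) ∈ gRing A := by
    intro c
    have := ratJ_val A _ (hE1 c)
    rwa [← map_inv₀, ← map_inv₀] at this
  have h12 : ∀ c : IntermediateField.adjoin Kbar {jF (M * q)},
      pairNormI1 M q (algebraMap _ (FN (M * q)) c) ∈ gRing A →
        pairNormI2 M q hq hqM (algebraMap _ (FN (M * q)) c) ∈ gRing A := by
    intro c hc
    rw [hE2]
    exact qExpand_mem_gRing A q hc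
  have hres12 : ∀ (c : IntermediateField.adjoin Kbar {jF (M * q)})
      (hc : pairNormI1 M q (algebraMap _ (FN (M * q)) c) ∈ gRing A)
      (hc' : pairNormI2 M q hq hqM (algebraMap _ (FN (M * q)) c) ∈ gRing A),
      gRes A ⟨_, hc'⟩ = qExpand (IsLocalRing.ResidueField ↥A) q (gRes A ⟨_, hc⟩) := by
    intro c hc hc'
    have h := (PairNormRed.mk' hc).qExp q
    rw [← hE2] at h
    exact h.eq _
  have hk : ∀ (c : IntermediateField.adjoin Kbar {jF (M * q)})
      (hc : pairNormI1 M q (algebraMap _ (FN (M * q)) c) ∈ gRing A),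
      gRes A ⟨_, hc⟩ ∈ IntermediateField.adjoin (IsLocalRing.ResidueField ↥A)
        {jqModC (IsLocalRing.ResidueField ↥A)} :=
    fun c hc => ratJ_res A ⟨_, hc⟩ (hE1 c)
  have hcard : Module.finrank (IntermediateField.adjoin Kbar {jF (M * q)}) (FN (M * q)) ≤
      Fintype.card (Fin n ⊕ Fin n × Fin q) := by
    rw [Hecke.finrank_jF, mul_comm M q,
      Lib.Gamma0Count.dedekindPsi_prime_mul_of_not_dvd hq (NeZero.ne M) hqM, ← hn,
      Fintype.card_sum, Fintype.card_prod, Fintype.card_fin, Fintype.card_fin]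
    apply le_of_eq
    ring
  have hind : ∀ (c : Fin n ⊕ Fin n × Fin q → IntermediateField.adjoin Kbar {jF (M * q)})
      (hc : ∀ i, pairNormI1 M q (algebraMap _ (FN (M * q)) (c i)) ∈ gRing A),
      ∑ i, gRes A ⟨_, hc i⟩ * gRes A ⟨_, (hb1 i).mem⟩ = 0 →
      ∑ i, gRes A ⟨_, h12 _ (hc i)⟩ * gRes A ⟨_, (hb2 i).mem⟩ = 0 →
      ∀ i, gRes A ⟨_, hc i⟩ = 0 := by
    intro c hc hs1 hs2
    have e1 : ∑ i : Fin n, gRes A ⟨_, hc (Sum.inl i)⟩ * pA A (z i) = 0 := by
      rw [← hs1, Fintype.sum_sum_type]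
      have h0 : ∀ p : Fin n × Fin q, gRes A ⟨_, hc (Sum.inr p)⟩ *
          gRes A ⟨_, (hb1 (Sum.inr p)).mem⟩ = 0 := fun p => by
        rw [(hb1 (Sum.inr p)).eq]; exact mul_zero _
      rw [Finset.sum_eq_zero (fun p _ => h0 p), add_zero]
      exact Finset.sum_congr rfl fun i _ => by rw [(hb1 (Sum.inl i)).eq]; rfl
    have e2 : ∑ p : Fin n × Fin q, qExpand _ q (gRes A ⟨_, hc (Sum.inr p)⟩) *
        (pA A (z p.1) * jqModC (IsLocalRing.ResidueField ↥A) ^ (p.2 : ℕ)) = 0 := by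
      rw [← hs2, Fintype.sum_sum_type]
      have h0 : ∀ i : Fin n, gRes A ⟨_, h12 _ (hc (Sum.inl i))⟩ *
          gRes A ⟨_, (hb2 (Sum.inl i)).mem⟩ = 0 := fun i => by
        rw [(hb2 (Sum.inl i)).eq]; exact mul_zero _
      rw [Finset.sum_eq_zero (fun i _ => h0 i), zero_add]
      exact Finset.sum_congr rfl fun p _ => by
        rw [(hb2 (Sum.inr p)).eq, hres12 _ (hc (Sum.inr p))]; rfl
    have z1 := hz.indep_res (fun i => gRes A ⟨_, hc (Sum.inl i)⟩) (fun i => hk _ _) e1
    have z2 := indep_frob A M q hq hA hz (fun p => gRes A ⟨_, hc (Sum.inr p)⟩)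
      (fun p => hk _ _) e2
    rintro (i | p)
    · exact congrFun z1 i
    · exact congrFun z2 p
  obtain ⟨c₀, c, hc₀, hc, hyc, i₀, hi₀⟩ := pair_scale (gRing A) (gRes A) (pairNormI1 M q)
    (pairNormI2 M q hq hqM) hval h12 hcard b (fun i => (hb1 i).mem) (fun i => (hb2 i).mem)
    hind y hy
  obtain ⟨y', hy'⟩ : ∃ y' : FN (M * q), y' = ∑ i, c i • b i := ⟨_, rfl⟩
  obtain ⟨r₁, hr₁⟩ : ∃ r₁, r₁ = ∑ i, gRes A ⟨_, hc i⟩ * gRes A ⟨_, (hb1 i).mem⟩ := ⟨_, rfl⟩
  obtain ⟨r₂, hr₂⟩ : ∃ r₂, r₂ = ∑ i, gRes A ⟨_, h12 _ (hc i)⟩ * gRes A ⟨_, (hb2 i).mem⟩ :=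
    ⟨_, rfl⟩
  have R1 : PairNormRed A (pairNormI1 M q y') r₁ := by
    have : pairNormI1 M q y' =
        ∑ i, pairNormI1 M q (algebraMap _ (FN (M * q)) (c i)) * pairNormI1 M q (b i) := by
      rw [hy', map_sum]
      exact Finset.sum_congr rfl fun i _ => by rw [Algebra.smul_def, map_mul]
    rw [this, hr₁]
    exact PairNormRed.sum _ _ _ fun i _ =>
      (PairNormRed.mk' (hc i)).mul (PairNormRed.mk' (hb1 i).mem)
  have R2 : PairNormRed A (pairNormI2 M q hq hqM y') r₂ := by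
    have : pairNormI2 M q hq hqM y' =
        ∑ i, pairNormI2 M q hq hqM (algebraMap _ (FN (M * q)) (c i)) *
          pairNormI2 M q hq hqM (b i) := by
      rw [hy', map_sum]
      exact Finset.sum_congr rfl fun i _ => by rw [Algebra.smul_def, map_mul]
    rw [this, hr₂]
    exact PairNormRed.sum _ _ _ fun i _ =>
      (PairNormRed.mk' (h12 _ (hc i))).mul (PairNormRed.mk' (hb2 i).mem)
  have hr : r₁ ≠ 0 ∨ r₂ ≠ 0 := by
    by_contra hcon
    rw [not_or, not_not, not_not] at hcon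
    have h0 := hind c hc (hr₁ ▸ hcon.1) (hr₂ ▸ hcon.2) i₀
    have h1 : (⟨_, hc i₀⟩ : gRing A) = 1 := Subtype.ext (by
      show pairNormI1 M q (algebraMap _ (FN (M * q)) (c i₀)) = 1
      rw [hi₀, map_one, map_one])
    rw [h1, map_one] at h0
    exact one_ne_zero h0
  have hm1 : r₁ ∈ modularFunctionFieldFullC (IsLocalRing.ResidueField ↥A) M := by
    rw [hr₁]
    refine sum_mem fun i _ => mul_mem (adjoin_j_le _ M (hk _ _)) ?_
    rw [(hb1 i).eq]
    rcases i with i | p
    · exact hz.mem_res i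
    · exact zero_mem _
  have hm2 : r₂ ∈ modularFunctionFieldFullC (IsLocalRing.ResidueField ↥A) M := by
    rw [hr₂]
    refine sum_mem fun i _ => mul_mem ?_ ?_
    · rw [hres12 _ (hc i)]
      exact adjoin_j_le _ M (qExpand_mem_adjoin_j _ q (hk _ _))
    · rw [(hb2 i).eq]
      rcases i with i | p
      · exact zero_mem _
      · exact mul_mem (hz.mem_res p.1) (pow_mem (jqModC_mem_full _ M) _)
  have hc₀' : pairNormI1 M q (algebraMap _ (FN (M * q)) c₀) ≠ 0 := by
    rw [Ne, map_eq_zero, map_eq_zero]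
    exact hc₀
  obtain ⟨a, u, ha, hcu, hu, hmem⟩ := ratJ_normalise A _ (hE1 c₀) hc₀'
  have hCa : (HahnSeries.C a⁻¹ : LaurentSeries Kbar) * HahnSeries.C a = 1 := by
    rw [← map_mul, inv_mul_cancel₀ ha, map_one]
  obtain ⟨y₁, hy₁⟩ : ∃ y₁ : FN (M * q), y₁ =
    algebraMap Kbar (FN (M * q)) a⁻¹ * algebraMap _ (FN (M * q)) c₀ * y' := ⟨_, rfl⟩
  have S1 : PairNormRed A (pairNormI1 M q y₁) (gRes A u * r₁) := by
    have : pairNormI1 M q y₁ = (u : LaurentSeries Kbar) * pairNormI1 M q y' := by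
      rw [hy₁, map_mul, map_mul, pairNormI1_algebraMap, hcu, ← mul_assoc, hCa, one_mul]
    rw [this]
    exact (PairNormRed.mk' u.2).mul R1
  have S2 : PairNormRed A (pairNormI2 M q hq hqM y₁)
      (qExpand _ q (gRes A u) * r₂) := by
    have : pairNormI2 M q hq hqM y₁ =
        qExpand Kbar q (u : LaurentSeries Kbar) * pairNormI2 M q hq hqM y' := by
      rw [hy₁, map_mul, map_mul, pairNormI2_algebraMap, hE2, hcu, map_mul, qExpand_C,
        ← mul_assoc, hCa, one_mul]
    rw [this]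
    exact ((PairNormRed.mk' u.2).qExp q).mul R2
  have e1 : gRes A ⟨(y₁ : LaurentSeries Kbar), S1.mem⟩ = gRes A u * r₁ := S1.eq _
  have e2 : gRes A ⟨((W M q hq hqM y₁ : FN (M * q)) : LaurentSeries Kbar), S2.mem⟩ =
      qExpand _ q (gRes A u) * r₂ := S2.eq _
  have hu' : qExpand (IsLocalRing.ResidueField ↥A) q (gRes A u) ≠ 0 :=
    (map_ne_zero_iff _ (qExpand_injective (R := IsLocalRing.ResidueField ↥A) (N := q))).mpr hu
  refine ⟨a, y₁, S1.mem, S2.mem, ha, ?_, ?_, ?_, ?_⟩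
  · rw [hyc, ← hy', hy₁, Algebra.smul_def, ← mul_assoc, ← mul_assoc, ← map_mul,
      mul_inv_cancel₀ ha, map_one, one_mul]
  · rw [e1]
    exact mul_mem (adjoin_j_le _ M hmem) hm1
  · rw [e2]
    exact mul_mem (adjoin_j_le _ M (qExpand_mem_adjoin_j _ q hmem)) hm2
  · rw [e1, e2]
    rcases hr with h | h
    · exact Or.inl (mul_ne_zero hu h)
    · exact Or.inr (mul_ne_zero hu' h)

end Fermat.Agent.DR.Conc
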