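import Fermat.Agent.DR.Conc.XiAbs
import Fermat.Agent.DR.Conc.Multi
import Fermat.Agent.DR.Abs.Nodal.Defs

/-!
# DR/Conc, block Ξ (concrete): the coordinate `x = α ξ * β ξ` of design v2 and its reductions

`ξ = xiOf (q²) j` at level `M`, `x = xC = xiOf (q²) j * xiOf (q²) j_q` at level `M q`,
`ξ̄ = xib = xiOf (q²) j̄`, `σ = sig = ξ̄ ^ (q + 1)`.
-/

set_option autoImplicit false
set_option linter.unusedSectionVars false

noncomputable section

namespace Fermat.Agent.DR.Conc

open ModularCurve AlgebraicCurve Fermat.Agent.S24 Fermat.Agent.GAL Fermat.Agent.GAL.Gauss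
  Fermat.Agent.GAL.RED Fermat.Agent.DR.Gal Fermat.Agent.Lib.RR

/-! ### reduction of `xiOf` (abstract) -/

/-- `red (ξ(t)) = ξ(red t)` if `t` is integral and the reduced denominator does not vanish
(`red_add`, `red_mul`, `red_pow`, `red_sub`, `red_one`, `red_div`). -/
theorem RedData_red_xiOf {K F k Fb : Type*} [Field K] [Field F] [Algebra K F] [Field k] [Field Fb]
    [Algebra k Fb] (R : RedData K F k Fb) (n : ℕ) {t : F} (ht : t ∈ R.O)
    (hden : xiDen n (R.red t) ≠ 0) : R.red (xiOf n t) = xiOf n (R.red t) := by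
  have hy : yOf n t ∈ R.O := sub_mem (pow_mem ht n) ht
  have hyr : R.red (yOf n t) = yOf n (R.red t) := by
    rw [yOf, R.red_sub (pow_mem ht n) ht, R.red_pow, yOf]
  have h1 : (1 : F) ∈ R.O := one_mem _
  have hnum : xiNum n t ∈ R.O := add_mem (pow_mem hy 2) h1
  have hnumr : R.red (xiNum n t) = xiNum n (R.red t) := by
    rw [xiNum, R.red_add (pow_mem hy 2) h1, R.red_pow, hyr, R.red_one, xiNum]
  have hdenr : R.red (xiDen n t) = xiDen n (R.red t) := by
    rw [xiDen, R.red_add (add_mem (pow_mem hy 2) hy) h1, R.red_add (pow_mem hy 2) hy, R.red_pow,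
      hyr, R.red_one, xiDen]
  rw [xiOf, R.red_div hnum (by rw [hdenr]; exact hden), hnumr, hdenr, xiOf]

section char0

variable (M q : ℕ) [NeZero M] [NeZero q] (hq : q.Prime) (hqM : ¬ q ∣ M)

/-- `ξ` at level `M`. -/
def xiM : FN M := xiOf (q ^ 2) (jF M)

/-- **The coordinate** `x = α ξ * β ξ` at level `M q`. -/
def xC : FN (M * q) := xiOf (q ^ 2) (jN M q) * xiOf (q ^ 2) (jqN M q)

theorem alpha_xiM : heckeAlphaBar Kbar M q (xiM M q) = xiOf (q ^ 2) (jN M q) := by
  rw [xiM, jN_eq_alpha]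
  exact map_xiOf (heckeAlphaBar Kbar M q : FN M →+* FN (M * q)) _ _

theorem beta_xiM : heckeBetaBar Kbar M q (xiM M q) = xiOf (q ^ 2) (jqN M q) := by
  rw [xiM, jqN]
  exact map_xiOf (heckeBetaBar Kbar M q : FN M →+* FN (M * q)) _ _

theorem xC_eq : xC M q = heckeAlphaBar Kbar M q (xiM M q) * heckeBetaBar Kbar M q (xiM M q) := by
  rw [alpha_xiM, beta_xiM, xC]

theorem W_xC : W M q hq hqM (xC M q) = xC M q := by
  rw [xC_eq, map_mul, W_alpha, W_beta]
  exact mul_comm _ _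

include hq in
theorem two_le_sq : 2 ≤ q ^ 2 := by
  have := hq.two_le
  nlinarith

include hq in
theorem xiM_ne_zero : xiM M q ≠ 0 := xiOf_ne_zero (two_le_sq q hq) (transcendental_jF M)

include hq in
theorem xC_ne_zero : xC M q ≠ 0 := by
  rw [xC_eq]
  exact mul_ne_zero ((map_ne_zero _).2 (xiM_ne_zero M q hq)) ((map_ne_zero _).2 (xiM_ne_zero M q hq))

/-- (Ξ7) `x` is Galois invariant: `j` and `j_q` have rational coefficients
(`coeffMap_jqModC`, `coeffMap_qExpand`, `coe_jN`, `coe_jqN`; `σ • ·` is a ring automorphism: `map_xiOf`;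
see `gal_smul_jN` in `DR/Gal/Conc.lean`). -/
theorem gal_xC (σ : Kbar ≃ₐ[ℚ] Kbar) :
    arithmeticGalois (modularFunctionFieldFull (M * q)) σ • xC M q = xC M q := by
  have h1 : arithmeticRingAut (modularFunctionFieldFull (M * q)) σ (jN M q) = jN M q := by
    apply Subtype.ext
    rw [coe_arithmeticRingAut_apply, coe_jN, coeffMap_jqModC]
  have h2 : arithmeticRingAut (modularFunctionFieldFull (M * q)) σ (jqN M q) = jqN M q := by
    apply Subtype.ext
    rw [coe_arithmeticRingAut_apply, coe_jqN, coeffMap_qExpand, coeffMap_jqModC]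
  show arithmeticRingAut (modularFunctionFieldFull (M * q)) σ (xC M q) = _
  rw [xC, map_mul]
  have h3 := map_xiOf (arithmeticRingAut (modularFunctionFieldFull (M * q)) σ :
    FN (M * q) →+* FN (M * q)) (q ^ 2) (jN M q)
  have h4 := map_xiOf (arithmeticRingAut (modularFunctionFieldFull (M * q)) σ :
    FN (M * q) →+* FN (M * q)) (q ^ 2) (jqN M q)
  simp only [RingEquiv.coe_toRingHom] at h3 h4
  rw [h3, h4, h1, h2]

end char0

section charq

variable (k : Type) [Field k] (M : ℕ) [NeZero M] (q : ℕ) [NeZero q] [Fact q.Prime] [CharP k q]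
  [PerfectRing k q]

/-- `ξ̄`. -/
def xib : Igusa.E k M := xiOf (q ^ 2) (Igusa.jb k M)

/-- `σ = ξ̄ ^ (q + 1)`, the reduction of `x` for both valuations. -/
def sig : Igusa.E k M := xib k M q ^ (q + 1)

theorem two_le_sq' : 2 ≤ q ^ 2 := two_le_sq q (Fact.out : q.Prime)

theorem xib_ne_zero : xib k M q ≠ 0 :=
  xiOf_ne_zero (two_le_sq' q) (Igusa.transcendental_jb k M)

theorem sig_ne_zero : sig k M q ≠ 0 := pow_ne_zero _ (xib_ne_zero k M q)

theorem charP_E : CharP (Igusa.E k M) q :=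
  charP_of_injective_algebraMap (algebraMap k (Igusa.E k M)).injective q

theorem jb_ne_zero' : Igusa.jb k M ≠ 0 := fun h =>
  (Igusa.transcendental_jb k M) (h ▸ isAlgebraic_zero)

theorem Phi_xib : Phi k M q (xib k M q) = xib k M q ^ q := by
  have := charP_E k M q
  rw [xib, xiOf_pow_char q, ← Phi_jb]
  exact map_xiOf (Phi k M q : Igusa.E k M →+* Igusa.E k M) _ _

theorem Phi_sig : Phi k M q (sig k M q) = sig k M q ^ q := by
  rw [sig, map_pow, Phi_xib, ← pow_mul, ← pow_mul, mul_comm]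

theorem FrE_xib : FrE k M q (xib k M q) = xib k M q := by
  have h := map_xiOf (FrE k M q : Igusa.E k M →+* Igusa.E k M) (q ^ 2) (Igusa.jb k M)
  have h2 : (FrE k M q : Igusa.E k M →+* Igusa.E k M) (Igusa.jb k M) = Igusa.jb k M := FrE_jb k M q
  rw [h2] at h
  exact h

theorem FrE_sig : FrE k M q (sig k M q) = sig k M q := by
  rw [sig, map_pow, FrE_xib]

/-- `y(j̄) = Φ² j̄ - j̄`. -/
theorem yOf_jb : yOf (q ^ 2) (Igusa.jb k M) =
    Phi k M q (Phi k M q (Igusa.jb k M)) - Igusa.jb k M := by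
  rw [Phi_jb, map_pow, Phi_jb, ← pow_mul, ← pow_two, yOf]

/-- **The relative Frobenius** in the format of `DR/Abs/Nodal`. -/
def frobX : Nodal.Frob k (Igusa.E k M) where
  q := q
  two_le := (Fact.out : q.Prime).two_le
  Φs := Phi k M q
  Φ := fun P => Fr k M q • P
  ord_Φs := ord_Phi k M q

variable [IsAlgClosed k] [Lib.RR.IsFF k (Igusa.E k M)]

/-- (Ξ8) `y(j̄)` has a zero or a pole at every fixed point of `Φ²`.
PROOF. If `ord_P j̄ < 0`: `ord_P (j̄ ^ (q²)) = q² ord_P j̄ < ord_P j̄`, so `ord_P y = q² ord_P j̄ < 0`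
(`RED.ord_add_eq_of_lt`/`ord_sub`).  Otherwise there is `c : k` with `j̄ = c` (impossible, `j̄` transcendental) or
`ord_P (j̄ - c) > 0` (`k` algebraically closed, residue field `k`: `Lib.PlaceEval.ev`, `ord_sub_ev_pos` or the like).
`u₁ := j̄ - c`: `Φ² u₁ = Φ² j̄ - c` (`AlgHom.commutes`), `ord_P (Φ² u₁) = q * q * ord_{Fr • Fr • P} u₁ = q² ord_P u₁ > 0`
(`ord_Phi` twice, `hP`), so `y = Φ² u₁ - u₁` (`yOf_jb`) is a nonzero (`yOf_ne_zero`) sum of two elements of positive order. -/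
theorem ord_yOf_jb_ne_zero (P : Place k (Igusa.E k M)) (hP : Fr k M q • Fr k M q • P = P) :
    P.ord (yOf (q ^ 2) (Igusa.jb k M)) ≠ 0 := by
  have hq2 : 2 ≤ q ^ 2 := two_le_sq' q
  have hj0 : Igusa.jb k M ≠ 0 := jb_ne_zero' k M
  have hy0 : yOf (q ^ 2) (Igusa.jb k M) ≠ 0 := yOf_ne_zero hq2 (Igusa.transcendental_jb k M)
  rcases lt_or_ge (P.ord (Igusa.jb k M)) 0 with hneg | hpos
  · -- pole of `j̄`
    have h1 : P.ord (Igusa.jb k M ^ (q ^ 2)) = ((q ^ 2 : ℕ) : ℤ) * P.ord (Igusa.jb k M) :=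
      RED.ord_pow P _ _
    have hq2' : (2 : ℤ) ≤ ((q ^ 2 : ℕ) : ℤ) := by exact_mod_cast hq2
    have h2 : P.ord (Igusa.jb k M ^ (q ^ 2)) < P.ord (-Igusa.jb k M) := by
      rw [RED.ord_neg, h1]
      nlinarith
    have h3 := RED.ord_add_eq_of_lt P (pow_ne_zero (q ^ 2) hj0) (neg_ne_zero.2 hj0) h2
    rw [yOf, sub_eq_add_neg, h3, h1]
    intro h0
    rcases mul_eq_zero.1 h0 with h | h
    · omega
    · omega
  · -- `j̄` regular at `P`
    set c : k := Lib.PlaceEval.ev P (Igusa.jb k M) with hc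
    rcases Lib.PlaceEval.ord_sub_ev_pos P hpos with h | h
    · exact absurd (h ▸ isAlgebraic_algebraMap (A := Igusa.E k M) c)
        (Igusa.transcendental_jb k M)
    · set u : Igusa.E k M := Igusa.jb k M - algebraMap k (Igusa.E k M) c with hu
      have hΦ : Phi k M q (Phi k M q u) =
          Phi k M q (Phi k M q (Igusa.jb k M)) - algebraMap k (Igusa.E k M) c := by
        rw [hu, map_sub, map_sub, AlgHom.commutes, AlgHom.commutes]
      have hord : P.ord (Phi k M q (Phi k M q u)) = q * (q * P.ord u) := by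
        rw [ord_Phi, ord_Phi, hP]
      have hy : yOf (q ^ 2) (Igusa.jb k M) = Phi k M q (Phi k M q u) + -u := by
        rw [yOf_jb, hΦ, hu]; ring
      have hmin := RED.min_le_ord_add P (f := Phi k M q (Phi k M q u)) (g := -u) (hy ▸ hy0)
      rw [← hy, RED.ord_neg, hord] at hmin
      have hqpos : (0 : ℤ) < q := by exact_mod_cast (Fact.out : q.Prime).pos
      have h4 : 0 < (q : ℤ) * (q * P.ord u) := by positivity
      have h5 : 0 < min ((q : ℤ) * (q * P.ord u)) (P.ord u) := lt_min h4 h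
      omega

/-- `fix_unit`. -/
theorem ord_sig_of_fix (P : Place k (Igusa.E k M)) (hP : Fr k M q • Fr k M q • P = P) :
    P.ord (sig k M q) = 0 := by
  rw [sig, RED.ord_pow, xib, ord_xiOf_eq_zero (two_le_sq' q) (Igusa.transcendental_jb k M) P
    (ord_yOf_jb_ne_zero k M q P hP), mul_zero]

end charq

section red

variable (A : ValuationSubring Kbar) (M q : ℕ) [NeZero M] [NeZero q] (hq : q.Prime)
  (hqM : ¬ q ∣ M) (hA : A.LiesOverPrime q)
  [Fact q.Prime] [CharP (IsLocalRing.ResidueField ↥A) q] [PerfectRing (IsLocalRing.ResidueField ↥A) q]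

/-- (Ξ9) `RM_red_jF`, `RedData_red_xiOf`, `xiDen_ne_zero`. -/
theorem RM_red_xiM : (RMq A M q hq hqM hA).red (xiM M q) = xib (IsLocalRing.ResidueField ↥A) M q := by
  have h1 : (RMq A M q hq hqM hA).red (jF M) = Igusa.jb (IsLocalRing.ResidueField ↥A) M :=
    RM_red_jF A M _
  have h2 : jF M ∈ (RMq A M q hq hqM hA).O := by
    apply (RMq A M q hq hqM hA).mem_of_red_ne_zero
    rw [h1]
    exact jb_ne_zero' _ M
  rw [xiM, RedData_red_xiOf _ _ h2, h1, xib]
  rw [h1]
  exact xiDen_ne_zero (two_le_sq q hq) (Igusa.transcendental_jb (IsLocalRing.ResidueField ↥A) M)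

theorem xiM_mem_RM_O : xiM M q ∈ (RMq A M q hq hqM hA).O := by
  apply (RMq A M q hq hqM hA).mem_of_red_ne_zero
  rw [RM_red_xiM]
  exact xib_ne_zero _ M q

theorem R1_red_xC : (R1 A M q hq hqM hA).red (xC M q) = sig (IsLocalRing.ResidueField ↥A) M q := by
  rw [xC_eq, (R1 A M q hq hqM hA).red_mul
    ((alpha_mem_R1_O_iff A M q hq hqM hA _).2 (xiM_mem_RM_O A M q hq hqM hA))
    ((beta_mem_R1_O_iff A M q hq hqM hA _).2 (xiM_mem_RM_O A M q hq hqM hA)),
    R1_red_alpha, R1_red_beta, RM_red_xiM, Phi_xib, sig, pow_succ']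

theorem R2_red_xC : (R2 A M q hq hqM hA).red (xC M q) = sig (IsLocalRing.ResidueField ↥A) M q := by
  rw [R2_red, W_xC, R1_red_xC]

theorem TT_red_xC (i : Fin 2) :
    ((TT A M q hq hqM hA).R i).red (xC M q) = sig (IsLocalRing.ResidueField ↥A) M q := by
  fin_cases i
  · exact R1_red_xC A M q hq hqM hA
  · exact R2_red_xC A M q hq hqM hA

end red

end Fermat.Agent.DR.Conc
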