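import Fermat.Agent.DR.Conc.Xi
import Fermat.Agent.DR.Abs.PoleBound

/-!
# DR/Conc, block Ξ (degrees): `deg (x)_∞ = 2 deg (σ)_∞`, and no cancellation between `α ξ` and `β ξ`
-/

set_option autoImplicit false
set_option linter.unusedSectionVars false

noncomputable section

namespace Fermat.Agent.DR.Conc

open ModularCurve AlgebraicCurve Fermat.Agent.S24 Fermat.Agent.GAL Fermat.Agent.GAL.Gauss
  Fermat.Agent.GAL.RED Fermat.Agent.DR.Gal Fermat.Agent.Lib.RR

section char0

variable (M q : ℕ) [NeZero M] [NeZero q] (hq : q.Prime) (hqM : ¬ q ∣ M)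

/-- `deg (j)_∞ = ψ(M)` at level `M` (as `Coord_degree_poleDiv_jN`). -/
theorem degree_poleDiv_jF [Lib.RR.IsFF Kbar (FN M)] :
    Divisor.degree (RED.poleDiv (K := Kbar) (jF M)) = (dedekindPsi M : ℕ) := by
  have := finiteDimensional_jF M
  have : CharZero ↥(IntermediateField.adjoin Kbar {jF M}) :=
    charZero_of_injective_algebraMap
      (algebraMap Kbar ↥(IntermediateField.adjoin Kbar {jF M})).injective
  have : Algebra.IsIntegral ↥(IntermediateField.adjoin Kbar {jF M}) (FN M) :=
    Algebra.IsIntegral.of_finite _ _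
  have : Algebra.IsSeparable ↥(IntermediateField.adjoin Kbar {jF M}) (FN M) :=
    Algebra.IsSeparable.of_integral _ _
  rw [Coord_poleDiv_eq, Igusa.degree_poleDiv (jF M) (transcendental_jF M), Hecke.finrank_jF]

include hq in
theorem degree_poleDiv_xiM [Lib.RR.IsFF Kbar (FN M)] :
    Divisor.degree (RED.poleDiv (K := Kbar) (xiM M q)) = 2 * (q ^ 2 : ℕ) * (dedekindPsi M : ℕ) := by
  rw [xiM, degree_poleDiv_xiOf (two_le_sq q hq) (transcendental_jF M), degree_poleDiv_jF]

variable [Lib.RR.IsFF Kbar (FN (M * q))]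

include hq hqM in
theorem degree_poleDiv_alpha_xiM :
    Divisor.degree (RED.poleDiv (K := Kbar) (heckeAlphaBar Kbar M q (xiM M q))) =
      2 * (q ^ 2 : ℕ) * ((q + 1) * dedekindPsi M : ℕ) := by
  rw [alpha_xiM, degree_poleDiv_xiOf (two_le_sq q hq) (Coord_transcendental_jN M q),
    Coord_degree_poleDiv_jN, Coord_dedekindPsi M q hq hqM]

include hq hqM in
theorem degree_poleDiv_beta_xiM :
    Divisor.degree (RED.poleDiv (K := Kbar) (heckeBetaBar Kbar M q (xiM M q))) =
      2 * (q ^ 2 : ℕ) * ((q + 1) * dedekindPsi M : ℕ) := by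
  rw [← W_alpha M q hq hqM, Coord_poleDiv_algEquiv, SemilinearAut.degree_smul,
    degree_poleDiv_alpha_xiM M q hq hqM]

end char0

section charq

variable (k : Type) [Field k] (M : ℕ) [NeZero M] (q : ℕ) [NeZero q] [Fact q.Prime] [CharP k q]
  [PerfectRing k q] [IsAlgClosed k] [Lib.RR.IsFF k (Igusa.E k M)] (hM : ((M : ℕ) : k) ≠ 0)

include hM in
/-- as in `degree_poleDiv_xb` of `Coord.lean`. -/
theorem degree_poleDiv_jb :
    Divisor.degree (RED.poleDiv (K := k) (Igusa.jb k M)) = (dedekindPsi M : ℕ) := by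
  have := Igusa.finiteDimensional_jb k M hM
  have := Igusa.isSeparable_jb k M hM
  rw [Coord_poleDiv_eq,
    Igusa.degree_poleDiv (Igusa.jb k M) (Igusa.transcendental_jb k M), Igusa.finrank_jb k M hM]

include hM in
theorem degree_poleDiv_xib :
    Divisor.degree (RED.poleDiv (K := k) (xib k M q)) = 2 * (q ^ 2 : ℕ) * (dedekindPsi M : ℕ) := by
  rw [xib, degree_poleDiv_xiOf (two_le_sq' q) (Igusa.transcendental_jb k M),
    degree_poleDiv_jb k M hM]

include hM in
theorem degree_poleDiv_sig :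
    Divisor.degree (RED.poleDiv (K := k) (sig k M q)) =
      2 * (q ^ 2 : ℕ) * ((q + 1) * dedekindPsi M : ℕ) := by
  rw [sig, Coord_poleDiv_pow, map_nsmul, degree_poleDiv_xib k M q hM]
  push_cast
  simp only [nsmul_eq_mul]
  push_cast
  ring

include hM in
/-- `ψ(M) > 0`. -/
theorem degree_poleDiv_sig_pos : 0 < Divisor.degree (RED.poleDiv (K := k) (sig k M q)) := by
  have := Igusa.finiteDimensional_jb k M hM
  have h1 : 0 < dedekindPsi M := by
    rw [← Igusa.finrank_jb k M hM]
    exact Module.finrank_pos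
  have hq : 0 < q := Nat.pos_of_ne_zero (NeZero.ne q)
  rw [degree_poleDiv_sig k M q hM]
  positivity

include hM in
/-- `σ` has a pole (its polar divisor has positive degree). -/
theorem exists_pole_sig : ∃ P : Place k (Igusa.E k M), P.ord (sig k M q) < 0 := by
  by_contra hcon
  push Not at hcon
  have h0 : RED.poleDiv (K := k) (sig k M q) = 0 := by
    ext P
    rw [RED.poleDiv_apply, max_eq_right (by have := hcon P; omega)]
    rfl
  have h1 := degree_poleDiv_sig_pos k M q hM
  rw [h0, map_zero] at h1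
  exact lt_irrefl _ h1

include hM in
/-- `σ` is not constant (a constant has no pole: `ord_algebraMap`). -/
theorem sig_not_mem_range : sig k M q ∉ Set.range (algebraMap k (Igusa.E k M)) := by
  obtain ⟨P, hP⟩ := exists_pole_sig k M q hM
  rintro ⟨c, hc⟩
  rw [← hc, RED.ord_algebraMap] at hP
  exact lt_irrefl _ hP

include hM in
theorem xib_not_mem_range : xib k M q ∉ Set.range (algebraMap k (Igusa.E k M)) := by
  rintro ⟨c, hc⟩
  exact sig_not_mem_range k M q hM ⟨c ^ (q + 1), by rw [map_pow, hc, sig]⟩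

/-- valuation rings are integrally closed. -/
theorem XiDeg_pow_mem_iff {F : Type*} [Field F] (V : ValuationSubring F) (z : F) (n : ℕ) :
    z ^ (n + 1) ∈ V ↔ z ∈ V := by
  constructor
  · intro h
    by_contra hz
    have hinv := (V.mem_or_inv_mem z).resolve_left hz
    have hz0 : z ≠ 0 := fun h0 => hz (h0 ▸ V.zero_mem)
    have e : z = z ^ (n + 1) * z⁻¹ ^ n := by
      rw [pow_succ, inv_pow]
      field_simp
    apply hz
    rw [e]
    exact V.mul_mem _ _ h (V.pow_mem hinv n)
  · intro h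
    exact V.pow_mem h _

theorem XiDeg_regOff_pow {K F : Type*} [Field K] [Field F] [Algebra K F] (z : F) (n : ℕ) :
    regOff K (z ^ (n + 1)) = regOff K z := by
  ext y
  simp only [mem_regOff, XiDeg_pow_mem_iff]

/-- the poles of `σ = ξ̄ ^ (q + 1)` are the poles of `ξ̄`. -/
theorem regOff_sig : regOff k (sig k M q) = regOff k (xib k M q) := by
  rw [sig, XiDeg_regOff_pow]

theorem regOff_sig_inv : regOff k (sig k M q)⁻¹ = regOff k (xib k M q)⁻¹ := by
  rw [sig, ← inv_pow, XiDeg_regOff_pow]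

end charq

section pair

variable (A : ValuationSubring Kbar) (M q : ℕ) [NeZero M] [NeZero q] (hq : q.Prime)
  (hqM : ¬ q ∣ M) (hA : A.LiesOverPrime q)
  [Fact q.Prime] [CharP (IsLocalRing.ResidueField ↥A) q] [PerfectRing (IsLocalRing.ResidueField ↥A) q]
  [IsAlgClosed (IsLocalRing.ResidueField ↥A)]
  [Lib.RR.IsFF (IsLocalRing.ResidueField ↥A) (Igusa.E (IsLocalRing.ResidueField ↥A) M)]
  [Lib.RR.IsFF Kbar (FN (M * q))]

include A hq hqM hA in
/-- `deg (x)_∞ ≤ deg (α ξ)_∞ + deg (β ξ)_∞ = 2 deg (σ)_∞`. -/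
theorem degree_poleDiv_xC_le :
    Divisor.degree (RED.poleDiv (K := Kbar) (xC M q)) ≤
      2 * Divisor.degree (RED.poleDiv (K := IsLocalRing.ResidueField ↥A)
        (sig (IsLocalRing.ResidueField ↥A) M q)) := by
  rw [degree_poleDiv_sig _ M q (natCast_M_ne_zero A M q hq hqM hA), xC_eq]
  refine (degree_poleDiv_mul_le ((map_ne_zero _).2 (xiM_ne_zero M q hq))
    ((map_ne_zero _).2 (xiM_ne_zero M q hq))).trans ?_
  rw [degree_poleDiv_alpha_xiM M q hq hqM, degree_poleDiv_beta_xiM M q hq hqM]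
  linarith

include A hq hqM hA in
/-- the fundamental inequality (`Abs.MultiRed.sum_degree_poleDiv_red_le`) for `x`. -/
theorem le_degree_poleDiv_xC :
    2 * Divisor.degree (RED.poleDiv (K := IsLocalRing.ResidueField ↥A)
        (sig (IsLocalRing.ResidueField ↥A) M q)) ≤
      Divisor.degree (RED.poleDiv (K := Kbar) (xC M q)) := by
  have h := (TT A M q hq hqM hA).sum_degree_poleDiv_red_le (TT_sep A M q hq hqM hA) (xC M q)
    (fun i => by
      rw [TT_red_xC]
      exact sig_not_mem_range _ M q (natCast_M_ne_zero A M q hq hqM hA))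
  rw [Fin.sum_univ_two, TT_red_xC, TT_red_xC] at h
  linarith

include A hq hqM hA in
/-- **the degree identity.** -/
theorem degree_poleDiv_xC :
    Divisor.degree (RED.poleDiv (K := Kbar) (xC M q)) =
      2 * Divisor.degree (RED.poleDiv (K := IsLocalRing.ResidueField ↥A)
        (sig (IsLocalRing.ResidueField ↥A) M q)) :=
  le_antisymm (degree_poleDiv_xC_le A M q hq hqM hA) (le_degree_poleDiv_xC A M q hq hqM hA)

include A hq hqM hA in
/-- **no cancellation**: `(x)_∞ = (α ξ)_∞ + (β ξ)_∞`. -/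
theorem poleDiv_xC :
    RED.poleDiv (K := Kbar) (heckeAlphaBar Kbar M q (xiM M q) * heckeBetaBar Kbar M q (xiM M q)) =
      RED.poleDiv (K := Kbar) (heckeAlphaBar Kbar M q (xiM M q)) +
        RED.poleDiv (K := Kbar) (heckeBetaBar Kbar M q (xiM M q)) := by
  apply poleDiv_mul_eq_of_degree_le ((map_ne_zero _).2 (xiM_ne_zero M q hq))
    ((map_ne_zero _).2 (xiM_ne_zero M q hq))
  rw [← xC_eq, degree_poleDiv_xC A M q hq hqM hA,
    degree_poleDiv_sig _ M q (natCast_M_ne_zero A M q hq hqM hA),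
    degree_poleDiv_alpha_xiM M q hq hqM, degree_poleDiv_beta_xiM M q hq hqM]
  linarith

include A hq hqM hA in
/-- **no cancellation** for the zeros: `(x)_0 = (α ξ)_0 + (β ξ)_0`. -/
theorem poleDiv_xC_inv :
    RED.poleDiv (K := Kbar)
        ((heckeAlphaBar Kbar M q (xiM M q))⁻¹ * (heckeBetaBar Kbar M q (xiM M q))⁻¹) =
      RED.poleDiv (K := Kbar) (heckeAlphaBar Kbar M q (xiM M q))⁻¹ +
        RED.poleDiv (K := Kbar) (heckeBetaBar Kbar M q (xiM M q))⁻¹ := by
  apply poleDiv_mul_eq_of_degree_le (inv_ne_zero ((map_ne_zero _).2 (xiM_ne_zero M q hq)))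
    (inv_ne_zero ((map_ne_zero _).2 (xiM_ne_zero M q hq)))
  rw [← mul_inv, ← xC_eq, degree_poleDiv_inv, degree_poleDiv_inv, degree_poleDiv_inv,
    degree_poleDiv_xC A M q hq hqM hA,
    degree_poleDiv_sig _ M q (natCast_M_ne_zero A M q hq hqM hA),
    degree_poleDiv_alpha_xiM M q hq hqM, degree_poleDiv_beta_xiM M q hq hqM]
  linarith

end pair

end Fermat.Agent.DR.Conc
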